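import Fermat.Agent.Two.Brandt.Setup
import Fermat.Agent.Two.Flat.Residual
import Mathlib.Data.ZMod.Basic
import Fermat.Agent.Two.Class.Transvection

/-!
# The bad level of an auxiliary curve modulo eight
-/

set_option autoImplicit false

noncomputable section

namespace Fermat.Agent.Two.Brandt

open Fermat.Agent.Two

variable {W : WeierstrassCurve ℤ}

theorem discr_emod_eight (hW : TwoCurve W) : W.Δ % 8 = 5 := by
  obtain ⟨β, hβ⟩ := Fermat.Agent.Two.Flat.four_dvd_b₂ hW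
  obtain ⟨δ, hδ⟩ := Fermat.Agent.Two.Flat.two_dvd_b₄ hW
  have hodd : W.b₆ % 2 = 1 := Int.emod_two_ne_zero.mp fun h =>
    Fermat.Agent.Two.Flat.not_two_dvd_b₆ hW (Int.dvd_of_emod_eq_zero h)
  obtain ⟨γ, hγ⟩ : ∃ γ, W.b₆ = 2 * γ + 1 := ⟨W.b₆ / 2, by omega⟩
  obtain ⟨t, ht⟩ : ∃ t, γ * (γ + 1) = 2 * t := (Int.even_mul_succ_self γ).two_dvd
  have h : W.Δ = 8 * (-2 * β ^ 2 * W.b₈ - 8 * δ ^ 3 - 27 * t + 9 * β * δ * W.b₆ - 4) + 5 := by
    simp only [WeierstrassCurve.Δ, hβ, hδ, hγ]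
    linear_combination (-108) * ht
  omega

theorem zmod_eight_pow_odd : ∀ x : ZMod 8, x.val % 2 = 1 → x ^ 2 = 1 := by decide

/-- **The bad level is `3` modulo `8`.** -/
theorem badLevel_emod_eight (hW : TwoCurve W) : badLevel W % 8 = 3 := by
  have hΔ := discr_emod_eight hW
  have hneg := hW.Δ_neg
  have hn0 : W.Δ.natAbs ≠ 0 := Int.natAbs_ne_zero.mpr hW.Δ_ne_zero
  have hcast : (W.Δ.natAbs : ZMod 8) = (badLevel W : ZMod 8) := by
    conv_lhs => rw [← Nat.prod_factorization_pow_eq_self hn0, Finsupp.prod, Nat.support_factorization]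
    rw [badLevel, Nat.cast_prod, Nat.cast_prod]
    refine Finset.prod_congr rfl fun q hq => ?_
    obtain ⟨hqp, hqd, -⟩ := Nat.mem_primeFactors.mp hq
    have hqo : q % 2 = 1 := hqp.eq_two_or_odd.resolve_left fun h2 => by
      subst h2
      have : (2 : ℤ) ∣ W.Δ := by exact_mod_cast Int.natCast_dvd.mpr hqd
      omega
    obtain ⟨j, hj⟩ := hW.odd_val q hqp (Int.natCast_dvd.mpr hqd)
    have hsq : (q : ZMod 8) ^ 2 = 1 := zmod_eight_pow_odd _ (by
      rw [ZMod.val_natCast]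
      omega)
    rw [Nat.factorization_def _ hqp, Nat.cast_pow,
      show padicValNat q W.Δ.natAbs = 2 * j + 1 from hj, pow_add, pow_mul, hsq, one_pow, one_mul,
      pow_one]
  have h := (ZMod.natCast_eq_natCast_iff' _ _ 8).mp hcast
  omega

/-- The discriminant is minus the bad level times a square. -/
theorem exists_discr_eq (hW : TwoCurve W) : ∃ s : ℤ, W.Δ = -(badLevel W : ℤ) * s ^ 2 := by
  have hn0 : W.Δ.natAbs ≠ 0 := Int.natAbs_ne_zero.mpr hW.Δ_ne_zero
  choose j hj using fun (q : ℕ) (hq : q ∈ W.Δ.natAbs.primeFactors) =>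
    hW.odd_val q (Nat.prime_of_mem_primeFactors hq)
      (Int.natCast_dvd.mpr (Nat.dvd_of_mem_primeFactors hq))
  refine ⟨((∏ q ∈ W.Δ.natAbs.primeFactors.attach, q.1 ^ j q.1 q.2 : ℕ) : ℤ), ?_⟩
  have h : W.Δ.natAbs =
      badLevel W * (∏ q ∈ W.Δ.natAbs.primeFactors.attach, q.1 ^ j q.1 q.2) ^ 2 := by
    conv_lhs => rw [← Nat.prod_factorization_pow_eq_self hn0, Finsupp.prod,
      Nat.support_factorization]
    rw [badLevel, ← Finset.prod_pow, ← Finset.prod_attach W.Δ.natAbs.primeFactors (fun q => q),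
      ← Finset.prod_mul_distrib, ← Finset.prod_attach W.Δ.natAbs.primeFactors]
    refine Finset.prod_congr rfl fun q _ => ?_
    rw [Nat.factorization_def _ (Nat.prime_of_mem_primeFactors q.2),
      show padicValNat q.1 W.Δ.natAbs = 2 * j q.1 q.2 + 1 from hj q.1 q.2]
    ring
  rw [neg_mul, ← Nat.cast_pow, ← Nat.cast_mul, ← h,
    Int.ofNat_natAbs_of_nonpos hW.Δ_neg.le, neg_neg]

open Fermat.Agent.Arith Fermat.Agent.Two.Lower in
/-- **The auxiliary primes are inert in the quadratic field.** -/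
theorem jacobiSym_badLevel (hW : TwoCurve W) {v : ℕ} (hv : AuxPrime W hW.Δ_ne_zero v 1) :
    jacobiSym (-(badLevel W : ℤ)) v = -1 := by
  have : Fact (Nat.Prime 2) := ⟨Nat.prime_two⟩
  have : Fact v.Prime := ⟨hv.prime⟩
  obtain ⟨A, hA, σ, hσ, hall⟩ := unipotent_entries hW.Δ_ne_zero hv.unipotent
  obtain ⟨hsq, hne⟩ := hall 1 le_rfl
  obtain ⟨i, j, hij⟩ := hne one_ne_zero
  have hne1 : tateMod (p := 2) hW.Δ_ne_zero 1 σ ≠ 1 := fun e => hij (by
    rw [e, sub_self, Matrix.zero_apply, mul_zero])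
  have hΔv : ¬ (v : ℤ) ∣ W.Δ := hv.good
  obtain ⟨s, hs⟩ := exists_discr_eq hW
  rw [← jacobiSym.legendreSym.to_jacobiSym, legendreSym.eq_neg_one_iff]
  intro hsquare
  have hΔsq : IsSquare (W.Δ : ZMod v) := by
    obtain ⟨r, hr⟩ := hsquare
    refine ⟨r * s, ?_⟩
    rw [hs, Int.cast_mul, hr, Int.cast_pow]
    ring
  have hΔ0 : (W.Δ : ZMod v) ≠ 0 := fun h => hΔv ((ZMod.intCast_zmod_eq_zero_iff_dvd _ v).mp h)
  have heuler : ((W.Δ ^ (v / 2) - 1 : ℤ) : ZMod v) = 0 := by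
    rw [Int.cast_sub, Int.cast_pow, (ZMod.euler_criterion v hΔ0).mp hΔsq, Int.cast_one, sub_self]
  rw [ZMod.intCast_zmod_eq_zero_iff_dvd] at heuler
  obtain ⟨y, hy⟩ := IsAlgClosed.exists_pow_nat_eq (W.Δ : QBar) two_pos
  have hσy := Class.apply_sqrt_eq_neg hW.Δ_ne_zero hsq hne1 hy
  have hyA : y ∈ A := mem_of_isIntegral A (IsIntegral.of_pow two_pos (hy ▸ isIntegral_algebraMap))
  have hfrob := (isFrobeniusAt_iff_forall_mem.mp hσ).2 y hyA
  have hodd : v = 2 * (v / 2) + 1 := by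
    have := hv.prime.eq_two_or_odd.resolve_left hv.ne_two
    omega
  have hpow : y ^ v - y = y * ((W.Δ ^ (v / 2) - 1 : ℤ) : QBar) := by
    conv_lhs => rw [hodd, pow_succ, pow_mul, hy]
    push_cast
    ring
  have hmem : y ^ v - y ∈ A.nonunits :=
    hpow ▸ nonunits_mul_left hyA ((intCast_mem_nonunits_iff hA hv.prime _).mpr heuler)
  have h2y : ((4 * W.Δ : ℤ) : QBar) ∈ A.nonunits := by
    have h := nonunits_mul_left hyA (nonunits_neg (nonunits_add hfrob hmem))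
    rw [hσy] at h
    have h' := nonunits_mul_left (natCast_mem' A 2) h
    convert h' using 1
    push_cast
    linear_combination (-4 : QBar) * hy
  rw [intCast_mem_nonunits_iff hA hv.prime] at h2y
  rcases Int.Prime.dvd_mul' hv.prime h2y with h | h
  · have h' : v ∣ 2 ^ 2 := by exact_mod_cast h
    exact hv.ne_two ((Nat.prime_dvd_prime_iff_eq hv.prime Nat.prime_two).mp
      (hv.prime.dvd_of_dvd_pow h'))
  · exact hΔv h

/-- **The parameters exist.** -/
theorem exists_setup (hW : TwoCurve W) {V : Finset ℕ}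
    (hV : ∀ v ∈ V, AuxPrime W hW.Δ_ne_zero v 1 ∧ v % 12 = 1) : Nonempty (Setup W V) :=
  exists_setup_of hW (badLevel_emod_eight hW) fun v hv =>
    ⟨(hV v hv).1.prime, (hV v hv).1.ne_two, (hV v hv).2, jacobiSym_badLevel hW (hV v hv).1⟩

end Fermat.Agent.Two.Brandt

end
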