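import Fermat.Agent.Two.Brandt.Special
import Mathlib.RingTheory.Adjoin.Basic
import Mathlib.Data.Nat.Factorization.Basic

/-!
# The algebra of Hecke operators

At a nice prime (split outside the level, or special) the operators of the prime powers lie in the
algebra of the operator of the prime, and multiply with it by the local recursion.
-/

set_option autoImplicit false

noncomputable section

namespace Fermat.Agent.Two.Brandt.Param.Sub

variable {P : Param} {Λ : P.Sub} {p : Nat.Primes}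

attribute [local instance] fact_prime

variable (Λ) in
/-- A prime that is split outside the level, or special with the maximal local group, with the
prime acting trivially through the other local groups. -/
def IsNice (p : Nat.Primes) : Prop :=
  ((p ∉ Λ.bad ∧ P.IsSplitAt p) ∨ (P.IsSpecial p ∧ Λ.W p = P.localUnits p)) ∧
    ∀ q ∈ Λ.bad, q ≠ p → P.primeUnit p ∈ Λ.W q

theorem isNice_of_bad_eq_empty (hb : Λ.bad = ∅) (h : P.IsSplitAt p ∨ P.IsSpecial p) :
    Λ.IsNice p := by
  have hp : p ∉ Λ.bad := by simp [hb]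
  exact ⟨h.imp (fun h => ⟨hp, h⟩) fun h => ⟨h, Λ.eq p hp⟩, by simp [hb]⟩

theorem IsNice.W_eq (h : Λ.IsNice p) : Λ.W p = P.localUnits p :=
  h.1.elim (fun h => Λ.eq p h.1) fun h => h.2

/-- The operator of a prime power is the local operator. -/
theorem heckeT_prime_pow' (hW : Λ.W p = P.localUnits p) (r : ℕ) :
    Λ.heckeT ((p : ℕ) ^ r) = (Λ.cellOp p r).corr := by
  rcases eq_or_ne r 0 with rfl | hr
  · rw [pow_zero, heckeT_one, ← LocOp.corr_one]
    refine congrArg LocOp.corr (LocOp.ext ?_)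
    refine (Multiset.Nodup.ext (Multiset.nodup_singleton _) (nodup_cellOp p 0)).mpr fun c => ?_
    obtain ⟨g, rfl⟩ := QuotientGroup.mk_surjective c
    refine (Iff.trans ?_ (mem_cellOp_iff (Λ := Λ) (g := g)).symm)
    rw [cell_zero, ← hW, Multiset.mem_singleton, SetLike.mem_coe, QuotientGroup.eq, mul_one]
    exact inv_mem_iff
  · exact heckeT_prime_pow p r hr

theorem heckeT_prime' (hW : Λ.W p = P.localUnits p) :
    Λ.heckeT (p : ℕ) = (Λ.cellOp p 1).corr := by
  rw [← heckeT_prime_pow' hW 1, pow_one]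

/-- **Multiplication by a special prime.** -/
theorem heckeT_special_mul (hp : P.IsSpecial p) (hW : Λ.W p = P.localUnits p) {n : ℕ}
    (hn : n ≠ 0) : Λ.heckeT ((p : ℕ) * n) = (Λ.cellOp p 1).corr * Λ.heckeT n := by
  obtain ⟨k, m, hm, rfl⟩ := Nat.exists_eq_pow_mul_and_not_dvd hn (p : ℕ) p.2.ne_one
  have hcop : ∀ j, Nat.Coprime ((p : ℕ) ^ j) m := fun j =>
    (p.2.coprime_iff_not_dvd.mpr hm).pow_left j
  rw [← mul_assoc, ← pow_succ', heckeT_mul (hcop _), heckeT_mul (hcop _), heckeT_prime_pow' hW,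
    heckeT_prime_pow' hW, ← mul_assoc, ← LocOp.corr_mul, cellOp_mul hp hW, add_comm]

section Op

variable (R : Type*)

/-- **Multiplication by a split prime.** -/
theorem op_heckeT_prime_mul' [CommSemiring R] {l : Nat.Primes} (hl : l ∉ Λ.bad)
    (hs : P.IsSplitAt l) (hc : ∀ q ∈ Λ.bad, P.primeUnit l ∈ Λ.W q) {n : ℕ} (hn : n ≠ 0) :
    Corr.op R (Λ.heckeT (l : ℕ)) * Corr.op R (Λ.heckeT n) =
      Corr.op R (Λ.heckeT ((l : ℕ) * n)) +
        if (l : ℕ) ∣ n then (l : ℕ) • Corr.op R (Λ.heckeT (n / (l : ℕ))) else 0 := by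
  obtain ⟨k, m, hm, rfl⟩ := Nat.exists_eq_pow_mul_and_not_dvd hn (l : ℕ) l.2.ne_one
  have hcop : ∀ j, Nat.Coprime ((l : ℕ) ^ j) m := fun j =>
    (l.2.coprime_iff_not_dvd.mpr hm).pow_left j
  rcases k with _ | r
  · rw [pow_zero, one_mul, if_neg hm, add_zero,
      heckeT_mul (l.2.coprime_iff_not_dvd.mpr hm), map_mul]
  · have hdiv : (l : ℕ) ^ (r + 1) * m / (l : ℕ) = (l : ℕ) ^ r * m := by
      rw [pow_succ', mul_assoc, Nat.mul_div_cancel_left _ l.2.pos]
    rw [if_pos (dvd_mul_of_dvd_left (dvd_pow_self _ (Nat.succ_ne_zero r)) _), hdiv, ← mul_assoc,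
      ← pow_succ', heckeT_mul (hcop _), heckeT_mul (hcop _), heckeT_mul (hcop _), map_mul, map_mul,
      map_mul, ← mul_assoc, op_heckeT_prime_mul R hl hs hc r, add_mul, smul_mul_assoc]

variable [CommRing R]

/-- **The prime powers lie in the algebra of the prime.** -/
theorem op_heckeT_pow_mem_adjoin (h : Λ.IsNice p) :
    ∀ r, Corr.op R (Λ.heckeT ((p : ℕ) ^ r)) ∈
      Algebra.adjoin R {Corr.op R (Λ.heckeT (p : ℕ))}
  | 0 => by rw [pow_zero, heckeT_one, map_one]; exact one_mem _
  | 1 => by rw [pow_one]; exact Algebra.self_mem_adjoin_singleton _ _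
  | r + 2 => by
    have h1 := op_heckeT_pow_mem_adjoin h r
    have h2 := op_heckeT_pow_mem_adjoin h (r + 1)
    have hT := Algebra.self_mem_adjoin_singleton R (Corr.op R (Λ.heckeT (p : ℕ)))
    rcases h.1 with ⟨hb, hs⟩ | ⟨hp, hW⟩
    · have e := op_heckeT_prime_mul R hb hs (fun q hq => h.2 q hq fun e => hb (e ▸ hq)) r
      rw [eq_sub_iff_add_eq.mpr e.symm]
      exact sub_mem (mul_mem hT h2) (nsmul_mem h1 _)
    · rw [pow_succ' _ (r + 1), heckeT_special_mul hp hW (pow_ne_zero _ p.2.ne_zero),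
        ← heckeT_prime' hW, map_mul]
      exact mul_mem hT h2

theorem commute_op_heckeT_pow_prime (h : Λ.IsNice p) {q : Nat.Primes} (h' : Λ.IsNice q) (a b : ℕ) :
    Commute (Corr.op R (Λ.heckeT ((p : ℕ) ^ a))) (Corr.op R (Λ.heckeT ((q : ℕ) ^ b))) := by
  rcases eq_or_ne p q with rfl | hne
  · exact (Algebra.commute_of_mem_adjoin_singleton_of_commute
      (op_heckeT_pow_mem_adjoin R h b)
      (Algebra.commute_of_mem_adjoin_singleton_of_commute (op_heckeT_pow_mem_adjoin R h a)
        (Commute.refl _)).symm)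
  · rw [heckeT_prime_pow' h.W_eq, heckeT_prime_pow' h'.W_eq]
    exact Commute.map (LocOp.corr_comm _ _ hne) _

/-- A closed set of operators containing the local factors contains the operator of `n`. -/
theorem op_heckeT_mem {n : ℕ} (S : Submonoid (Module.End R (Cls Λ.level → R)))
    (h : ∀ q : Nat.Primes, (q : ℕ) ∣ n → Corr.op R (Λ.cellOp q (n.factorization (q : ℕ))).corr ∈ S) :
    Corr.op R (Λ.heckeT n) ∈ S :=
  Submonoid.noncommProd_mem (S.comap (Corr.op R (Λ := Λ.level)).toMonoidHom) _ _ _ fun q hq =>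
    h q (Nat.mem_primeFactors.mp (mem_primesOf.mp hq)).2.1

end Op

end Fermat.Agent.Two.Brandt.Param.Sub

end
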