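import Fermat.Agent.Two.Brandt.Level
import Mathlib.Algebra.Order.BigOperators.Group.Multiset
import Mathlib.Algebra.Module.NatInt

/-!
# Local operators, transposes and the recursion at a split prime
-/

set_option autoImplicit false

noncomputable section

namespace Fermat.Agent.Two.Brandt

universe u v

variable {G : Type u} [Group G] {ι : Type v} {Λ : Level G ι}

namespace LocOp

variable {p : ι}

variable [DecidableEq ι]

/-- Translation by a central element at one place. -/
def central (p : ι) (g : G) (hg : ∀ h, g * h = h * g) : LocOp Λ p where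
  cosets := {QuotientGroup.mk g}
  stable u hu := by
    rw [Multiset.map_singleton]
    refine congrArg _ (QuotientGroup.eq.mpr ?_)
    show (u * g)⁻¹ * g ∈ Λ.U p
    rw [mul_inv_rev, mul_assoc, ← hg u⁻¹, inv_mul_cancel_left]
    exact inv_mem hu

theorem central_corr_nbr (p : ι) (g : G) (hg : ∀ h, g * h = h * g) (x : Pt Λ) :
    (central (Λ := Λ) p g hg).corr.nbr x = {x.update p (g • x.val p)} := by
  obtain ⟨h, e⟩ := QuotientGroup.mk_surjective (x.val p)
  rw [corr_nbr, ← e, translate_mk]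
  show Multiset.map _ (Multiset.map (h • ·) {QuotientGroup.mk g}) = _
  rw [Multiset.map_singleton, Multiset.map_singleton]
  congr 2
  exact congrArg QuotientGroup.mk (hg h).symm

/-- A central element which lies in all other local groups gives the identity on classes. -/
theorem op_central_eq_one (R : Type*) [CommSemiring R] (p : ι) (g : G) (hg : ∀ h, g * h = h * g)
    (hU : ∀ q, q ≠ p → g ∈ Λ.U q) : Corr.op R (central (Λ := Λ) p g hg).corr = 1 := by
  refine LinearMap.ext fun f => funext fun c => c.inductionOn' fun x => ?_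
  rw [Corr.op_apply, central_corr_nbr, Multiset.map_singleton, Multiset.sum_singleton,
    show x.update p (g • x.val p) = g • x from Pt.ext fun q => ?_, cls_smul]
  · rfl
  · by_cases hq : q = p
    · subst hq; rw [Pt.update_val_self, Pt.smul_val]
    · obtain ⟨h, e⟩ := QuotientGroup.mk_surjective (x.val q)
      rw [Pt.update_val_of_ne x hq, Pt.smul_val, ← e]
      refine QuotientGroup.eq.mpr ?_
      show h⁻¹ * (g * h) ∈ Λ.U q
      rw [hg h, inv_mul_cancel_left]
      exact hU q hq

end LocOp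

namespace Param

variable {P : Param}

/-- A positive rational as a unit of the algebra. -/
def scalar (P : Param) (r : ℚˣ) : P.Bˣ := Units.map (algebraMap ℚ P.B).toMonoidHom r

theorem scalar_comm (r : ℚˣ) (h : P.Bˣ) : P.scalar r * h = h * P.scalar r :=
  Units.ext (Algebra.commutes (r : ℚ) (h : P.B))

/-- A prime as a central unit. -/
def primeUnit (P : Param) (p : Nat.Primes) : P.Bˣ :=
  P.scalar (Units.mk0 ((p : ℕ) : ℚ) (Nat.cast_ne_zero.mpr p.2.ne_zero))

theorem coe_primeUnit (p : Nat.Primes) : (P.primeUnit p : P.B) = (p : ℕ) • (1 : P.B) := by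
  show algebraMap ℚ P.B ((p : ℕ) : ℚ) = _
  rw [map_natCast, nsmul_one]

theorem vp_primeUnit (p q : Nat.Primes) :
    P.vp q (P.primeUnit p) = if q = p then 2 else 0 := by
  have : Fact (q : ℕ).Prime := ⟨q.2⟩
  have : Fact (p : ℕ).Prime := ⟨p.2⟩
  show padicValRat (q : ℕ) (P.nrd (algebraMap ℚ P.B ((p : ℕ) : ℚ))) = _
  rw [nrd_algebraMap, padicValRat.pow, padicValRat.of_nat]
  split_ifs with h
  · subst h; simp [padicValNat_self]
  · simp [padicValNat_primes fun e => h (Nat.Primes.coe_nat_injective e)]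

theorem primeUnit_mem_localUnits {p q : Nat.Primes} (h : q ≠ p) :
    P.primeUnit p ∈ P.localUnits q := by
  refine ⟨?_, by rw [vp_primeUnit, if_neg h]⟩
  rw [coe_primeUnit]
  exact nsmul_mem (one_mem _) _

theorem primeUnit_mem_cell (p : Nat.Primes) : P.primeUnit p ∈ P.cell p 2 := by
  refine ⟨?_, by rw [vp_primeUnit, if_pos rfl]; rfl⟩
  rw [coe_primeUnit]
  exact nsmul_mem (one_mem _) _

/-- The properties of a prime where the order is the matrix algebra. -/
structure IsSplitAt (P : Param) (p : Nat.Primes) : Prop where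
  card_cosets : ((fun u => (QuotientGroup.mk u : P.Bˣ ⧸ P.localUnits p)) '' P.cell p 1).ncard =
    (p : ℕ) + 1
  unique_coset : ∀ (r : ℕ), ∀ w ∈ P.cell p (r + 2),
    ((P.primeUnit p)⁻¹ * w : P.Bˣ).1 ∉ P.localOrder p →
      ∃! c, c ∈ (fun u => (QuotientGroup.mk u : P.Bˣ ⧸ P.localUnits p)) '' P.cell p 1 ∧
        ∃ y, QuotientGroup.mk y = c ∧ ((y⁻¹ * w : P.Bˣ) : P.B) ∈ P.localOrder p

namespace Sub

variable {Λ : P.Sub}

/-- Division by the prime. -/
theorem mem_cell_div {p : Nat.Primes} {r : ℕ} {w : P.Bˣ} :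
    (P.primeUnit p)⁻¹ * w ∈ P.cell p r ↔
      ((P.primeUnit p)⁻¹ * w : P.Bˣ).1 ∈ P.localOrder p ∧ w ∈ P.cell p (r + 2) := by
  refine ⟨fun h => ⟨h.1, ?_⟩, fun ⟨h1, h2⟩ => ⟨h1, ?_⟩⟩
  · have := P.mul_mem_cell p (P.primeUnit_mem_cell p) h
    rwa [mul_inv_cancel_left, add_comm] at this
  · rw [vp_coe_mul, vp_inv, vp_primeUnit, if_pos rfl, h2.2]
    push_cast
    ring

open Classical in
/-- **The recursion at a split prime outside the level**. -/
theorem cellOp_one_mul_cellOp {p : Nat.Primes} (hp : p ∉ Λ.bad) (hs : P.IsSplitAt p) (r : ℕ) :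
    (Λ.cellOp p 1 * Λ.cellOp p (r + 1)).cosets =
      (Λ.cellOp p (r + 2)).cosets +
        (p : ℕ) • (LocOp.central p (P.primeUnit p) (scalar_comm _) * Λ.cellOp p r).cosets := by
  have hW : Λ.W p = P.localUnits p := Λ.eq p hp
  have hcard : (Λ.finite_cell_cosets p 1).toFinset.card = (p : ℕ) + 1 := by
    have h := hs.card_cosets
    rw [← hW, Set.ncard_eq_toFinset_card _ (Λ.finite_cell_cosets p 1)] at h
    exact h
  ext c
  obtain ⟨w, rfl⟩ := QuotientGroup.mk_surjective c
  rw [Multiset.count_add, Multiset.count_nsmul, LocOp.mul_cosets, LocOp.mul_cosets,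
    Multiset.count_bind]
  have hR : (LocOp.central (Λ := Λ.level) p (P.primeUnit p) (scalar_comm _)).cosets.bind
      (Λ.cellOp p r).translate = (Λ.cellOp p r).translate (QuotientGroup.mk (P.primeUnit p)) :=
    Multiset.singleton_bind _ _
  rw [hR]
  have hnd : ∀ v (g : P.Bˣ), ((Λ.cellOp p v).translate (QuotientGroup.mk g)).Nodup := fun v g => by
    rw [LocOp.translate_mk]
    exact (nodup_cellOp p v).map (MulAction.injective g)
  have hcount : ∀ v (g : P.Bˣ),
      Multiset.count (QuotientGroup.mk w : P.Bˣ ⧸ Λ.level.U p)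
        ((Λ.cellOp p v).translate (QuotientGroup.mk g)) =
        if g⁻¹ * w ∈ P.cell p v then 1 else 0 := fun v g => by
    split_ifs with h
    · exact Multiset.count_eq_one_of_mem (hnd v g) (mem_translate_cellOp_iff.mpr h)
    · exact Multiset.count_eq_zero_of_notMem fun h' => h (mem_translate_cellOp_iff.mp h')
  have hsum : (Multiset.map (fun c => Multiset.count (QuotientGroup.mk w : P.Bˣ ⧸ Λ.level.U p)
      ((Λ.cellOp p (r + 1)).translate c)) (Λ.cellOp p 1).cosets).sum =
      ((Λ.finite_cell_cosets p 1).toFinset.filter fun c =>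
        (Quotient.out c)⁻¹ * w ∈ P.cell p (r + 1)).card := by
    rw [Finset.card_filter]
    refine congrArg Multiset.sum (Multiset.map_congr rfl fun c _ => ?_)
    conv_lhs => rw [← QuotientGroup.out_eq' c]
    exact hcount _ _
  rw [hcount, hsum]
  have hw2 : Multiset.count (QuotientGroup.mk w : P.Bˣ ⧸ Λ.level.U p) (Λ.cellOp p (r + 2)).cosets =
      if w ∈ P.cell p (r + 2) then 1 else 0 := by
    split_ifs with h
    · exact Multiset.count_eq_one_of_mem (nodup_cellOp _ _) (mem_cellOp_iff.mpr h)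
    · exact Multiset.count_eq_zero_of_notMem fun h' => h (mem_cellOp_iff.mp h')
  rw [hw2]
  have hmem : ∀ c ∈ (Λ.finite_cell_cosets p 1).toFinset, (Quotient.out c : P.Bˣ) ∈ P.cell p 1 :=
    fun c hc => by
      obtain ⟨g, hg, e⟩ := (Set.Finite.mem_toFinset _).mp hc
      have hu := QuotientGroup.eq.mp (e.trans (QuotientGroup.out_eq' c).symm)
      have := mem_cell_mul_right hg hu
      rwa [mul_inv_cancel_left] at this
  by_cases hw : w ∈ P.cell p (r + 2)
  · by_cases hdiv : ((P.primeUnit p)⁻¹ * w : P.Bˣ).1 ∈ P.localOrder p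
    · -- all cosets occur
      rw [if_pos hw, if_pos (mem_cell_div.mpr ⟨hdiv, hw⟩), Finset.filter_true_of_mem, hcard,
        mul_one, add_comm]
      intro c hc
      obtain ⟨hy, hyv⟩ := hmem c hc
      refine ⟨?_, by rw [vp_coe_mul, vp_inv, hyv, hw.2]; push_cast; ring⟩
      have : Fact (p : ℕ).Prime := ⟨p.2⟩
      have e : (((Quotient.out c)⁻¹ * w : P.Bˣ) : P.B) =
          ((((p : ℕ) : ℚ) * (P.nrd (Quotient.out c : P.Bˣ))⁻¹) • star ((Quotient.out c : P.Bˣ) : P.B)) *
            ((P.primeUnit p)⁻¹ * w : P.Bˣ) := by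
        have h1 : ((p : ℕ) : ℚ) • (((P.primeUnit p)⁻¹ * w : P.Bˣ) : P.B) = (w : P.B) := by
          rw [Algebra.smul_def]
          have hm : (P.primeUnit p : P.B) * (((P.primeUnit p)⁻¹ * w : P.Bˣ) : P.B) = w := by
            rw [← Units.val_mul, mul_inv_cancel_left]
          exact hm
        conv_lhs => rw [Units.val_mul, coe_inv, ← h1, mul_smul_comm]
        rw [smul_mul_assoc, smul_mul_assoc, smul_smul]
      rw [e]
      refine mul_mem (P.smul_mem_localOrder_of_not_dvd_den p (not_dvd_den_of_nonneg p ?_)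
        (P.star_mem_localOrder p hy)) hdiv
      rw [vp] at hyv
      rw [padicValRat.mul (Nat.cast_ne_zero.mpr p.2.ne_zero)
        (inv_ne_zero (P.nrd_unit_pos _).ne'), padicValRat.inv, hyv, padicValRat.self p.2.one_lt]
      norm_num
    · -- exactly one coset occurs
      rw [if_pos hw, if_neg fun h => hdiv (mem_cell_div.mp h).1, mul_zero, add_zero]
      have huniq := hs.unique_coset r w hw hdiv
      rw [← hW] at huniq
      obtain ⟨c₀, ⟨⟨g, hg, hgc⟩, y, hyc, hy⟩, hu⟩ := huniq
      have key : ∀ {y : P.Bˣ} {c : P.Bˣ ⧸ Λ.W p}, QuotientGroup.mk y = c →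
          ((y⁻¹ * w : P.Bˣ) : P.B) ∈ P.localOrder p →
          (((Quotient.out c)⁻¹ * w : P.Bˣ) : P.B) ∈ P.localOrder p := fun {y} {c} e h => by
        have hu' := Λ.le p (QuotientGroup.eq.mp (e.trans (QuotientGroup.out_eq' c).symm))
        rw [show (Quotient.out c)⁻¹ * w = (y⁻¹ * Quotient.out c)⁻¹ * (y⁻¹ * w) by group,
          Units.val_mul]
        exact mul_mem (P.inv_mem_localOrder p hu'.1 hu'.2) h
      rw [Finset.card_eq_one]
      refine ⟨c₀, Finset.eq_singleton_iff_unique_mem.mpr ⟨?_, fun c hc => ?_⟩⟩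
      · have hc0 : c₀ ∈ (Λ.finite_cell_cosets p 1).toFinset :=
          (Set.Finite.mem_toFinset _).mpr ⟨g, hg, hgc⟩
        refine Finset.mem_filter.mpr ⟨hc0, key hyc hy, ?_⟩
        rw [vp_coe_mul, vp_inv, (hmem c₀ hc0).2, hw.2]
        push_cast
        ring
      · obtain ⟨hc1, hc2⟩ := Finset.mem_filter.mp hc
        exact hu c ⟨(Set.Finite.mem_toFinset _).mp hc1, _, QuotientGroup.out_eq' c, hc2.1⟩
  · rw [if_neg hw, if_neg fun h => hw (mem_cell_div.mp h).2, mul_zero, add_zero,
      Finset.card_eq_zero, Finset.filter_eq_empty_iff]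
    intro c hc h
    have := P.mul_mem_cell p (hmem c hc) h
    rw [mul_inv_cancel_left, add_comm 1] at this
    exact hw this

theorem corr_nsmul {p : Nat.Primes} (S T : LocOp Λ.level p) (k : ℕ)
    (h : T.cosets = k • S.cosets) : T.corr = k • S.corr := by
  induction k generalizing T with
  | zero =>
    refine Corr.ext fun x => ?_
    rw [LocOp.corr_nbr, LocOp.translate, h, zero_smul, Multiset.map_zero, Multiset.map_zero,
      zero_smul]
    rfl
  | succ k ih =>
    let T' : LocOp Λ.level p :=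
      ⟨k • S.cosets, fun u hu => by rw [Multiset.map_nsmul, S.stable u hu]⟩
    rw [show T = T' + S from LocOp.ext (by rw [h, succ_nsmul]; rfl), LocOp.corr_add,
      ih T' rfl, succ_nsmul]

/-- **The recursion for `T_n`**. -/
theorem heckeT_prime_mul {p : Nat.Primes} (hp : p ∉ Λ.bad) (hs : P.IsSplitAt p) (r : ℕ) :
    Λ.heckeT (p : ℕ) * Λ.heckeT ((p : ℕ) ^ (r + 1)) =
      Λ.heckeT ((p : ℕ) ^ (r + 2)) + (p : ℕ) •
        ((LocOp.central p (P.primeUnit p) (scalar_comm _)).corr * Λ.heckeT ((p : ℕ) ^ r)) := by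
  have h0 : ∀ r, Λ.heckeT ((p : ℕ) ^ r) = (Λ.cellOp p r).corr := fun r => by
    rcases eq_or_ne r 0 with rfl | hr
    · rw [pow_zero, heckeT_one, ← LocOp.corr_one]
      refine congrArg LocOp.corr (LocOp.ext ?_)
      refine (Multiset.Nodup.ext (Multiset.nodup_singleton _) (nodup_cellOp p 0)).mpr fun c => ?_
      obtain ⟨g, rfl⟩ := QuotientGroup.mk_surjective c
      refine Iff.trans ?_ (mem_cellOp_iff (Λ := Λ) (g := g)).symm
      rw [cell_zero, ← Λ.eq p hp, Multiset.mem_singleton, SetLike.mem_coe,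
        QuotientGroup.eq, mul_one]
      exact inv_mem_iff
    · exact heckeT_prime_pow p r hr
  have h1 := h0 1
  rw [pow_one] at h1
  rw [h1, h0, h0, h0, ← LocOp.corr_mul, ← LocOp.corr_mul,
    ← corr_nsmul (LocOp.central p (P.primeUnit p) (scalar_comm _) * Λ.cellOp p r)
      ⟨(p : ℕ) • (LocOp.central p (P.primeUnit p) (scalar_comm _) * Λ.cellOp p r).cosets,
        fun u hu => by rw [Multiset.map_nsmul, LocOp.stable _ u hu]⟩ _ rfl, ← LocOp.corr_add]
  exact congrArg LocOp.corr (LocOp.ext (cellOp_one_mul_cellOp hp hs r))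

end Sub

end Param

end Fermat.Agent.Two.Brandt

end
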