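import Fermat.Agent.Two.Brandt.Good
import Fermat.Agent.Two.Brandt.Hecke
import Mathlib.Algebra.Group.Commute.Hom

/-!
# The Hecke operators at split primes
-/

set_option autoImplicit false

noncomputable section

namespace Fermat.Agent.Two.Brandt.Param

variable {P : Param}

theorem isSplitAt {p : Nat.Primes} (hD : ¬((p : ℕ) : ℤ) ∣ P.D) (he : ¬((p : ℕ) : ℤ) ∣ P.e) :
    P.IsSplitAt p where
  card_cosets := P.ncard_cosets₁ p hD he
  unique_coset r w hw hdiv := by
    have hndvd : ¬∃ t ∈ P.localOrder p, (w : P.B) = (p : ℕ) • t := fun ⟨t, ht, e⟩ => hdiv (by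
      have e' : (((P.primeUnit p)⁻¹ * w : P.Bˣ) : P.B) = t := by
        rw [Units.val_mul, Units.inv_mul_eq_iff_eq_mul, e, coe_primeUnit, smul_mul_assoc, one_mul]
      rw [e']; exact ht)
    obtain ⟨y, hy, hyw, hu⟩ := P.existsUnique_coset_dvd p hD he (v := r + 1) hw hndvd
    exact ⟨_, ⟨⟨y, hy, rfl⟩, y, rfl, hyw.1⟩, fun c ⟨⟨g, hg, hgc⟩, z, hzc, hz⟩ => by
      have hzc' := QuotientGroup.eq.mp (hzc.trans hgc.symm)
      refine hgc.symm.trans (hu g hg ?_)
      rw [show g⁻¹ * w = (z⁻¹ * g)⁻¹ * (z⁻¹ * w) by group, Units.val_mul]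
      exact mul_mem (P.inv_mem_localOrder p hzc'.1 hzc'.2) hz⟩

namespace Sub

variable {Λ : P.Sub}

/-- The prime scalar acts trivially when it lies in all other local groups. -/
theorem op_central_primeUnit (R : Type*) [CommSemiring R] (p : Nat.Primes)
    (h : ∀ q ∈ Λ.bad, q ≠ p → P.primeUnit p ∈ Λ.W q) :
    Corr.op R (LocOp.central (Λ := Λ.level) p (P.primeUnit p) (scalar_comm _)).corr = 1 :=
  LocOp.op_central_eq_one R p _ _ fun q hq => by
    by_cases hb : q ∈ Λ.bad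
    · exact h q hb hq
    · show P.primeUnit p ∈ Λ.W q
      rw [Λ.eq q hb]
      exact primeUnit_mem_localUnits hq

/-- **The recursion for operators with trivial central action**. -/
theorem op_heckeT_prime_mul (R : Type*) [CommSemiring R] {p : Nat.Primes} (hp : p ∉ Λ.bad)
    (hs : P.IsSplitAt p) (h : ∀ q ∈ Λ.bad, P.primeUnit p ∈ Λ.W q) (r : ℕ) :
    Corr.op R (Λ.heckeT (p : ℕ)) * Corr.op R (Λ.heckeT ((p : ℕ) ^ (r + 1))) =
      Corr.op R (Λ.heckeT ((p : ℕ) ^ (r + 2))) +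
        (p : ℕ) • Corr.op R (Λ.heckeT ((p : ℕ) ^ r)) := by
  rw [← map_mul, heckeT_prime_mul hp hs r, map_add, map_nsmul, map_mul,
    op_central_primeUnit R p (fun q hq _ => h q hq), one_mul]

end Sub

end Fermat.Agent.Two.Brandt.Param

end
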