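import Fermat.Agent.Two.Brandt.Short
import Fermat.Agent.Two.Brandt.Split

/-!
# The involutions at the special primes

At a special prime the local order has one element of each norm valuation up to units, so the
operator of valuation one is a translation and squares to one on classes.
-/

set_option autoImplicit false

noncomputable section

namespace Fermat.Agent.Two.Brandt.Param

variable {P : Param} {p : Nat.Primes}

attribute [local instance] fact_prime

/-- A ramified prime inert in `K`. -/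
theorem isSpecial_of_inert (hp : (p : ℕ) ≠ 2) (he : ((p : ℕ) : ℤ) ∣ P.e)
    (he2 : ¬ ((p : ℕ) : ℤ) ^ 2 ∣ P.e) (hD : jacobiSym P.D (p : ℕ) = -1) : P.IsSpecial p :=
  Or.inl ⟨hp, he, he2, hD⟩

/-- A ramified prime dividing the discriminant. -/
theorem isSpecial_of_ramified (hD : ((p : ℕ) : ℤ) ∣ P.D) (hD2 : ¬ ((p : ℕ) : ℤ) ^ 2 ∣ P.D)
    (h : jacobiSym (-(P.e * P.M)) (p : ℕ) = -1) : P.IsSpecial p := by
  have hp2 := ne_two_of_dvd_D hD
  have hns : ¬ IsSquare ((-(P.e * P.M) : ℤ) : ZMod p) := by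
    rw [← jacobiSym.legendreSym.to_jacobiSym] at h
    exact (legendreSym.eq_neg_one_iff (p : ℕ)).mp h
  have he : ¬ ((p : ℕ) : ℤ) ∣ P.e := fun he => hns ⟨0, by
    rw [mul_zero, ZMod.intCast_zmod_eq_zero_iff_dvd]
    exact (he.mul_right _).neg_right⟩
  refine Or.inr ⟨hD, he, hD2, fun a b hg hsq => ?_⟩
  have e : (((2 * P.M * a + (1 - 2 * P.s) * b : ℤ) : ZMod p)) ^ 2 =
      4 * (P.M : ZMod p) * (P.g a b : ZMod p) := by
    have e1 := congrArg (fun z : ℤ => (z : ZMod p)) (P.four_M_mul_g a b)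
    have e2 := (ZMod.intCast_zmod_eq_zero_iff_dvd _ p).mpr hD
    simp only [Int.cast_mul, Int.cast_sub, Int.cast_pow, Int.cast_ofNat, e2, zero_mul,
      sub_zero] at e1
    exact e1.symm
  obtain ⟨y, hy⟩ := hsq
  set X : ZMod p := ((2 * P.M * a + (1 - 2 * P.s) * b : ℤ) : ZMod p)
  have hg0 : (P.g a b : ZMod p) ≠ 0 := fun h0 =>
    hg ((ZMod.intCast_zmod_eq_zero_iff_dvd _ p).mp h0)
  have h20 : (2 : ZMod p) ≠ 0 := fun hh => not_dvd_two hp2 (by
    have : ((2 : ℤ) : ZMod p) = 0 := by exact_mod_cast hh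
    exact (ZMod.intCast_zmod_eq_zero_iff_dvd 2 p).mp this)
  refine hns ⟨y * X / (2 * P.g a b), ?_⟩
  push_cast at hy ⊢
  field_simp
  linear_combination (4 * (P.M : ZMod p) * P.g a b) * hy + (-(y * y)) * e

/-- At a special prime a unit is an element of valuation zero. -/
theorem mem_localUnits_iff_vp (hp : P.IsSpecial p) {u : P.Bˣ} :
    u ∈ P.localUnits p ↔ P.vp p u = 0 :=
  ⟨fun h => h.2, fun h => ⟨(mem_localOrder_iff hp).mpr h.ge, h⟩⟩

/-- At a special prime the cells are defined by the valuation. -/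
theorem mem_cell_iff_vp (hp : P.IsSpecial p) {u : P.Bˣ} {v : ℕ} :
    u ∈ P.cell p v ↔ P.vp p u = v :=
  ⟨fun h => h.2, fun h => ⟨(mem_localOrder_iff hp).mpr (by rw [h]; positivity), h⟩⟩

theorem exists_mem_cell (hp : P.IsSpecial p) (v : ℕ) : ∃ z : P.Bˣ, z ∈ P.cell p v := by
  obtain ⟨π, hπ, -⟩ := exists_uniformizer hp
  refine ⟨π ^ v, (mem_cell_iff_vp hp).mpr ?_⟩
  induction v with
  | zero => simp [vp]
  | succ v ih => rw [pow_succ, vp_coe_mul, ih, hπ.2]; push_cast; ring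

namespace Sub

variable {Λ : P.Sub}

/-- **A single coset for each valuation.** -/
theorem cellOp_cosets (hp : P.IsSpecial p) (hW : Λ.W p = P.localUnits p) {v : ℕ} {z : P.Bˣ}
    (hz : z ∈ P.cell p v) :
    (Λ.cellOp p v).cosets = {(QuotientGroup.mk z : P.Bˣ ⧸ Λ.level.U p)} := by
  refine (Multiset.Nodup.ext (nodup_cellOp p v) (Multiset.nodup_singleton _)).mpr fun c => ?_
  obtain ⟨g, rfl⟩ := QuotientGroup.mk_surjective c
  refine (mem_cellOp_iff (Λ := Λ) (g := g)).trans
    (Iff.trans ?_ (Multiset.mem_singleton.trans QuotientGroup.eq).symm)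
  show _ ↔ g⁻¹ * z ∈ Λ.W p
  rw [hW, mem_localUnits_iff_vp hp, vp_coe_mul, vp_inv,
    mem_cell_iff_vp hp, hz.2]
  omega

theorem cellOp_mul (hp : P.IsSpecial p) (hW : Λ.W p = P.localUnits p) (a b : ℕ) :
    Λ.cellOp p a * Λ.cellOp p b = Λ.cellOp p (a + b) := by
  obtain ⟨z, hz⟩ := exists_mem_cell hp a
  obtain ⟨w, hw⟩ := exists_mem_cell hp b
  refine LocOp.ext ?_
  rw [LocOp.mul_cosets, cellOp_cosets hp hW hz, cellOp_cosets hp hW (P.mul_mem_cell p hz hw)]
  refine (Multiset.singleton_bind _ _).trans ?_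
  rw [LocOp.translate_mk, cellOp_cosets hp hW hw]
  rfl

theorem cellOp_two (hp : P.IsSpecial p) (hW : Λ.W p = P.localUnits p) :
    Λ.cellOp p 2 = LocOp.central p (P.primeUnit p) (scalar_comm _) :=
  LocOp.ext (cellOp_cosets hp hW (P.primeUnit_mem_cell p))

/-- **The operator at a special prime is an involution on classes.** -/
theorem op_cellOp_one_sq (R : Type*) [CommSemiring R] (hp : P.IsSpecial p)
    (hW : Λ.W p = P.localUnits p) (h : ∀ q ∈ Λ.bad, q ≠ p → P.primeUnit p ∈ Λ.W q) :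
    Corr.op R (Λ.cellOp p 1).corr ^ 2 = 1 := by
  rw [pow_two, ← map_mul, ← LocOp.corr_mul, cellOp_mul hp hW, cellOp_two hp hW,
    op_central_primeUnit R p h]

end Sub

end Fermat.Agent.Two.Brandt.Param

end
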