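import Fermat.Agent.Two.Brandt.Theta
import Fermat.Agent.Two.Brandt.Special
import Fermat.Agent.Two.Brandt.Ops
import Mathlib.LinearAlgebra.Matrix.ToLin
import Mathlib.LinearAlgebra.Matrix.Charpoly.Coeff
import Mathlib.LinearAlgebra.Matrix.Symmetric
import Mathlib.LinearAlgebra.Matrix.Nondegenerate
import Mathlib.LinearAlgebra.FreeModule.PID
import Mathlib.RingTheory.Nilpotent.Basic

/-!
# The Brandt Hecke algebras are reduced

Commuting symmetric integer matrices span a lattice with positive definite trace form, so over any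
domain of characteristic zero they generate a reduced algebra.
-/

set_option autoImplicit false

noncomputable section

namespace Fermat.Agent.Two.Brandt

open Matrix

section Abstract

variable {X κ : Type*} [Fintype X] [DecidableEq X] (O : Type*) [CommRing O]

/-- Integer matrices as matrices over `O`. -/
def intMatrixHom : Matrix X X ℤ →ₐ[ℤ] Matrix X X O := (Algebra.ofId ℤ O).mapMatrix

theorem intMatrixHom_apply (M : Matrix X X ℤ) (x y : X) :
    intMatrixHom O M x y = (M x y : O) := rfl

variable {O} (A : κ → Matrix X X ℤ)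

theorem intMatrixHom_injective [CharZero O] :
    Function.Injective (intMatrixHom (X := X) O) := fun M N h => by
  ext x y
  exact Int.cast_injective (congrFun (congrFun h x) y)

/-- The algebra over `O` is spanned by the integral one. -/
theorem adjoin_le_span :
    Subalgebra.toSubmodule (Algebra.adjoin O (Set.range fun i => intMatrixHom O (A i))) ≤
      Submodule.span O (intMatrixHom O '' (Algebra.adjoin ℤ (Set.range A) : Set (Matrix X X ℤ))) := by
  rw [Algebra.adjoin_eq_span, Submodule.span_le]
  intro m hm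
  refine Submodule.subset_span ?_
  induction hm using Submonoid.closure_induction with
  | mem x hx =>
    obtain ⟨i, rfl⟩ := hx
    exact ⟨A i, Algebra.subset_adjoin ⟨i, rfl⟩, rfl⟩
  | one => exact ⟨1, one_mem _, map_one _⟩
  | mul x y _ _ hx hy =>
    obtain ⟨a, ha, rfl⟩ := hx
    obtain ⟨b, hb, rfl⟩ := hy
    exact ⟨a * b, mul_mem ha hb, map_mul _ _ _⟩

theorem span_le_adjoin :
    Submodule.span O (intMatrixHom O '' (Algebra.adjoin ℤ (Set.range A) : Set (Matrix X X ℤ))) ≤
      Subalgebra.toSubmodule (Algebra.adjoin O (Set.range fun i => intMatrixHom O (A i))) := by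
  rw [Submodule.span_le]
  rintro _ ⟨a, ha, rfl⟩
  show intMatrixHom O a ∈ Algebra.adjoin O _
  induction ha using Algebra.adjoin_induction with
  | mem x hx => obtain ⟨i, rfl⟩ := hx; exact Algebra.subset_adjoin ⟨i, rfl⟩
  | algebraMap r =>
    rw [AlgHom.commutes, eq_intCast]
    exact intCast_mem _ r
  | add x y _ _ hx hy => rw [map_add]; exact add_mem hx hy
  | mul x y _ _ hx hy => rw [map_mul]; exact mul_mem hx hy

theorem mul_comm_of_mem_adjoin {R M : Type*} [CommRing R] [Ring M] [Algebra R M] {s : Set M}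
    (hs : ∀ a ∈ s, ∀ b ∈ s, a * b = b * a) {a b : M} (ha : a ∈ Algebra.adjoin R s)
    (hb : b ∈ Algebra.adjoin R s) : a * b = b * a := by
  let := Algebra.isMulCommutative_adjoin R hs
  exact congrArg Subtype.val (mul_comm' (⟨a, ha⟩ : Algebra.adjoin R s) ⟨b, hb⟩)

/-- An element of the algebra of commuting symmetric matrices is symmetric. -/
theorem isSymm_of_mem_adjoin (hsymm : ∀ i, (A i).IsSymm) (hcomm : ∀ i j, A i * A j = A j * A i)
    {a : Matrix X X ℤ} (ha : a ∈ Algebra.adjoin ℤ (Set.range A)) : a.IsSymm := by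
  induction ha using Algebra.adjoin_induction with
  | mem x hx => obtain ⟨i, rfl⟩ := hx; exact hsymm i
  | algebraMap r => exact Matrix.isSymm_diagonal _
  | add x y _ _ hx hy => exact hx.add hy
  | mul x y hx' hy' hx hy =>
    show (x * y)ᵀ = x * y
    rw [Matrix.transpose_mul, hx.eq, hy.eq]
    refine mul_comm_of_mem_adjoin ?_ hy' hx'
    rintro _ ⟨i, rfl⟩ _ ⟨j, rfl⟩
    exact hcomm i j

omit [DecidableEq X] in
theorem eq_zero_of_trace_mul_self {a : Matrix X X ℤ} (ha : a.IsSymm) (h : (a * a).trace = 0) :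
    a = 0 := by
  ext x y
  have h' : ∑ x, ∑ y, a x y * a x y = 0 := by
    refine Eq.trans ?_ h
    simp only [Matrix.trace, Matrix.diag, Matrix.mul_apply]
    exact Finset.sum_congr rfl fun x _ => Finset.sum_congr rfl fun y _ => by rw [ha.apply x y]
  have h1 := (Finset.sum_eq_zero_iff_of_nonneg fun x _ =>
    Finset.sum_nonneg fun y _ => mul_self_nonneg (a x y)).mp h' x (Finset.mem_univ x)
  exact mul_self_eq_zero.mp
    ((Finset.sum_eq_zero_iff_of_nonneg fun y _ => mul_self_nonneg (a x y)).mp h1 y (Finset.mem_univ y))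

/-- **Commuting symmetric integer matrices generate a reduced algebra.** -/
theorem isReduced_adjoin [IsDomain O] [CharZero O] (hsymm : ∀ i, (A i).IsSymm)
    (hcomm : ∀ i j, A i * A j = A j * A i) :
    IsReduced (Algebra.adjoin O (Set.range fun i => intMatrixHom O (A i))) := by
  classical
  set B := Subalgebra.toSubmodule (Algebra.adjoin ℤ (Set.range A))
  obtain ⟨r, ⟨b⟩⟩ : ∃ r : ℕ, Nonempty (Module.Basis (Fin r) ℤ B) :=
    ⟨_, ⟨Module.finBasis ℤ B⟩⟩
  refine ⟨fun t ht => Subtype.ext ?_⟩
  have htspan : (t : Matrix X X O) ∈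
      Submodule.span O (Set.range fun j => intMatrixHom O (b j : Matrix X X ℤ)) := by
    refine (Submodule.span_le.mpr ?_) (adjoin_le_span A t.2)
    rintro _ ⟨a, ha, rfl⟩
    have h := congrArg Subtype.val (b.sum_repr ⟨a, ha⟩)
    simp only [Submodule.coe_sum, Submodule.coe_smul] at h
    rw [← h, map_sum]
    refine Submodule.sum_mem _ fun j _ => ?_
    rw [map_smul, ← Int.cast_smul_eq_zsmul O]
    exact Submodule.smul_mem _ _ (Submodule.subset_span ⟨j, rfl⟩)
  obtain ⟨c, hc⟩ := (Submodule.mem_span_range_iff_exists_fun O).mp htspan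
  let G : Matrix (Fin r) (Fin r) ℤ := .of fun i j => ((b i : Matrix X X ℤ) * (b j : Matrix X X ℤ)).trace
  have hG : G.det ≠ 0 := fun h => by
    obtain ⟨v, hv0, hv⟩ := Matrix.exists_mulVec_eq_zero_iff.mpr h
    refine hv0 ?_
    set w : B := ∑ j, v j • b j with hw
    have hw0 : w = 0 := by
      refine Subtype.ext (eq_zero_of_trace_mul_self (isSymm_of_mem_adjoin A hsymm hcomm w.2) ?_)
      have e : (((w : Matrix X X ℤ)) * w).trace = ∑ i, v i * (G *ᵥ v) i := by
        simp only [hw, Submodule.coe_sum, Submodule.coe_smul, Finset.sum_mul, Finset.mul_sum,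
          smul_mul_assoc, mul_smul_comm, Matrix.trace_sum, Matrix.trace_smul, Matrix.mulVec,
          dotProduct, G, Matrix.of_apply, smul_eq_mul]
        refine Finset.sum_congr rfl fun i _ => Finset.sum_congr rfl fun j _ => ?_
        rw [Matrix.trace_mul_comm (b j : Matrix X X ℤ)]
        ring
      rw [e, hv]
      simp
    funext j
    have h1 := congrArg (fun z => b.repr z j) hw0
    rw [hw, map_zero] at h1
    rw [b.repr_sum_self] at h1
    exact h1
  have hker : (G.map (Int.cast : ℤ → O)) *ᵥ c = 0 := by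
    funext i
    let bi : Algebra.adjoin O (Set.range fun i => intMatrixHom O (A i)) :=
      ⟨intMatrixHom O (b i : Matrix X X ℤ), span_le_adjoin A (Submodule.subset_span ⟨_, (b i).2, rfl⟩)⟩
    have hcm : Commute bi t := Subtype.ext (mul_comm_of_mem_adjoin
      (by
        rintro _ ⟨i, rfl⟩ _ ⟨j, rfl⟩
        rw [← map_mul, hcomm, map_mul])
      bi.2 t.2)
    have hnil : IsNilpotent ((bi * t : Algebra.adjoin O (Set.range fun i => intMatrixHom O (A i))) :
        Matrix X X O) := (Commute.isNilpotent_mul_left hcm ht).map (Subalgebra.val _)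
    have h0 : (intMatrixHom O (b i : Matrix X X ℤ) * (t : Matrix X X O)).trace = 0 :=
      (Matrix.isNilpotent_trace_of_isNilpotent hnil).eq_zero
    refine Eq.trans ?_ h0
    rw [← hc, Finset.mul_sum, Matrix.trace_sum]
    show ∑ j, (G.map (Int.cast : ℤ → O)) i j * c j = _
    refine Finset.sum_congr rfl fun j _ => ?_
    rw [mul_smul_comm, Matrix.trace_smul, smul_eq_mul, mul_comm, ← map_mul]
    congr 1
    simp only [G, Matrix.map_apply, Matrix.of_apply, Matrix.trace, Matrix.diag, intMatrixHom_apply,
      Int.cast_sum]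
  have hGO : (G.map (Int.cast : ℤ → O)).det ≠ 0 := by
    have e := (Int.castRingHom O).map_det G
    rw [RingHom.mapMatrix_apply] at e
    rw [show (G.map (Int.cast : ℤ → O)) = G.map (Int.castRingHom O) from rfl, ← e]
    exact fun h => hG (Int.cast_eq_zero.mp h)
  have hc0 : c = 0 := Matrix.eq_zero_of_mulVec_eq_zero hGO hker
  show (t : Matrix X X O) = 0
  simp [← hc, hc0]

end Abstract

section Functions

variable {X κ : Type*} [Finite X] [DecidableEq X] {O : Type*} [CommRing O]
  (f : κ → Module.End O (X → O)) {a : κ → X → X → ℕ}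
  (hf : ∀ i x y, f i (Pi.single y 1) x = (a i x y : O))

include hf

theorem exists_adjoin_algEquiv [Fintype X] :
    ∃ e : Matrix X X O ≃ₐ[O] Module.End O (X → O),
      Algebra.adjoin O (Set.range f) =
        (Algebra.adjoin O (Set.range fun i => intMatrixHom O
          (Matrix.of fun x y => (a i x y : ℤ)))).map e.toAlgHom ∧
      ∀ i, e (intMatrixHom O (Matrix.of fun x y => (a i x y : ℤ))) = f i := by
  have e : ∀ i, Matrix.toLinAlgEquiv' (intMatrixHom O (Matrix.of fun x y => (a i x y : ℤ))) = f i :=
    fun i => by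
      refine LinearMap.pi_ext' fun y => LinearMap.ext_ring (funext fun x => ?_)
      show (intMatrixHom O (Matrix.of fun x y => (a i x y : ℤ)) *ᵥ Pi.single y 1) x =
        f i (Pi.single y 1) x
      rw [hf, Matrix.mulVec_single_one]
      simp [intMatrixHom_apply]
  refine ⟨Matrix.toLinAlgEquiv', ?_, e⟩
  rw [AlgHom.map_adjoin, ← Set.range_comp]
  exact congrArg (fun g => Algebra.adjoin O (Set.range g)) (funext fun i => (e i).symm)

/-- **An algebra generated by commuting symmetric natural matrices is reduced.** -/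
theorem isReduced_adjoin_of_natMatrix [IsDomain O] [CharZero O]
    (hsymm : ∀ i x y, a i x y = a i y x) (hcomm : ∀ i j, Commute (f i) (f j)) :
    IsReduced (Algebra.adjoin O (Set.range f)) := by
  have := Fintype.ofFinite X
  obtain ⟨e, he, hei⟩ := exists_adjoin_algEquiv f hf
  have hred := isReduced_adjoin (O := O) (fun i => Matrix.of fun x y => (a i x y : ℤ))
    (fun i => Matrix.IsSymm.ext fun x y => congrArg Nat.cast (hsymm i y x))
    fun i j => intMatrixHom_injective (O := O) (e.injective (by
      rw [map_mul, map_mul, map_mul, map_mul, hei, hei]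
      exact (hcomm i j).eq))
  rw [he]
  exact isReduced_of_injective
    (Subalgebra.equivMapOfInjective _ e.toAlgHom e.injective).symm
    (AlgEquiv.injective _)

end Functions

/-- The entries of a correspondence, on classes. -/
def clsEntry {G ι : Type*} [Group G] {Λ : Level G ι} (K : Corr Λ) (c d : Cls Λ) : ℕ :=
  entry K c.out d.out

theorem op_single_clsEntry {G ι : Type*} [Group G] {Λ : Level G ι} [DecidableEq (Cls Λ)]
    (R : Type*) [CommSemiring R] (K : Corr Λ) (c d : Cls Λ) :
    Corr.op R K (Pi.single d 1) c = (clsEntry K c d : R) := by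
  conv_lhs => rw [← Quotient.out_eq c, ← Quotient.out_eq d]
  exact op_single K R _ _

namespace Param.Sub

variable {P : Param} {Λ : P.Sub}

/-- Every local operator has symmetric entries at a neat level. -/
theorem entry_cellOp_comm {l : Nat.Primes} (hram : IsRamified P l) (hl : (l : ℕ) % 12 = 1)
    (hbad : Λ.bad = ∅) (p : Nat.Primes) {v : ℕ} (hv : v ≠ 0) (x y : Pt Λ.level) :
    entry (Λ.cellOp p v).corr x y = entry (Λ.cellOp p v).corr y x := by
  rw [← heckeT_prime_pow p v hv]
  exact entry_heckeT_comm hram hl hbad (pow_ne_zero _ p.2.ne_zero) x y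

variable {l : Nat.Primes} (hram : IsRamified P l) (hl : (l : ℕ) % 12 = 1) (hbad : Λ.bad = ∅)
  {O : Type*} [CommRing O] {κ : Type*} (K : κ → Corr Λ.level)

include hram hl hbad in
/-- **The Hecke algebra of a neat level is reduced.** -/
theorem isReduced_adjoin_op [IsDomain O] [CharZero O]
    (hK : ∀ i, (∃ n : ℕ, n ≠ 0 ∧ K i = Λ.heckeT n) ∨
      ∃ (p : Nat.Primes) (v : ℕ), v ≠ 0 ∧ K i = (Λ.cellOp p v).corr)
    (hcomm : ∀ i j, Commute (Corr.op O (K i)) (Corr.op O (K j))) :
    _root_.IsReduced (Algebra.adjoin O (Set.range fun i => Corr.op O (K i))) := by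
  classical
  refine isReduced_adjoin_of_natMatrix (a := fun i => clsEntry (K i)) _
    (fun i c d => op_single_clsEntry O (K i) c d) (fun i c d => ?_) hcomm
  rcases hK i with ⟨n, hn, e⟩ | ⟨p, v, hv, e⟩ <;> rw [e]
  · exact entry_heckeT_comm hram hl hbad hn _ _
  · exact entry_cellOp_comm hram hl hbad p hv _ _

omit hram hl [CommRing O] in
include hbad in
/-- The operators at split and special primes commute. -/
theorem commute_op_cellOp_one [CommRing O] {p q : Nat.Primes}
    (hp : P.IsSplitAt p ∨ P.IsSpecial p) (hq : P.IsSplitAt q ∨ P.IsSpecial q) :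
    Commute (Corr.op O (Λ.cellOp p 1).corr) (Corr.op O (Λ.cellOp q 1).corr) := by
  have h := isNice_of_bad_eq_empty (Λ := Λ) hbad hp
  have h' := isNice_of_bad_eq_empty (Λ := Λ) hbad hq
  rw [← heckeT_prime' h.W_eq, ← heckeT_prime' h'.W_eq]
  simpa using commute_op_heckeT_pow_prime O h h' 1 1

omit [CommRing O] in
include hram hl hbad in
/-- **The Hecke algebra generated by split and special prime operators is reduced.** -/
theorem isReduced_adjoin_cellOp [CommRing O] [IsDomain O] [CharZero O] {κ' : Type*}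
    (p : κ → Nat.Primes) (q : κ' → Nat.Primes) (hp : ∀ i, P.IsSplitAt (p i))
    (hq : ∀ j, P.IsSpecial (q j)) :
    _root_.IsReduced (Algebra.adjoin O (Set.range (Sum.elim
      (fun i => Corr.op O (Λ.cellOp (p i) 1).corr)
      fun j => Corr.op O (Λ.cellOp (q j) 1).corr))) := by
  have hpq : ∀ a, P.IsSplitAt (Sum.elim p q a) ∨ P.IsSpecial (Sum.elim p q a) :=
    Sum.rec (fun i => Or.inl (hp i)) fun j => Or.inr (hq j)
  have h := isReduced_adjoin_op hram hl hbad (fun a => (Λ.cellOp (Sum.elim p q a) 1).corr)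
    (O := O) (fun a => Or.inr ⟨_, 1, one_ne_zero, rfl⟩)
    fun a b => commute_op_cellOp_one hbad (hpq a) (hpq b)
  have e : (fun a => Corr.op O (Λ.cellOp (Sum.elim p q a) 1).corr) =
      Sum.elim (fun i => Corr.op O (Λ.cellOp (p i) 1).corr)
        fun j => Corr.op O (Λ.cellOp (q j) 1).corr := by
    funext a; cases a <;> rfl
  rwa [e] at h

end Param.Sub

end Fermat.Agent.Two.Brandt

end
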