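import Fermat.Agent.Two.Brandt.Level
import Mathlib.NumberTheory.LegendreSymbol.QuadraticReciprocity
import Mathlib.Tactic.LinearCombination

/-!
# Neatness

If a prime `l ≡ 1` modulo `12` ramifies in the algebra, stabilisers of points are `{1, -1}`.
-/

set_option autoImplicit false

noncomputable section

namespace Fermat.Agent.Two.Brandt.Param

variable {P : Param}

/-- Both `-1` and `-3` are squares modulo a prime `1` modulo `12`. -/
theorem exists_sq_eq (l : Nat.Primes) (hl : (l : ℕ) % 12 = 1) {t : ℤ} (ht : -1 ≤ t) (ht' : t ≤ 1) :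
    ∃ a : ℤ, ¬ ((l : ℕ) : ℤ) ∣ 2 * a ∧ ((l : ℕ) : ℤ) ∣ a ^ 2 + 4 - t ^ 2 := by
  have : Fact (l : ℕ).Prime := ⟨l.2⟩
  have h2 : (l : ℕ) ≠ 2 := by omega
  have h3 : (l : ℕ) ≠ 3 := by omega
  have hsq : IsSquare (((t ^ 2 - 4 : ℤ) : ZMod l)) := by
    have h1 : IsSquare (-1 : ZMod l) := ZMod.exists_sq_eq_neg_one_iff.mpr (by omega)
    have h4 : IsSquare (3 : ZMod l) := by
      have := (ZMod.exists_sq_eq_prime_iff_of_mod_four_eq_one (p := l) (q := 3) (by omega)
        (by decide)).mpr (by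
        rw [← ZMod.natCast_mod, show (l : ℕ) % 3 = 1 by omega]
        exact ⟨1, rfl⟩)
      exact_mod_cast this
    have h5 : IsSquare (4 : ZMod l) := ⟨2, by norm_num⟩
    interval_cases t
    · rw [show (((-1) ^ 2 - 4 : ℤ) : ZMod l) = -1 * 3 by push_cast; ring]; exact h1.mul h4
    · rw [show ((0 ^ 2 - 4 : ℤ) : ZMod l) = -1 * 4 by push_cast; ring]; exact h1.mul h5
    · rw [show ((1 ^ 2 - 4 : ℤ) : ZMod l) = -1 * 3 by push_cast; ring]; exact h1.mul h4
  obtain ⟨b, hb⟩ := hsq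
  obtain ⟨a, rfl⟩ := ZMod.intCast_surjective b
  have hdvd : ((l : ℕ) : ℤ) ∣ a ^ 2 + 4 - t ^ 2 := by
    rw [← ZMod.intCast_zmod_eq_zero_iff_dvd]
    push_cast at hb ⊢
    linear_combination -hb
  refine ⟨a, fun h => ?_, hdvd⟩
  have hp : Prime ((l : ℕ) : ℤ) := Nat.prime_iff_prime_int.mp l.2
  have ha : ((l : ℕ) : ℤ) ∣ a := by
    refine (hp.dvd_or_dvd h).resolve_left fun h' => ?_
    have := Int.le_of_dvd two_pos h'
    have := l.2.two_le
    omega
  have h' : ((l : ℕ) : ℤ) ∣ 4 - t ^ 2 := by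
    have := dvd_sub hdvd (dvd_pow ha two_ne_zero)
    rwa [show a ^ 2 + 4 - t ^ 2 - a ^ 2 = 4 - t ^ 2 by ring] at this
  have hlt : (4 - t ^ 2) < ((l : ℕ) : ℤ) := by
    have : (13 : ℤ) ≤ ((l : ℕ) : ℤ) := by exact_mod_cast (show 13 ≤ (l : ℕ) by have := l.2.two_le; omega)
    nlinarith
  have h0 : 0 < 4 - t ^ 2 := by nlinarith
  exact (not_le.mpr hlt) (Int.le_of_dvd h0 h')

theorem sq_trace_lt {z : P.B} (hn : P.nrd z = 1) (h1 : z ≠ 1) (h2 : z ≠ -1) :
    (2 * z.re + z.imI) ^ 2 < 4 := by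
  rw [nrd_def] at hn
  have hD : (P.D : ℚ) < 0 := by exact_mod_cast P.hD
  have hc : (P.D : ℚ) = 4 * P.c + 1 := by exact_mod_cast P.hc
  have hJ := P.form_nonneg z.imJ z.imK
  have hk := P.coef_pos
  by_contra hlt
  have hA : -(P.D : ℚ) * z.imI ^ 2 +
      4 * ((P.e : ℚ) / P.M * (z.imJ ^ 2 + z.imJ * z.imK - P.c * z.imK ^ 2)) ≤ 0 := by
    nlinarith [not_lt.mp hlt]
  have hI : z.imI = 0 := by
    by_contra hne
    have : 0 < z.imI ^ 2 := by positivity
    have : 0 ≤ (P.e : ℚ) / P.M * (z.imJ ^ 2 + z.imJ * z.imK - P.c * z.imK ^ 2) := by positivity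
    nlinarith
  have hq : (P.e : ℚ) / P.M * (z.imJ ^ 2 + z.imJ * z.imK - P.c * z.imK ^ 2) = 0 := by
    have : 0 ≤ (P.e : ℚ) / P.M * (z.imJ ^ 2 + z.imJ * z.imK - P.c * z.imK ^ 2) := by positivity
    rw [hI] at hA
    linarith
  obtain ⟨hj, hk'⟩ := P.form_eq_zero ((mul_eq_zero.mp hq).resolve_left hk.ne')
  rw [hI, hj, hk'] at hn
  have hre : (z.re - 1) * (z.re + 1) = 0 := by linear_combination hn
  rcases mul_eq_zero.mp hre with h | h
  · exact h1 (QuaternionAlgebra.ext (by simp; linarith) (by simpa using hI) (by simpa using hj)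
      (by simpa using hk'))
  · exact h2 (QuaternionAlgebra.ext (by simp; linarith) (by simpa using hI) (by simpa using hj)
      (by simpa using hk'))

namespace Sub

variable {Λ : P.Sub}

/-- A prime at which the elements of positive norm valuation are the multiples of one element. -/
def IsRamified (P : Param) (l : Nat.Primes) : Prop :=
  ∃ π ∈ P.cell l 1, ∀ (v : ℕ), ∀ z ∈ P.cell l (v + 1), π⁻¹ * z ∈ P.cell l v

theorem IsRamified.add_pos {l : Nat.Primes} (h : IsRamified P l) {z w : P.B}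
    (hz : z ∈ P.localOrder l) (hw : w ∈ P.localOrder l) (hz0 : z ≠ 0) (hw0 : w ≠ 0)
    (hzv : 0 < P.vp l z) (hwv : 0 < P.vp l w) (hne : z + w ≠ 0) : 0 < P.vp l (z + w) := by
  obtain ⟨π, hπ, hdiv⟩ := h
  have key : ∀ y ∈ P.localOrder l, ∀ hy : y ≠ 0, 0 < P.vp l y →
      ((π⁻¹ : P.Bˣ) : P.B) * y ∈ P.localOrder l := fun y hy hy0 hv => by
    obtain ⟨v, hv'⟩ : ∃ v : ℕ, P.vp l y = ((v + 1 : ℕ) : ℤ) :=
      ⟨(P.vp l y).toNat - 1, by omega⟩
    have := (hdiv v (P.unitOf y hy0) ⟨hy, hv'⟩).1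
    simpa using this
  have hsum := add_mem (key z hz hz0 hzv) (key w hw hw0 hwv)
  rw [← mul_add] at hsum
  have e : z + w = (π : P.B) * (((π⁻¹ : P.Bˣ) : P.B) * (z + w)) := (Units.mul_inv_cancel_left π _).symm
  rw [e, P.vp_mul l π.ne_zero (mul_ne_zero' π (z + w) hne), hπ.2]
  have := P.vp_nonneg l hsum
  omega
where
  mul_ne_zero' {P : Param} (π : P.Bˣ) (y : P.B) (hy : y ≠ 0) : ((π⁻¹ : P.Bˣ) : P.B) * y ≠ 0 :=
    fun h => hy (by rw [← Units.mul_inv_cancel_left π y, h, mul_zero])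

/-- **Neatness**: a ramified prime `1` modulo `12` makes all stabilisers trivial up to sign. -/
theorem stabilizer_eq_one_or_neg_one {l : Nat.Primes} (hram : IsRamified P l)
    (hl : (l : ℕ) % 12 = 1) (x : Pt Λ.level) (g : P.Bˣ) (hg : g • x = x) : g = 1 ∨ g = -1 := by
  have : Fact (l : ℕ).Prime := ⟨l.2⟩
  set a := Λ.rep x with ha
  have hu : ∀ p, (a p)⁻¹ * g * a p ∈ P.localUnits p := fun p => by
    refine Λ.le p ?_
    rw [mul_assoc]
    refine QuotientGroup.eq.mp ?_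
    have := congrArg (fun y : Pt Λ.level => y.val p) hg
    simp only [Pt.smul_val, ← mk_rep x p] at this
    exact this.symm
  have hn : P.nrd g = 1 := eq_of_padicValRat_eq (P.nrd_unit_pos g) one_pos fun p => by
    have h := (hu p).2
    rw [vp_coe_mul, vp_coe_mul, vp_inv] at h
    rw [padicValRat.one]
    show P.vp p g = 0
    omega
  have hinv : ((g⁻¹ : P.Bˣ) : P.B) = star (g : P.B) := by rw [coe_inv, hn, inv_one, one_smul]
  set t : ℚ := 2 * (g : P.B).re + (g : P.B).imI with ht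
  have htr : (g : P.B) + star (g : P.B) = algebraMap ℚ P.B t := by
    ext <;> simp [ht, QuaternionAlgebra.algebraMap_eq]; ring
  have hconj : ∀ p, ((((a p)⁻¹ * g * a p : P.Bˣ)) : P.B) +
      ((((a p)⁻¹ * g * a p)⁻¹ : P.Bˣ) : P.B) = algebraMap ℚ P.B t := fun p => by
    simp only [mul_inv_rev, inv_inv, Units.val_mul, mul_assoc]
    rw [← mul_add, ← add_mul, hinv, htr, Algebra.commutes, Units.inv_mul_cancel_left]
  have hint : ∀ p : Nat.Primes, ¬ (p : ℕ) ∣ t.den := fun p hd => by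
    obtain ⟨c, hc, v, hv⟩ := (hconj p) ▸ add_mem (hu p).1 (P.inv_mem_localOrder p (hu p).1 (hu p).2)
    have h := congrArg QuaternionAlgebra.re hv
    simp [elem, QuaternionAlgebra.algebraMap_eq] at h
    have h' : (((c : ℤ) * t.num : ℤ) : ℚ) = (((v 0) * t.den : ℤ) : ℚ) := by
      push_cast
      rw [h, mul_assoc, Rat.mul_den_eq_num]
    have h'' : (c : ℤ) * t.num = v 0 * t.den := by exact_mod_cast h'
    have hpd : ((p : ℕ) : ℤ) ∣ (c : ℤ) * t.num := h'' ▸ (Int.natCast_dvd_natCast.mpr hd).mul_left _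
    rcases (Nat.prime_iff_prime_int.mp p.2).dvd_or_dvd hpd with h1 | h1
    · exact hc (Int.natCast_dvd_natCast.mp h1)
    · refine p.2.not_dvd_one ?_
      have := Nat.dvd_gcd (Int.natCast_dvd.mp h1) hd
      rwa [t.reduced] at this
  have hden : t.den = 1 := by
    by_contra hne
    obtain ⟨p, hp, hpd⟩ := Nat.exists_prime_and_dvd hne
    exact hint ⟨p, hp⟩ hpd
  by_contra hne
  rw [not_or] at hne
  have hsq := sq_trace_lt hn (fun h => hne.1 (Units.ext h))
    (fun h => hne.2 (Units.ext (by simpa using h)))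
  rw [← ht] at hsq
  obtain ⟨T, hT⟩ : ∃ T : ℤ, t = T := ⟨t.num, by conv_lhs => rw [← Rat.num_div_den t, hden]; simp⟩
  rw [hT] at hsq
  have hT4 : T ^ 2 < 4 := by exact_mod_cast hsq
  obtain ⟨b, hb2, hb⟩ := exists_sq_eq l hl (t := T) (by nlinarith) (by nlinarith)
  set h := (a l)⁻¹ * g * a l with hh
  set z : P.B := 2 • (h : P.B) - (T : P.B) with hz
  have hht : (h : P.B) + ((h⁻¹ : P.Bˣ) : P.B) = (T : P.B) := by
    rw [hh, hconj l, hT, map_intCast]
  have hre : 2 * (h : P.B).re + (h : P.B).imI = (T : ℚ) ∧ P.nrd h = 1 := by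
    have hnh : P.nrd h = 1 := by
      rw [hh, Units.val_mul, Units.val_mul, map_mul, map_mul, hn, mul_one, ← map_mul,
        ← Units.val_mul, inv_mul_cancel, Units.val_one, map_one]
    refine ⟨?_, hnh⟩
    have e := congrArg QuaternionAlgebra.re hht
    rw [coe_inv, hnh, inv_one, one_smul] at e
    simp at e
    linarith
  have hnz : ∀ s : ℤ, P.nrd (z + (s : P.B)) = (4 - T ^ 2 + s ^ 2 : ℤ) := fun s => by
    obtain ⟨h1, h2⟩ := hre
    rw [nrd_def] at h2
    simp only [hz, nrd_def, QuaternionAlgebra.re_add, QuaternionAlgebra.re_sub,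
      QuaternionAlgebra.imI_add, QuaternionAlgebra.imI_sub, QuaternionAlgebra.imJ_add,
      QuaternionAlgebra.imJ_sub, QuaternionAlgebra.imK_add, QuaternionAlgebra.imK_sub,
      QuaternionAlgebra.re_intCast, QuaternionAlgebra.imI_intCast, QuaternionAlgebra.imJ_intCast,
      QuaternionAlgebra.imK_intCast, two_smul, add_zero, sub_zero, Int.cast_add, Int.cast_sub,
      Int.cast_pow, Int.cast_ofNat]
    linear_combination 4 * h2 + (2 * ((s : ℚ) - (T : ℚ))) * h1
  have hpos : ∀ s : ℤ, 0 < (4 - T ^ 2 + s ^ 2 : ℤ) := fun s => by nlinarith [sq_nonneg s]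
  have hmem : ∀ s : ℤ, z + (s : P.B) ∈ P.localOrder l := fun s =>
    add_mem (sub_mem (nsmul_mem (hu l).1 2) (intCast_mem _ T)) (intCast_mem _ s)
  have hne0 : ∀ s : ℤ, z + (s : P.B) ≠ 0 := fun s e => by
    have h0 := hnz s
    rw [e, map_zero] at h0
    exact (hpos s).ne (by exact_mod_cast h0)
  have hvp : ∀ s : ℤ, ((l : ℕ) : ℤ) ∣ 4 - T ^ 2 + s ^ 2 → 0 < P.vp l (z + (s : P.B)) := fun s hs => by
    rw [vp, hnz, padicValRat.of_int]
    exact_mod_cast Nat.pos_of_ne_zero (dvd_iff_padicValNat_ne_zero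
      (Int.natAbs_ne_zero.mpr (hpos s).ne') |>.mp (Int.natCast_dvd.mp hs))
  have h1 := hvp b (by rwa [show 4 - T ^ 2 + b ^ 2 = b ^ 2 + 4 - T ^ 2 by ring])
  have h2 := hvp (-b) (by rwa [show 4 - T ^ 2 + (-b) ^ 2 = b ^ 2 + 4 - T ^ 2 by ring])
  have hbne : (2 * b : ℤ) ≠ 0 := fun e => hb2 (e ▸ dvd_zero _)
  have hsum : z + (b : P.B) + -(z + ((-b : ℤ) : P.B)) = ((2 * b : ℤ) : P.B) := by
    push_cast; rw [two_mul]; abel
  have h3 := hram.add_pos (hmem b) (neg_mem (hmem (-b))) (hne0 b) (neg_ne_zero.mpr (hne0 (-b))) h1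
    (by rw [vp, show P.nrd (-(z + ((-b : ℤ) : P.B))) = P.nrd (z + ((-b : ℤ) : P.B)) by
      simp only [nrd_def, QuaternionAlgebra.re_neg, QuaternionAlgebra.imI_neg,
        QuaternionAlgebra.imJ_neg, QuaternionAlgebra.imK_neg]
      ring]
        exact h2)
    (by
      rw [hsum]
      intro e
      have e' := congrArg QuaternionAlgebra.re e
      rw [QuaternionAlgebra.re_intCast, QuaternionAlgebra.re_zero] at e'
      exact hbne (by exact_mod_cast e'))
  rw [hsum] at h3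
  have e : P.nrd ((2 * b : ℤ) : P.B) = (((2 * b) ^ 2 : ℤ) : ℚ) := by
    rw [← map_intCast (algebraMap ℚ P.B), nrd_algebraMap]; push_cast; ring
  rw [vp, e, padicValRat.of_int, padicValInt.eq_zero_of_not_dvd] at h3
  · exact lt_irrefl _ h3
  · exact fun hd => hb2 ((Nat.prime_iff_prime_int.mp l.2).dvd_of_dvd_pow hd)

end Sub

end Fermat.Agent.Two.Brandt.Param

end
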