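import Mathlib.Algebra.Quaternion
import Mathlib.LinearAlgebra.Matrix.Determinant.Basic
import Mathlib.Algebra.Order.Field.Basic
import Mathlib.Tactic.LinearCombination
import Mathlib.Tactic.Linarith
import Mathlib.Tactic.FieldSimp

/-!
# A definite quaternion algebra with an explicit order

`B = K + K j` with `K = ℚ(√D)`, `D = 4 c + 1 < 0`, `j ^ 2 = -e / M` and `M ∣ s ^ 2 - s - c`.
The order is `O_K + (M ℤ + (i - s) ℤ) j`.
-/

set_option autoImplicit false

noncomputable section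

namespace Fermat.Agent.Two.Brandt

open QuaternionAlgebra

/-- The parameters of the algebra and of the order. -/
structure Param where
  D : ℤ
  c : ℤ
  e : ℤ
  M : ℤ
  s : ℤ
  hD : D < 0
  hc : D = 4 * c + 1
  he : 0 < e
  hM : 0 < M
  hs : M ∣ s ^ 2 - s - c

variable (P : Param)

namespace Param

/-- The coefficient `(s ^ 2 - s - c) / M`. -/
def h : ℤ := (P.s ^ 2 - P.s - P.c) / P.M

theorem M_mul_h : P.M * P.h = P.s ^ 2 - P.s - P.c := Int.mul_ediv_cancel' P.hs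

/-- The binary form of discriminant `D` on the second summand. -/
def g (a b : ℤ) : ℤ := P.M * a ^ 2 + (1 - 2 * P.s) * a * b + P.h * b ^ 2

theorem disc_g : (1 - 2 * P.s) ^ 2 - 4 * P.M * P.h = P.D := by
  have := P.M_mul_h
  have := P.hc
  nlinarith

/-- The norm form of the first summand. -/
def g₀ (a b : ℤ) : ℤ := a ^ 2 + a * b - P.c * b ^ 2

/-- The algebra. -/
abbrev B : Type := QuaternionAlgebra ℚ (P.c : ℚ) 1 (-(P.e : ℚ) / (P.M : ℚ))

/-- The reduced norm. -/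
def nrd : P.B →*₀ ℚ where
  toFun z := (z.re ^ 2 + z.re * z.imI - P.c * z.imI ^ 2) +
    (P.e : ℚ) / P.M * (z.imJ ^ 2 + z.imJ * z.imK - P.c * z.imK ^ 2)
  map_zero' := by simp
  map_one' := by simp
  map_mul' z w := by
    simp only [re_mul, imI_mul, imJ_mul, imK_mul]
    ring

theorem nrd_def (z : P.B) : P.nrd z = (z.re ^ 2 + z.re * z.imI - P.c * z.imI ^ 2) +
    (P.e : ℚ) / P.M * (z.imJ ^ 2 + z.imJ * z.imK - P.c * z.imK ^ 2) := rfl

theorem form_nonneg (a b : ℚ) : 0 ≤ a ^ 2 + a * b - (P.c : ℚ) * b ^ 2 := by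
  have h1 : (P.D : ℚ) < 0 := by exact_mod_cast P.hD
  have h2 : (P.D : ℚ) = 4 * P.c + 1 := by exact_mod_cast P.hc
  nlinarith [sq_nonneg (2 * a + b), sq_nonneg b]

theorem form_eq_zero {a b : ℚ} (h : a ^ 2 + a * b - (P.c : ℚ) * b ^ 2 = 0) : a = 0 ∧ b = 0 := by
  have h1 : (P.D : ℚ) < 0 := by exact_mod_cast P.hD
  have h2 : (P.D : ℚ) = 4 * P.c + 1 := by exact_mod_cast P.hc
  have hb : b = 0 := by
    by_contra hb
    have : 0 < b ^ 2 := by positivity
    nlinarith [sq_nonneg (2 * a + b)]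
  subst hb
  exact ⟨by simpa using h, rfl⟩

theorem coef_pos : 0 < (P.e : ℚ) / P.M :=
  div_pos (by exact_mod_cast P.he) (by exact_mod_cast P.hM)

theorem nrd_pos {z : P.B} (hz : z ≠ 0) : 0 < P.nrd z := by
  rw [nrd_def]
  have h1 := P.form_nonneg z.re z.imI
  have h2 := P.form_nonneg z.imJ z.imK
  have h3 := P.coef_pos
  rcases h1.lt_or_eq with h1' | h1'
  · positivity
  rcases h2.lt_or_eq with h2' | h2'
  · rw [← h1', zero_add]; positivity
  obtain ⟨ha, hb⟩ := P.form_eq_zero h1'.symm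
  obtain ⟨hc, hd⟩ := P.form_eq_zero h2'.symm
  exact absurd (QuaternionAlgebra.ext (by simpa using ha) (by simpa using hb) (by simpa using hc)
    (by simpa using hd)) hz

theorem mul_star_self (z : P.B) : z * star z = algebraMap ℚ P.B (P.nrd z) := by
  ext <;> simp [nrd_def, QuaternionAlgebra.algebraMap_eq] <;> ring

theorem star_mul_self' (z : P.B) : star z * z = algebraMap ℚ P.B (P.nrd z) := by
  ext <;> simp [nrd_def, QuaternionAlgebra.algebraMap_eq] <;> ring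

theorem nrd_star (z : P.B) : P.nrd (star z) = P.nrd z := by
  simp [nrd_def]; ring

theorem nrd_algebraMap (r : ℚ) : P.nrd (algebraMap ℚ P.B r) = r ^ 2 := by
  simp [nrd_def, QuaternionAlgebra.algebraMap_eq]

theorem nrd_smul (r : ℚ) (z : P.B) : P.nrd (r • z) = r ^ 2 * P.nrd z := by
  simp [nrd_def]; ring

/-- Nonzero elements are units. -/
def unitOf (z : P.B) (hz : z ≠ 0) : P.Bˣ where
  val := z
  inv := (P.nrd z)⁻¹ • star z
  val_inv := by
    rw [mul_smul_comm, mul_star_self, Algebra.algebraMap_eq_smul_one, smul_smul,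
      inv_mul_cancel₀ (P.nrd_pos hz).ne', one_smul]
  inv_val := by
    rw [smul_mul_assoc, star_mul_self', Algebra.algebraMap_eq_smul_one, smul_smul,
      inv_mul_cancel₀ (P.nrd_pos hz).ne', one_smul]

@[simp]
theorem coe_unitOf (z : P.B) (hz : z ≠ 0) : (P.unitOf z hz : P.B) = z := rfl

theorem coe_inv (u : P.Bˣ) : ((u⁻¹ : P.Bˣ) : P.B) = (P.nrd u)⁻¹ • star (u : P.B) := by
  rw [show u = P.unitOf u u.ne_zero from Units.ext rfl]
  rfl

theorem nrd_unit_pos (u : P.Bˣ) : 0 < P.nrd u := P.nrd_pos u.ne_zero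

theorem nrd_inv (u : P.Bˣ) : P.nrd ((u⁻¹ : P.Bˣ) : P.B) = (P.nrd u)⁻¹ :=
  eq_inv_of_mul_eq_one_left (by rw [← map_mul, ← Units.val_mul, inv_mul_cancel, Units.val_one, map_one])

/-- The element of the order with given coordinates. -/
def elem (v : Fin 4 → ℤ) : P.B :=
  ⟨v 0, v 1, P.M * v 2 - P.s * v 3, v 3⟩

theorem elem_injective : Function.Injective P.elem := by
  intro v w h
  simp only [elem, QuaternionAlgebra.mk.injEq] at h
  obtain ⟨h0, h1, h2, h3⟩ := h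
  have hM : (P.M : ℚ) ≠ 0 := by exact_mod_cast P.hM.ne'
  have e3 : v 3 = w 3 := by exact_mod_cast h3
  rw [e3, sub_left_inj] at h2
  funext i
  fin_cases i
  · exact_mod_cast h0
  · exact_mod_cast h1
  · exact_mod_cast mul_left_cancel₀ hM h2
  · exact e3

theorem elem_add (v w : Fin 4 → ℤ) : P.elem (v + w) = P.elem v + P.elem w := by
  ext <;> simp [elem]; ring

theorem elem_zero : P.elem 0 = 0 := by ext <;> simp [elem]

theorem elem_neg (v : Fin 4 → ℤ) : P.elem (-v) = -P.elem v := by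
  ext <;> simp [elem]; ring

theorem elem_smul (n : ℤ) (v : Fin 4 → ℤ) : P.elem (n • v) = n • P.elem v := by
  ext <;> simp [elem]; ring

theorem elem_one : P.elem ![1, 0, 0, 0] = 1 := by ext <;> simp [elem]

/-- The coordinates of a product. -/
def mulCoord (v w : Fin 4 → ℤ) : Fin 4 → ℤ :=
  ![v 0 * w 0 + P.c * (v 1 * w 1) - P.e * (P.M * (v 2 * w 2) + P.h * (v 3 * w 3) +
      v 2 * w 3 * (1 - P.s) - P.s * (v 3 * w 2)),
    v 0 * w 1 + v 1 * w 0 + v 1 * w 1 - P.e * (v 3 * w 2 - v 2 * w 3),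
    v 0 * w 2 + v 1 * (w 2 * P.s - w 3 * P.h) + (w 0 + w 1) * v 2 -
      w 1 * (v 2 * P.s - v 3 * P.h),
    v 0 * w 3 + v 1 * (w 2 * P.M + w 3 * (1 - P.s)) + (w 0 + w 1) * v 3 -
      w 1 * (v 2 * P.M + v 3 * (1 - P.s))]

theorem elem_mul (v w : Fin 4 → ℤ) : P.elem v * P.elem w = P.elem (P.mulCoord v w) := by
  have hM : (P.M : ℚ) ≠ 0 := by exact_mod_cast P.hM.ne'
  have hh : (P.M : ℚ) * P.h = (P.s : ℚ) ^ 2 - P.s - P.c := by exact_mod_cast P.M_mul_h
  have hh' : (P.h : ℚ) = ((P.s : ℚ) ^ 2 - P.s - P.c) / P.M := by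
    rw [eq_div_iff hM, ← hh, mul_comm]
  ext <;> simp [elem, mulCoord, hh'] <;> field_simp <;> ring

theorem star_elem (v : Fin 4 → ℤ) :
    star (P.elem v) = P.elem ![v 0 + v 1, -v 1, -v 2, -v 3] := by
  ext <;> simp [elem]; ring

theorem nrd_elem (v : Fin 4 → ℤ) :
    P.nrd (P.elem v) = ((P.g₀ (v 0) (v 1) + P.e * P.g (v 2) (v 3) : ℤ) : ℚ) := by
  have hM : (P.M : ℚ) ≠ 0 := by exact_mod_cast P.hM.ne'
  have hh : (P.M : ℚ) * P.h = (P.s : ℚ) ^ 2 - P.s - P.c := by exact_mod_cast P.M_mul_h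
  have hh' : (P.h : ℚ) = ((P.s : ℚ) ^ 2 - P.s - P.c) / P.M := by
    rw [eq_div_iff hM, ← hh, mul_comm]
  simp [nrd_def, elem, g, g₀, hh']
  field_simp
  ring

/-- The order. -/
def order : Subring P.B where
  carrier := Set.range P.elem
  one_mem' := ⟨_, P.elem_one⟩
  zero_mem' := ⟨0, P.elem_zero⟩
  add_mem' := by rintro _ _ ⟨v, rfl⟩ ⟨w, rfl⟩; exact ⟨v + w, P.elem_add v w⟩
  neg_mem' := by rintro _ ⟨v, rfl⟩; exact ⟨-v, P.elem_neg v⟩
  mul_mem' := by rintro _ _ ⟨v, rfl⟩ ⟨w, rfl⟩; exact ⟨_, (P.elem_mul v w).symm⟩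

theorem mem_order {z : P.B} : z ∈ P.order ↔ ∃ v, P.elem v = z := Iff.rfl

theorem elem_mem (v : Fin 4 → ℤ) : P.elem v ∈ P.order := ⟨v, rfl⟩

theorem star_mem_order {z : P.B} (hz : z ∈ P.order) : star z ∈ P.order := by
  obtain ⟨v, rfl⟩ := hz
  exact ⟨_, (P.star_elem v).symm⟩

theorem exists_nrd_eq_intCast {z : P.B} (hz : z ∈ P.order) : ∃ n : ℤ, P.nrd z = n := by
  obtain ⟨v, rfl⟩ := hz
  exact ⟨_, P.nrd_elem v⟩

theorem exists_natCast_smul_mem (z : P.B) : ∃ c : ℕ, c ≠ 0 ∧ c • z ∈ P.order := by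
  have hM : (P.M : ℚ) ≠ 0 := by exact_mod_cast P.hM.ne'
  refine ⟨z.re.den * z.imI.den * z.imK.den * z.imJ.den * P.M.natAbs, ?_, ?_⟩
  · simp [Rat.den_ne_zero, P.hM.ne']
  · have hMn : ((P.M.natAbs : ℕ) : ℚ) = P.M := by
      rw [Nat.cast_natAbs, abs_of_pos P.hM]
    refine ⟨![z.re.num * z.imI.den * z.imK.den * z.imJ.den * P.M,
      z.imI.num * z.re.den * z.imK.den * z.imJ.den * P.M,
      z.imJ.num * z.re.den * z.imI.den * z.imK.den +
        P.s * z.imK.num * z.re.den * z.imI.den * z.imJ.den,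
      z.imK.num * z.re.den * z.imI.den * z.imJ.den * P.M], ?_⟩
    rw [← Nat.cast_smul_eq_nsmul ℚ]
    have h0 := Rat.mul_den_eq_num z.re
    have h1 := Rat.mul_den_eq_num z.imI
    have h2 := Rat.mul_den_eq_num z.imJ
    have h3 := Rat.mul_den_eq_num z.imK
    ext <;>
      simp only [elem, re_smul, imI_smul, imJ_smul, imK_smul, smul_eq_mul, Nat.cast_mul, hMn,
        Matrix.cons_val_zero, Matrix.cons_val_one, Matrix.cons_val, Int.cast_mul, Int.cast_add,
        Int.cast_natCast]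
    · linear_combination -(z.imI.den * z.imK.den * z.imJ.den * P.M : ℚ) * h0
    · linear_combination -(z.re.den * z.imK.den * z.imJ.den * P.M : ℚ) * h1
    · linear_combination -(z.re.den * z.imI.den * z.imK.den * P.M : ℚ) * h2
    · linear_combination -(z.re.den * z.imI.den * z.imJ.den * P.M : ℚ) * h3

end Param

end Fermat.Agent.Two.Brandt

end
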