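import Fermat.Agent.Two.Brandt.Local
import Mathlib.LinearAlgebra.Determinant
import Mathlib.LinearAlgebra.Matrix.ToLin
import Mathlib.LinearAlgebra.FreeModule.Finite.CardQuotient
import Mathlib.NumberTheory.LegendreSymbol.JacobiSymbol
import Mathlib.Data.Rat.Floor
import Mathlib.Data.Int.Interval
import Mathlib.Data.Nat.Sqrt
import Mathlib.Tactic.Positivity

/-!
# Short vectors and special primes

Every family of local ideals of total norm `N` contains an element of norm at most `C N`; at the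
special primes the local order consists of all elements of nonnegative norm valuation.
-/

set_option autoImplicit false

noncomputable section

namespace Fermat.Agent.Two.Brandt.Param

variable (P : Param)

theorem four_mul_g₀ (a b : ℤ) : 4 * P.g₀ a b = (2 * a + b) ^ 2 - P.D * b ^ 2 := by
  rw [g₀, P.hc]; ring

theorem four_M_mul_g (a b : ℤ) :
    4 * P.M * P.g a b = (2 * P.M * a + (1 - 2 * P.s) * b) ^ 2 - P.D * b ^ 2 := by
  rw [g, ← P.disc_g]; ring

theorem four_h_mul_g (a b : ℤ) :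
    4 * P.h * P.g a b = (2 * P.h * b + (1 - 2 * P.s) * a) ^ 2 - P.D * a ^ 2 := by
  rw [g, ← P.disc_g]; ring

/-! ### Short elements in local ideals -/

/-- Left multiplication on coordinates. -/
def lmul (w : Fin 4 → ℤ) : (Fin 4 → ℤ) →ₗ[ℤ] (Fin 4 → ℤ) where
  toFun := P.mulCoord w
  map_add' a b := P.elem_injective (by simp only [elem_add, ← elem_mul, mul_add])
  map_smul' n a := P.elem_injective (by
    simp only [elem_smul, ← elem_mul, RingHom.id_apply, mul_smul_comm])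

theorem elem_lmul (w a : Fin 4 → ℤ) : P.elem (P.lmul w a) = P.elem w * P.elem a :=
  (P.elem_mul w a).symm

/-- The coordinates of the conjugate. -/
def conjCoord (w : Fin 4 → ℤ) : Fin 4 → ℤ := ![w 0 + w 1, -w 1, -w 2, -w 3]

/-- The norm on coordinates. -/
def nrdZ (w : Fin 4 → ℤ) : ℤ := P.g₀ (w 0) (w 1) + P.e * P.g (w 2) (w 3)

theorem nrd_elem_eq (w : Fin 4 → ℤ) : P.nrd (P.elem w) = (P.nrdZ w : ℚ) := P.nrd_elem w

theorem lmul_conjCoord_lmul (w a : Fin 4 → ℤ) :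
    P.lmul (conjCoord w) (P.lmul w a) = P.nrdZ w • a := by
  refine P.elem_injective ?_
  rw [elem_lmul, elem_lmul, ← mul_assoc, show P.elem (conjCoord w) = star (P.elem w) from
    (P.star_elem w).symm, star_mul_self', nrd_elem_eq, elem_smul, ← Algebra.smul_def,
    Int.cast_smul_eq_zsmul]

theorem det_lmul (w : Fin 4 → ℤ) : LinearMap.det (P.lmul w) = P.nrdZ w ^ 2 := by
  have hc : P.c = P.s ^ 2 - P.s - P.M * P.h := by linarith [P.M_mul_h]
  rw [← LinearMap.det_toMatrix', Matrix.det_succ_row_zero]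
  simp [Fin.sum_univ_succ, Matrix.det_fin_three, LinearMap.toMatrix'_apply, lmul, mulCoord,
    nrdZ, g, g₀, Fin.succAbove, Pi.single_apply, hc]
  ring

/-- The index of the image of an injective endomorphism of `ℤ⁴` is the absolute determinant. -/
theorem index_range (f : (Fin 4 → ℤ) →ₗ[ℤ] (Fin 4 → ℤ)) (hf : LinearMap.det f ≠ 0) :
    (LinearMap.range f).toAddSubgroup.index = (LinearMap.det f).natAbs := by
  have hinj : Function.Injective f := by
    rw [← LinearMap.ker_eq_bot]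
    by_contra h
    exact hf (LinearMap.det_eq_zero_iff_ker_ne_bot.mpr h)
  refine Eq.symm ?_
  refine Eq.trans ?_ ((LinearMap.range f).natAbs_det_equiv (LinearEquiv.ofInjective f hinj))
  rfl

/-- The coordinates of the local ideal `elem w · O` at `p ^ k`. -/
def localLattice (p k : ℕ) (w : Fin 4 → ℤ) : AddSubgroup (Fin 4 → ℤ) :=
  (LinearMap.range (((p ^ k : ℕ) : ℤ) • (LinearMap.id : (Fin 4 → ℤ) →ₗ[ℤ] _))).toAddSubgroup.comap
    (P.lmul (conjCoord w)).toAddMonoidHom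

theorem index_localLattice {p k : ℕ} (hp : p.Prime) {w : Fin 4 → ℤ} (hn : P.nrdZ w ≠ 0)
    (hk : padicValInt p (P.nrdZ w) = k) :
    (P.localLattice p k w).index ≠ 0 ∧ (P.localLattice p k w).index ≤ (p ^ k) ^ 2 := by
  obtain ⟨m, hm⟩ : ((p ^ k : ℕ) : ℤ) ∣ P.nrdZ w := by
    push_cast
    rw [← hk]
    have : Fact p.Prime := ⟨hp⟩
    exact padicValInt_dvd _
  have h1 : (P.localLattice p k w).index ∣ (P.nrdZ w).natAbs ^ 2 := by
    have hle : (LinearMap.range (P.lmul w)).toAddSubgroup ≤ P.localLattice p k w := by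
      rintro _ ⟨a, rfl⟩
      refine ⟨m • a, ?_⟩
      show ((p ^ k : ℕ) : ℤ) • m • a = P.lmul (conjCoord w) (P.lmul w a)
      rw [lmul_conjCoord_lmul, hm, mul_smul]
    refine (AddSubgroup.index_dvd_of_le hle).trans (dvd_of_eq ?_)
    rw [index_range _ (by rw [det_lmul]; exact pow_ne_zero _ hn), det_lmul, Int.natAbs_pow]
  have h2 : (P.localLattice p k w).index ∣ p ^ (k * 4) := by
    set f := ((p ^ k : ℕ) : ℤ) • (LinearMap.id : (Fin 4 → ℤ) →ₗ[ℤ] _)
    have hle : (LinearMap.range f).toAddSubgroup ≤ P.localLattice p k w := by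
      rintro _ ⟨a, rfl⟩
      exact ⟨P.lmul (conjCoord w) a, ((P.lmul (conjCoord w)).map_smul _ a).symm⟩
    have hdet : LinearMap.det f = ((p ^ k : ℕ) : ℤ) ^ 4 := by
      rw [LinearMap.det_smul, LinearMap.det_id, mul_one, Module.finrank_fin_fun]
    refine (AddSubgroup.index_dvd_of_le hle).trans (dvd_of_eq ?_)
    rw [index_range _ (by rw [hdet]; exact pow_ne_zero _ (by exact_mod_cast pow_ne_zero _ hp.ne_zero)),
      hdet, Int.natAbs_pow, Int.natAbs_natCast, ← pow_mul]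
  obtain ⟨j, -, hj⟩ := (Nat.dvd_prime_pow hp).mp h2
  rw [hj] at h1 ⊢
  refine ⟨pow_ne_zero _ hp.ne_zero, ?_⟩
  rw [← pow_mul]
  refine Nat.pow_le_pow_right hp.pos ?_
  have : Fact p.Prime := ⟨hp⟩
  have h3 := (padicValNat_dvd_iff_le (pow_ne_zero 2 (Int.natAbs_ne_zero.mpr hn))).mp h1
  rw [padicValNat.pow, show padicValNat p (P.nrdZ w).natAbs = k from hk] at h3
  linarith

/-- Lattice membership gives divisibility by `x` in the local order. -/
theorem inv_mul_mem_of_mem_localLattice {p : Nat.Primes} {k : ℕ} {x : P.Bˣ} {c : ℕ}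
    (hx : x ∈ P.cell p k) (hc : ¬ (p : ℕ) ∣ c) {w a : Fin 4 → ℤ} (hw : P.elem w = c • (x : P.B))
    (ha : a ∈ P.localLattice p k w) : ((x⁻¹ : P.Bˣ) : P.B) * P.elem a ∈ P.localOrder p := by
  have := fact_prime p
  obtain ⟨t, ht⟩ := ha
  have ht' : P.lmul (conjCoord w) a = (((p : ℕ) ^ k : ℕ) : ℤ) • t := ht.symm
  have hstar : star (P.elem w) * P.elem a = (((p : ℕ) ^ k : ℕ) : ℤ) • P.elem t := by
    rw [P.star_elem w, ← P.elem_smul, ← ht', P.elem_lmul]; rfl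
  have hc0 : (c : ℚ) ≠ 0 := Nat.cast_ne_zero.mpr fun e => hc (e ▸ dvd_zero _)
  have hx0 := (P.nrd_unit_pos x).ne'
  rw [hw, star_nsmul, ← Nat.cast_smul_eq_nsmul ℚ, ← Int.cast_smul_eq_zsmul ℚ,
    smul_mul_assoc] at hstar
  set r : ℚ := (((p : ℕ) : ℚ) ^ k) * ((P.nrd x)⁻¹ * (c : ℚ)⁻¹) with hr
  have e : ((x⁻¹ : P.Bˣ) : P.B) * P.elem a = r • P.elem t := by
    rw [coe_inv, smul_mul_assoc, show star (x : P.B) * P.elem a = (c : ℚ)⁻¹ • ((c : ℚ) •
      (star (x : P.B) * P.elem a)) by rw [smul_smul, inv_mul_cancel₀ hc0, one_smul], hstar,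
      smul_smul, smul_smul, hr]
    congr 1
    push_cast
    ring
  rw [e]
  refine P.smul_mem_localOrder_of_not_dvd_den p (not_dvd_den_of_nonneg p (le_of_eq ?_))
    (P.order_le_localOrder p (P.elem_mem t))
  have hp0 : ((p : ℕ) : ℚ) ≠ 0 := Nat.cast_ne_zero.mpr p.2.ne_zero
  have hv : padicValRat (p : ℕ) (P.nrd x) = k := hx.2
  rw [hr, padicValRat.mul (pow_ne_zero _ hp0) (mul_ne_zero (inv_ne_zero hx0) (inv_ne_zero hc0)),
    padicValRat.mul (inv_ne_zero hx0) (inv_ne_zero hc0), padicValRat.inv, padicValRat.inv,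
    padicValRat.pow, padicValRat.self p.2.one_lt, padicValRat.of_nat,
    padicValNat.eq_zero_of_not_dvd hc, hv]
  simp

theorem padicValInt_nrdZ {p : Nat.Primes} {k : ℕ} {x : P.Bˣ} {c : ℕ} (hx : x ∈ P.cell p k)
    (hc : ¬ (p : ℕ) ∣ c) {w : Fin 4 → ℤ} (hw : P.elem w = c • (x : P.B)) :
    P.nrdZ w ≠ 0 ∧ padicValInt p (P.nrdZ w) = k := by
  have := fact_prime p
  have hc0 : (c : ℚ) ≠ 0 := Nat.cast_ne_zero.mpr fun e => hc (e ▸ dvd_zero _)
  have hx0 := (P.nrd_unit_pos x).ne'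
  have e : (P.nrdZ w : ℚ) = (c : ℚ) ^ 2 * P.nrd x := by
    rw [← nrd_elem_eq, hw, ← Nat.cast_smul_eq_nsmul ℚ, nrd_smul]
  refine ⟨fun h => mul_ne_zero (pow_ne_zero 2 hc0) hx0 (by rw [← e, h, Int.cast_zero]), ?_⟩
  have h1 := congrArg (padicValRat (p : ℕ)) e
  rw [padicValRat.of_int, padicValRat.mul (pow_ne_zero 2 hc0) hx0, padicValRat.pow,
    padicValRat.of_nat, padicValNat.eq_zero_of_not_dvd hc] at h1
  have h2 : padicValRat (p : ℕ) (P.nrd x) = k := hx.2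
  rw [h2] at h1
  simpa using h1

/-- A bound for the norm on a box. -/
def boxConst : ℤ := 2 + |P.c| + P.e * (P.M + |1 - 2 * P.s| + |P.h|)

theorem nrdZ_le_box {A : ℕ} {v : Fin 4 → ℤ} (hv : ∀ i, |v i| ≤ A) :
    P.nrdZ v ≤ P.boxConst * (A : ℤ) ^ 2 := by
  have habs : ∀ (x : ℤ) (i j : Fin 4), x * (v i * v j) ≤ |x| * (A : ℤ) ^ 2 := fun x i j =>
    calc x * (v i * v j) ≤ |x * (v i * v j)| := le_abs_self _
      _ = |x| * (|v i| * |v j|) := by rw [abs_mul, abs_mul]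
      _ ≤ |x| * (A : ℤ) ^ 2 := by
        rw [pow_two]
        exact mul_le_mul_of_nonneg_left (mul_le_mul (hv i) (hv j) (abs_nonneg _) (by positivity))
          (abs_nonneg _)
  have h1 := habs 1 0 0
  have h2 := habs 1 0 1
  have h3 := habs (-P.c) 1 1
  have h4 := habs P.M 2 2
  have h5 := habs (1 - 2 * P.s) 2 3
  have h6 := habs P.h 3 3
  rw [abs_one] at h1 h2
  rw [abs_neg] at h3
  rw [abs_of_pos P.hM] at h4
  have hg : P.g (v 2) (v 3) ≤ (P.M + |1 - 2 * P.s| + |P.h|) * (A : ℤ) ^ 2 := by rw [g]; linarith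
  have := mul_le_mul_of_nonneg_left hg P.he.le
  rw [nrdZ, g₀, boxConst]
  linarith

/-- A short element in a family of local ideals. -/
theorem exists_short : ∃ C : ℚ, ∀ (s : Finset Nat.Primes) (x : Nat.Primes → P.Bˣ)
    (v : Nat.Primes → ℕ), (∀ p ∈ s, x p ∈ P.cell p (v p)) →
    ∃ γ ∈ P.order, γ ≠ 0 ∧ (∀ p ∈ s, (((x p)⁻¹ : P.Bˣ) : P.B) * γ ∈ P.localOrder p) ∧
      P.nrd γ ≤ C * ∏ p ∈ s, ((p : ℕ) : ℚ) ^ v p := by
  classical
  refine ⟨((4 * P.boxConst : ℤ) : ℚ), fun s x v hx => ?_⟩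
  choose c hc w hw using fun p : s => (hx p.1 p.2).1
  have hidx : ∀ p : s, (P.localLattice (p.1 : ℕ) (v p.1) (w p)).index ≠ 0 ∧
      (P.localLattice (p.1 : ℕ) (v p.1) (w p)).index ≤ ((p.1 : ℕ) ^ v p.1) ^ 2 := fun p =>
    P.index_localLattice p.1.2 (P.padicValInt_nrdZ (hx p.1 p.2) (hc p) (hw p)).1
      (P.padicValInt_nrdZ (hx p.1 p.2) (hc p) (hw p)).2
  set L : AddSubgroup (Fin 4 → ℤ) := ⨅ p : s, P.localLattice (p.1 : ℕ) (v p.1) (w p) with hL
  set N : ℕ := ∏ p ∈ s, (p : ℕ) ^ v p with hN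
  have hN0 : 0 < N := Finset.prod_pos fun p _ => pow_pos p.2.pos _
  have hL0 : L.index ≠ 0 := AddSubgroup.index_iInf_ne_zero fun p => (hidx p).1
  have hLle : L.index ≤ N ^ 2 := by
    refine (AddSubgroup.index_iInf_le _).trans ?_
    rw [hN, ← Finset.prod_pow, ← Finset.prod_coe_sort s]
    exact Finset.prod_le_prod' fun p _ => (hidx p).2
  set A : ℕ := Nat.sqrt N + 1 with hA
  set T : Finset (Fin 4 → ℤ) := Fintype.piFinset fun _ => Finset.Ico (0 : ℤ) A with hT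
  have : L.FiniteIndex := ⟨hL0⟩
  have : Fintype ((Fin 4 → ℤ) ⧸ L) := Fintype.ofFinite _
  have hA4 : Fintype.card ((Fin 4 → ℤ) ⧸ L) < T.card := by
    rw [← Nat.card_eq_fintype_card, hT, Fintype.card_piFinset_const, Int.card_Ico, sub_zero,
      Int.toNat_natCast]
    refine lt_of_le_of_lt hLle ?_
    have h := Nat.lt_succ_sqrt N
    have h' : N < A * A := h
    nlinarith
  obtain ⟨a, ha, b, hb, hab, heq⟩ := Finset.exists_ne_map_eq_of_card_lt_of_maps_to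
    (t := Finset.univ) (by simpa using hA4) (f := fun a => (QuotientAddGroup.mk a : _ ⧸ L))
    fun a _ => Finset.mem_coe.mpr (Finset.mem_univ _)
  have hmem : b - a ∈ L := by
    rw [sub_eq_neg_add]; exact QuotientAddGroup.eq.mp heq
  have hbox : ∀ i, |(b - a) i| ≤ (A : ℤ) := fun i => by
    have h1 := Finset.mem_Ico.mp (Fintype.mem_piFinset.mp ha i)
    have h2 := Finset.mem_Ico.mp (Fintype.mem_piFinset.mp hb i)
    rw [Pi.sub_apply, abs_le]
    constructor <;> omega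
  refine ⟨P.elem (b - a), P.elem_mem _, fun h => hab ?_, fun p hp => ?_, ?_⟩
  · rw [← P.elem_zero] at h
    exact (sub_eq_zero.mp (P.elem_injective h)).symm
  · exact P.inv_mul_mem_of_mem_localLattice (hx p hp) (hc ⟨p, hp⟩) (hw ⟨p, hp⟩)
      (AddSubgroup.mem_iInf.mp hmem ⟨p, hp⟩)
  · rw [nrd_elem_eq, show ∏ p ∈ s, ((p : ℕ) : ℚ) ^ v p = ((N : ℤ) : ℚ) by simp [hN],
      ← Int.cast_mul, Int.cast_le]
    refine (P.nrdZ_le_box hbox).trans ?_
    have hA2 : (A : ℤ) ^ 2 ≤ 4 * N := by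
      have h := Nat.sqrt_le' N
      have h' : Nat.sqrt N ≤ N := Nat.sqrt_le_self N
      have : A ^ 2 ≤ 4 * N := by rw [hA]; nlinarith
      exact_mod_cast this
    have hB : 0 ≤ P.boxConst := by
      have := P.he; have := P.hM
      rw [boxConst]; positivity
    nlinarith

/-! ### Special primes -/

/-- `p` is a special prime: the norm form is anisotropic modulo `p`-adic scaling. -/
def IsSpecial (p : Nat.Primes) : Prop :=
  ((p : ℕ) ≠ 2 ∧ ((p : ℕ) : ℤ) ∣ P.e ∧ ¬ ((p : ℕ) : ℤ) ^ 2 ∣ P.e ∧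
      jacobiSym P.D (p : ℕ) = -1) ∨
    (((p : ℕ) : ℤ) ∣ P.D ∧ ¬ ((p : ℕ) : ℤ) ∣ P.e ∧ ¬ ((p : ℕ) : ℤ) ^ 2 ∣ P.D ∧
      ∀ a b : ℤ, ¬ ((p : ℕ) : ℤ) ∣ P.g a b → ¬ IsSquare ((-(P.e * P.g a b) : ℤ) : ZMod p))

variable {P} {p : Nat.Primes}

attribute [local instance] fact_prime

theorem ne_two_of_dvd_D (h : ((p : ℕ) : ℤ) ∣ P.D) : (p : ℕ) ≠ 2 := by
  intro h2
  rw [h2, P.hc] at h
  omega

theorem prime_int (p : Nat.Primes) : Prime ((p : ℕ) : ℤ) := Nat.prime_iff_prime_int.mp p.2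

theorem not_dvd_two (hp : (p : ℕ) ≠ 2) : ¬ ((p : ℕ) : ℤ) ∣ 2 := by
  intro h
  have h' : (p : ℕ) ∣ 2 := by exact_mod_cast h
  exact hp ((Nat.prime_dvd_prime_iff_eq p.2 Nat.prime_two).mp h')

/-- Anisotropy at a prime inert in `K`. -/
theorem dvd_of_dvd_sq_sub (hD : jacobiSym P.D (p : ℕ) = -1) {x y : ℤ}
    (h : ((p : ℕ) : ℤ) ∣ x ^ 2 - P.D * y ^ 2) : ((p : ℕ) : ℤ) ∣ x ∧ ((p : ℕ) : ℤ) ∣ y := by
  exact jacobiSym.prime_dvd_of_eq_neg_one hD h

/-- Anisotropy: a norm divisible by `p ^ 2` comes from coordinates divisible by `p`. -/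
theorem dvd_coord_of_sq_dvd (hp : P.IsSpecial p) {v : Fin 4 → ℤ}
    (h : ((p : ℕ) : ℤ) ^ 2 ∣ P.nrdZ v) : ∀ i, ((p : ℕ) : ℤ) ∣ v i := by
  have hP := prime_int p
  set q : ℤ := ((p : ℕ) : ℤ) with hq
  suffices q ∣ v 0 ∧ q ∣ v 1 ∧ q ∣ v 2 ∧ q ∣ v 3 by
    intro i; fin_cases i
    exacts [this.1, this.2.1, this.2.2.1, this.2.2.2]
  have h1 : q ∣ P.nrdZ v := (dvd_pow_self _ two_ne_zero).trans h
  rcases hp with ⟨hp2, he, he2, hD⟩ | ⟨hD, he, hD2, hns⟩
  · have hnot2 := not_dvd_two hp2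
    have hg0 : q ∣ P.g₀ (v 0) (v 1) := by
      have := dvd_sub h1 (he.mul_right (P.g (v 2) (v 3)))
      simpa [nrdZ] using this
    obtain ⟨hx, hy⟩ := dvd_of_dvd_sq_sub hD (x := 2 * v 0 + v 1) (y := v 1)
      (by rw [← P.four_mul_g₀]; exact hg0.mul_left 4)
    have hv0 : q ∣ v 0 := (hP.dvd_or_dvd (show q ∣ 2 * v 0 by
      simpa using dvd_sub hx hy)).resolve_left hnot2
    obtain ⟨a, ha⟩ := hv0
    obtain ⟨b, hb⟩ := hy
    obtain ⟨e', he'⟩ := he
    have h2 : q ∣ P.g (v 2) (v 3) := by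
      have hg2 : q ^ 2 ∣ P.g₀ (v 0) (v 1) := ⟨a ^ 2 + a * b - P.c * b ^ 2, by rw [g₀, ha, hb]; ring⟩
      have h3 : q ^ 2 ∣ P.e * P.g (v 2) (v 3) := by
        have := dvd_sub h hg2
        simpa [nrdZ] using this
      rw [he', pow_two, mul_assoc, mul_dvd_mul_iff_left hP.ne_zero] at h3
      exact (hP.dvd_or_dvd h3).resolve_left fun hh => he2 (by
        rw [he', pow_two]; exact mul_dvd_mul_left q hh)
    obtain ⟨hx', hy'⟩ := dvd_of_dvd_sq_sub hD (x := 2 * P.M * v 2 + (1 - 2 * P.s) * v 3) (y := v 3)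
      (by rw [← P.four_M_mul_g]; exact h2.mul_left _)
    refine ⟨⟨a, ha⟩, ⟨b, hb⟩, ?_, hy'⟩
    refine (hP.dvd_or_dvd (show q ∣ 2 * P.M * v 2 by
      simpa using dvd_sub hx' (hy'.mul_left (1 - 2 * P.s)))).resolve_left fun hh => ?_
    have hM : q ∣ P.M := (hP.dvd_or_dvd hh).resolve_left hnot2
    obtain ⟨h4, h5⟩ := dvd_of_dvd_sq_sub hD (x := 1 - 2 * P.s) (y := 1) (by
      rw [one_pow, mul_one]
      exact ⟨4 * P.h * (hM.choose), by
        have := hM.choose_spec; linear_combination P.disc_g + 4 * P.h * this⟩)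
    exact hP.not_dvd_one h5
  · have hnot2 := not_dvd_two (ne_two_of_dvd_D hD)
    have hnot4 : ¬ q ∣ 4 := fun hh => hnot2 ((hP.dvd_or_dvd (show q ∣ 2 * 2 from hh)).elim id id)
    have hgdvd : q ∣ P.g (v 2) (v 3) := by
      by_contra hg
      refine hns _ _ hg ⟨((2 * v 0 + v 1 : ℤ) : ZMod p) / 2, ?_⟩
      have h20 : (2 : ZMod p) ≠ 0 := fun hh => hnot2 (by
        have : ((2 : ℤ) : ZMod p) = 0 := by exact_mod_cast hh
        exact (ZMod.intCast_zmod_eq_zero_iff_dvd 2 p).mp this)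
      have e1 := (ZMod.intCast_zmod_eq_zero_iff_dvd _ p).mpr h1
      have e2 := (ZMod.intCast_zmod_eq_zero_iff_dvd _ p).mpr hD
      have e3 := congrArg (fun z : ℤ => (z : ZMod p)) (P.four_mul_g₀ (v 0) (v 1))
      simp only [nrdZ, Int.cast_add, Int.cast_mul, Int.cast_sub, Int.cast_pow, Int.cast_neg,
        Int.cast_ofNat] at e1 e3 ⊢
      rw [e2] at e3
      field_simp
      linear_combination e3 - 4 * e1
    have hX0 : q ∣ 2 * v 0 + v 1 := hP.dvd_of_dvd_pow (n := 2) (by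
      have h5 : q ∣ P.g₀ (v 0) (v 1) := by simpa [nrdZ] using dvd_sub h1 (hgdvd.mul_left P.e)
      have := dvd_add (h5.mul_left 4) (hD.mul_right (v 1 ^ 2))
      rwa [P.four_mul_g₀, sub_add_cancel] at this)
    -- the binary form in one of its two completed shapes
    have key : ∀ (m c' d' n' : ℤ), ¬ q ∣ m →
        4 * m * P.g (v 2) (v 3) = (2 * m * c' + n' * d') ^ 2 - P.D * d' ^ 2 →
        (∃ a b, P.g a b = m) → q ∣ v 1 ∧ q ∣ c' ∧ q ∣ d' := by
      intro m c' d' n' hm hgm hval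
      have hX : q ∣ 2 * m * c' + n' * d' := hP.dvd_of_dvd_pow (n := 2) (by
        have := dvd_add (hgdvd.mul_left (4 * m)) (hD.mul_right (d' ^ 2))
        rwa [hgm, sub_add_cancel] at this)
      obtain ⟨D', hD'⟩ := hD
      have hD'n : ¬ q ∣ D' := fun hh => hD2 (by rw [hD', pow_two]; exact mul_dvd_mul_left q hh)
      have h3 : q ^ 2 ∣ P.D * (m * v 1 ^ 2 + P.e * d' ^ 2) := by
        have e : P.D * (m * v 1 ^ 2 + P.e * d' ^ 2) = m * (2 * v 0 + v 1) ^ 2 +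
            P.e * (2 * m * c' + n' * d') ^ 2 - 4 * m * P.nrdZ v := by
          rw [nrdZ]; linear_combination m * P.four_mul_g₀ (v 0) (v 1) + P.e * hgm
        rw [e]
        exact dvd_sub (dvd_add ((pow_dvd_pow_of_dvd hX0 2).mul_left _)
          ((pow_dvd_pow_of_dvd hX 2).mul_left _)) (h.mul_left _)
      rw [hD', pow_two, mul_assoc, mul_dvd_mul_iff_left hP.ne_zero] at h3
      have h4 := (hP.dvd_or_dvd h3).resolve_left hD'n
      have hd : q ∣ d' := by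
        by_contra hd
        obtain ⟨a, b, hab⟩ := hval
        refine hns a b (by rw [hab]; exact hm) ⟨(m : ZMod p) * v 1 / d', ?_⟩
        have hd0 : (d' : ZMod p) ≠ 0 := fun hh => hd ((ZMod.intCast_zmod_eq_zero_iff_dvd _ p).mp hh)
        have e1 := (ZMod.intCast_zmod_eq_zero_iff_dvd _ p).mpr h4
        rw [hab]
        simp only [Int.cast_add, Int.cast_mul, Int.cast_pow, Int.cast_neg] at e1 ⊢
        field_simp
        linear_combination -(m : ZMod p) * e1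
      refine ⟨?_, ?_, hd⟩
      · have := (dvd_add_left ((dvd_pow hd two_ne_zero).mul_left P.e)).mp h4
        exact hP.dvd_of_dvd_pow ((hP.dvd_or_dvd this).resolve_left hm)
      · have := (dvd_add_left (hd.mul_left n')).mp hX
        rcases hP.dvd_or_dvd this with hh | hh
        · exact ((hP.dvd_or_dvd hh).elim hnot2 hm).elim
        · exact hh
    have hfin : q ∣ v 1 → q ∣ v 0 := fun hy => (hP.dvd_or_dvd (show q ∣ 2 * v 0 by
      simpa using dvd_sub hX0 hy)).resolve_left hnot2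
    by_cases hM : q ∣ P.M
    · have hh : ¬ q ∣ P.h := fun hh => hD2 (by
        have hs : q ∣ (1 - 2 * P.s) ^ 2 := by
          have := dvd_add hD ((hM.mul_left 4).mul_right P.h)
          rwa [← P.disc_g, sub_add_cancel] at this
        rw [← P.disc_g]
        refine dvd_sub (pow_dvd_pow_of_dvd (hP.dvd_of_dvd_pow hs) 2) ?_
        rw [pow_two, mul_assoc]
        exact (mul_dvd_mul hM hh).mul_left 4)
      obtain ⟨hy, h3, h2⟩ := key P.h (v 3) (v 2) (1 - 2 * P.s) hh (P.four_h_mul_g _ _)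
        ⟨0, 1, by rw [g]; ring⟩
      exact ⟨hfin hy, hy, h2, h3⟩
    · obtain ⟨hy, h2, h3⟩ := key P.M (v 2) (v 3) (1 - 2 * P.s) hM (P.four_M_mul_g _ _)
        ⟨1, 0, by rw [g]; ring⟩
      exact ⟨hfin hy, hy, h2, h3⟩

/-- Coordinates of a norm divisible by `p ^ (2 k)` are divisible by `p ^ k`. -/
theorem exists_eq_pow_smul (hp : P.IsSpecial p) :
    ∀ (k : ℕ) {v : Fin 4 → ℤ}, (((p : ℕ) : ℤ) ^ 2) ^ k ∣ P.nrdZ v →
      ∃ u : Fin 4 → ℤ, v = ((p : ℕ) : ℤ) ^ k • u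
  | 0, v, _ => ⟨v, by rw [pow_zero, one_smul]⟩
  | k + 1, v, h => by
    have h1 := dvd_coord_of_sq_dvd hp ((dvd_pow_self _ (Nat.succ_ne_zero k)).trans h)
    choose u hu using h1
    have e : v = ((p : ℕ) : ℤ) • u := funext hu
    have e2 : P.nrdZ v = ((p : ℕ) : ℤ) ^ 2 * P.nrdZ u := by
      rw [e]; simp only [nrdZ, g₀, g, Pi.smul_apply, smul_eq_mul]; ring
    rw [e2, pow_succ', mul_dvd_mul_iff_left (pow_ne_zero _ (prime_int p).ne_zero)] at h
    obtain ⟨u', hu'⟩ := exists_eq_pow_smul hp k h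
    exact ⟨u', by rw [e, hu', smul_smul, pow_succ']⟩

/-- At a special prime the local order consists of the elements of nonnegative valuation. -/
theorem mem_localOrder_iff (hp : P.IsSpecial p) {z : P.B} :
    z ∈ P.localOrder p ↔ 0 ≤ P.vp p z := by
  refine ⟨P.vp_nonneg p, fun h => ?_⟩
  rcases eq_or_ne z 0 with rfl | hz
  · exact zero_mem _
  obtain ⟨c, hc0, ⟨w, hw⟩⟩ := P.exists_natCast_smul_mem z
  obtain ⟨k, c', hc', rfl⟩ := Nat.exists_eq_pow_mul_and_not_dvd hc0 (p : ℕ) p.2.ne_one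
  have hp0 : ((p : ℕ) : ℚ) ≠ 0 := Nat.cast_ne_zero.mpr p.2.ne_zero
  have hc'0 : (c' : ℚ) ≠ 0 := Nat.cast_ne_zero.mpr fun e => hc' (e ▸ dvd_zero _)
  have e : (P.nrdZ w : ℚ) = (((p : ℕ) : ℚ) ^ k * c') ^ 2 * P.nrd z := by
    rw [← nrd_elem_eq, hw, ← Nat.cast_smul_eq_nsmul ℚ, nrd_smul, Nat.cast_mul, Nat.cast_pow]
  have h1 := congrArg (padicValRat (p : ℕ)) e
  rw [padicValRat.of_int, padicValRat.mul (pow_ne_zero 2 (mul_ne_zero (pow_ne_zero _ hp0) hc'0))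
    (P.nrd_pos hz).ne', padicValRat.pow,
    padicValRat.mul (pow_ne_zero _ hp0) hc'0, padicValRat.pow, padicValRat.self p.2.one_lt,
    padicValRat.of_nat, padicValNat.eq_zero_of_not_dvd hc'] at h1
  have hv : (2 * k : ℕ) ≤ padicValInt (p : ℕ) (P.nrdZ w) := by
    rw [vp] at h
    push_cast at h1
    omega
  have hdvd : (((p : ℕ) : ℤ) ^ 2) ^ k ∣ P.nrdZ w := by
    rw [← pow_mul]
    exact (padicValInt_dvd_iff _ _).mpr (Or.inr hv)
  obtain ⟨u, hu⟩ := exists_eq_pow_smul hp k hdvd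
  refine ⟨c', hc', u, ?_⟩
  have e' : (p : ℕ) ^ k • P.elem u = (p : ℕ) ^ k • c' • z := by
    rw [← mul_smul, ← hw, hu, elem_smul, ← natCast_zsmul]
    push_cast
    rfl
  rw [← Nat.cast_smul_eq_nsmul ℚ ((p : ℕ) ^ k) (P.elem u),
    ← Nat.cast_smul_eq_nsmul ℚ ((p : ℕ) ^ k) (c' • z)] at e'
  exact smul_right_injective P.B (Nat.cast_ne_zero.mpr (pow_ne_zero k p.2.ne_zero)) e'

theorem exists_nrd_val_one (hp : P.IsSpecial p) :
    ∃ v : Fin 4 → ℤ, P.nrdZ v ≠ 0 ∧ padicValInt (p : ℕ) (P.nrdZ v) = 1 := by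
  have key : ∀ n : ℤ, ((p : ℕ) : ℤ) ∣ n → ¬ ((p : ℕ) : ℤ) ^ 2 ∣ n →
      n ≠ 0 ∧ padicValInt (p : ℕ) n = 1 := by
    intro n h1 h2
    have hn : n ≠ 0 := fun e => h2 (e ▸ dvd_zero _)
    refine ⟨hn, le_antisymm ?_ ?_⟩
    · by_contra hlt
      exact h2 ((padicValInt_dvd_iff _ _).mpr (Or.inr (by omega)))
    · have := (padicValInt_dvd_iff 1 n).mp (by rwa [pow_one])
      exact this.resolve_left hn
  have hP := prime_int p
  rcases hp with ⟨hp2, he, he2, hD⟩ | ⟨hD, he, hD2, -⟩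
  · refine ⟨![0, 0, 1, 0], key _ ?_ ?_⟩ <;>
      rw [show P.nrdZ ![0, 0, 1, 0] = P.e * P.M by simp [nrdZ, g₀, g]]
    · exact he.mul_right _
    · intro h
      refine he2 (IsCoprime.dvd_of_dvd_mul_right (IsCoprime.pow_left ?_) h)
      refine hP.coprime_iff_not_dvd.mpr fun hM => ?_
      obtain ⟨m, hm⟩ := hM
      exact hP.not_dvd_one (dvd_of_dvd_sq_sub hD (x := 1 - 2 * P.s) (y := 1)
        ⟨4 * P.h * m, by linear_combination P.disc_g + 4 * P.h * hm⟩).2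
  · refine ⟨![-1, 2, 0, 0], key _ ?_ ?_⟩ <;>
      rw [show P.nrdZ ![-1, 2, 0, 0] = -P.D by simp [nrdZ, g₀, g, P.hc]; ring]
    · exact hD.neg_right
    · exact fun h => hD2 (dvd_neg.mp h)

/-- A uniformiser at a special prime. -/
theorem exists_uniformizer (hp : P.IsSpecial p) :
    ∃ π : P.Bˣ, π ∈ P.cell p 1 ∧ (∀ (v : ℕ) (z : P.Bˣ), z ∈ P.cell p (v + 1) →
      π⁻¹ * z ∈ P.cell p v) ∧
      (∀ z ∈ P.localOrder p, (π : P.B) * z * ((π⁻¹ : P.Bˣ) : P.B) ∈ P.localOrder p ∧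
        ((π⁻¹ : P.Bˣ) : P.B) * z * (π : P.B) ∈ P.localOrder p) ∧
      ∃ u ∈ P.localUnits p, (π : P.B) * π = (p : ℕ) • (u : P.B) := by
  obtain ⟨w, hw0, hw⟩ := exists_nrd_val_one hp
  have hne : P.elem w ≠ 0 := fun h => hw0 (by
    have := P.nrd_elem_eq w
    rw [h, map_zero] at this
    exact_mod_cast this.symm)
  set π : P.Bˣ := P.unitOf _ hne with hπ
  have hv : P.vp p π = 1 := by
    show padicValRat (p : ℕ) (P.nrd (P.elem w)) = 1
    rw [nrd_elem_eq, padicValRat.of_int, hw]; rfl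
  have hinv : P.vp p ((π⁻¹ : P.Bˣ) : P.B) = -1 := by rw [vp_inv, hv]
  refine ⟨π, ⟨P.order_le_localOrder p (P.elem_mem w), hv⟩, fun v z hz => ?_, fun z hz => ?_, ?_⟩
  · have e : P.vp p ((π⁻¹ * z : P.Bˣ) : P.B) = v := by
      rw [vp_coe_mul, hinv, hz.2]; push_cast; ring
    exact ⟨(mem_localOrder_iff hp).mpr (by rw [e]; positivity), e⟩
  · rcases eq_or_ne z 0 with rfl | hz0
    · constructor <;> simp [zero_mem]
    have h0 := P.vp_nonneg p hz
    constructor <;> refine (mem_localOrder_iff hp).mpr ?_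
    · rw [P.vp_mul p ((Units.mul_right_eq_zero π).not.mpr hz0) π⁻¹.ne_zero, P.vp_mul p π.ne_zero hz0, hv, hinv]
      omega
    · rw [P.vp_mul p ((Units.mul_right_eq_zero π⁻¹).not.mpr hz0) π.ne_zero, P.vp_mul p π⁻¹.ne_zero hz0, hv, hinv]
      omega
  · have hp0 : ((p : ℕ) : ℚ) ≠ 0 := Nat.cast_ne_zero.mpr p.2.ne_zero
    set y : P.B := ((p : ℕ) : ℚ)⁻¹ • ((π : P.B) * π) with hy
    have hy0 : y ≠ 0 := smul_ne_zero (inv_ne_zero hp0) (π * π).ne_zero
    have e : P.vp p y = 0 := by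
      rw [vp, hy, nrd_smul, map_mul, padicValRat.mul (pow_ne_zero 2 (inv_ne_zero hp0))
        (mul_ne_zero (P.nrd_unit_pos π).ne' (P.nrd_unit_pos π).ne'),
        padicValRat.mul (P.nrd_unit_pos π).ne' (P.nrd_unit_pos π).ne', padicValRat.pow,
        padicValRat.inv, padicValRat.self p.2.one_lt]
      rw [vp] at hv
      rw [hv]
      norm_num
    refine ⟨P.unitOf y hy0, ⟨(mem_localOrder_iff hp).mpr e.ge, e⟩, ?_⟩
    show (π : P.B) * π = (p : ℕ) • y
    rw [hy, ← Nat.cast_smul_eq_nsmul ℚ, smul_smul, mul_inv_cancel₀ hp0, one_smul]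

end Fermat.Agent.Two.Brandt.Param

end
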