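import Fermat.Agent.Two.Brandt.Lattice
import Fermat.Agent.Two.Brandt.Short

/-!
# Finiteness of the classes

Every class has a point whose components have integral inverses of bounded total norm.
-/

set_option autoImplicit false

noncomputable section

namespace Fermat.Agent.Two.Brandt.Param.Sub

variable {P : Param} {Λ : P.Sub}

theorem mk_smul_rep (γ : P.Bˣ) (x : Pt Λ.level) (p : Nat.Primes) :
    (QuotientGroup.mk (γ * Λ.rep x p) : P.Bˣ ⧸ Λ.level.U p) = (γ • x).val p :=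
  congrArg (γ • ·) (mk_rep x p)

theorem valAt_smul (γ : P.Bˣ) (x : Pt Λ.level) (p : Nat.Primes) :
    valAt (γ • x) p = P.vp p γ + valAt x p := by
  rw [valAt_eq (mk_smul_rep γ x p), vp_coe_mul, valAt]

/-- The norm is equivariant. -/
theorem norm_smul (γ : P.Bˣ) (x : Pt Λ.level) : norm (γ • x) = P.nrd γ * norm x :=
  eq_of_padicValRat_eq (norm_pos _) (mul_pos (P.nrd_unit_pos γ) (norm_pos x)) fun p => by
    have : Fact (p : ℕ).Prime := ⟨p.2⟩
    rw [padicValRat.mul (P.nrd_unit_pos γ).ne' (norm_pos x).ne', padicValRat_norm,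
      padicValRat_norm, valAt_smul]
    rfl

/-- A point is reduced if its components have integral inverses. -/
def IsReduced (z : Pt Λ.level) : Prop :=
  ∀ p, (((Λ.rep z p)⁻¹ : P.Bˣ) : P.B) ∈ P.localOrder p

theorem valAt_nonpos {z : Pt Λ.level} (hz : IsReduced z) (p : Nat.Primes) : valAt z p ≤ 0 := by
  have h := P.vp_nonneg p (hz p)
  rw [vp_inv] at h
  rw [valAt]
  omega

variable (Λ) in
/-- Every class contains a reduced point of bounded norm. -/
theorem exists_reduced : ∃ C : ℚ, ∀ x : Pt Λ.level,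
    ∃ γ : P.Bˣ, IsReduced (γ • x) ∧ (norm (γ • x))⁻¹ ≤ C := by
  classical
  obtain ⟨C, hC⟩ := P.exists_short
  refine ⟨C, fun x => ?_⟩
  let S := (finite_rep_notMem x).toFinset
  obtain ⟨c, hc, hmem⟩ := exists_smul_mem_prod (P := P) (S.toList.map (Λ.rep x))
  let cu := P.unitOf ((c : ℚ) • (1 : P.B)) (smul_ne_zero (Nat.cast_ne_zero.mpr hc) one_ne_zero)
  let y := cu • x
  have hin : ∀ p, ((cu * Λ.rep x p : P.Bˣ) : P.B) ∈ P.localOrder p := fun p => by
    rw [Units.val_mul, coe_unitOf, smul_mul_assoc, one_mul, Nat.cast_smul_eq_nsmul]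
    by_cases hp : p ∈ S
    · exact P.order_le_localOrder p
        (hmem _ (List.mem_map.mpr ⟨p, Finset.mem_toList.mpr hp, rfl⟩))
    · rw [Set.Finite.mem_toFinset, Set.mem_ofPred_eq, not_not] at hp
      exact nsmul_mem hp.1 c
  have hfin : {p | cu * Λ.rep x p ∉ P.localUnits p}.Finite := by
    refine (S.finite_toSet.union (P.finite_notMem_localUnits cu)).subset fun p hp => ?_
    by_cases hS : p ∈ S
    · exact Or.inl hS
    · rw [Set.Finite.mem_toFinset, Set.mem_ofPred_eq, not_not] at hS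
      exact Or.inr fun h => hp (mul_mem h hS)
  let v : Nat.Primes → ℕ := fun p => (P.vp p ((cu * Λ.rep x p : P.Bˣ) : P.B)).toNat
  have hcell : ∀ p, cu * Λ.rep x p ∈ P.cell p (v p) := fun p =>
    ⟨hin p, (Int.toNat_of_nonneg (P.vp_nonneg p (hin p))).symm⟩
  obtain ⟨γ, hγO, hγ0, hγ, hle⟩ := hC hfin.toFinset _ v fun p _ => hcell p
  let γu := P.unitOf γ hγ0
  have hall : ∀ p, (((cu * Λ.rep x p)⁻¹ : P.Bˣ) : P.B) * γ ∈ P.localOrder p := fun p => by
    by_cases hp : p ∈ hfin.toFinset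
    · exact hγ p hp
    · rw [Set.Finite.mem_toFinset, Set.mem_ofPred_eq, not_not] at hp
      exact mul_mem (inv_mem hp).1 (P.order_le_localOrder p hγO)
  refine ⟨γu⁻¹ * cu, fun p => ?_, ?_⟩
  · have e := (mk_smul_rep (γu⁻¹ * cu) x p).trans (mk_rep _ p).symm
    have hu := Λ.le p (QuotientGroup.eq.mp e)
    have e2 : (((Λ.rep ((γu⁻¹ * cu) • x) p)⁻¹ : P.Bˣ) : P.B) =
        (((γu⁻¹ * cu * Λ.rep x p)⁻¹ * Λ.rep ((γu⁻¹ * cu) • x) p)⁻¹ : P.Bˣ) *
          ((((cu * Λ.rep x p)⁻¹ : P.Bˣ) : P.B) * γ) := by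
      rw [show (γ : P.B) = (γu : P.B) from rfl, ← Units.val_mul, ← Units.val_mul]
      congr 1
      group
    rw [e2]
    exact mul_mem (inv_mem hu).1 (hall p)
  · rw [norm_smul, Units.val_mul, map_mul, nrd_inv, mul_inv, mul_inv, inv_inv, mul_assoc,
      ← mul_inv, ← norm_smul cu x]
    have hny : norm (cu • x) = ∏ p ∈ hfin.toFinset, ((p : ℕ) : ℚ) ^ v p := by
      have hval : ∀ p, valAt (cu • x) p = v p := fun p => by
        rw [valAt_eq (mk_smul_rep cu x p)]
        exact (hcell p).2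
      rw [norm, finprod_eq_prod_of_mulSupport_subset _ (s := hfin.toFinset)]
      · simp only [hval, zpow_natCast]
      · intro p hp
        rw [Set.Finite.coe_toFinset]
        intro h
        refine hp ?_
        show ((p : ℕ) : ℚ) ^ valAt (cu • x) p = 1
        rw [valAt_eq (mk_smul_rep cu x p), h.2, zpow_zero]
    rw [← div_eq_mul_inv, hny, div_le_iff₀ (Finset.prod_pos fun p _ =>
      pow_pos (Nat.cast_pos.mpr p.2.pos) _)]
    exact hle

theorem exists_natCast_eq_inv_norm {z : Pt Λ.level} (hz : IsReduced z) :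
    ∃ n : ℕ, (norm z)⁻¹ = n := by
  obtain ⟨m, hm⟩ := exists_intCast_eq (r := (norm z)⁻¹) fun q => by
    have : Fact (q : ℕ).Prime := ⟨q.2⟩
    rw [padicValRat.inv, padicValRat_norm]
    linarith [valAt_nonpos hz q]
  have h0 : (0 : ℚ) ≤ m := hm ▸ (inv_pos.mpr (norm_pos z)).le
  obtain ⟨n, rfl⟩ := Int.eq_ofNat_of_zero_le (by exact_mod_cast h0 : (0 : ℤ) ≤ m)
  exact ⟨n, by exact_mod_cast hm⟩

/-- Cosets of integral inverse with bounded valuation are finite in number. -/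
theorem finite_inv_mem_cell (p : Nat.Primes) (w : ℕ) :
    ((fun g => (QuotientGroup.mk g : P.Bˣ ⧸ Λ.level.U p)) '' {g | g⁻¹ ∈ P.cell p w}).Finite := by
  obtain ⟨N, hN⟩ := Λ.exists_congr p
  let pu := P.unitOf ((((p : ℕ) ^ w : ℕ) : ℚ) • (1 : P.B))
    (smul_ne_zero (Nat.cast_ne_zero.mpr (pow_ne_zero _ p.2.ne_zero)) one_ne_zero)
  refine ((P.finite_cell_image p w N (Λ.W p) hN).image (pu⁻¹ • ·)).subset ?_
  rintro _ ⟨g, hg, rfl⟩
  refine ⟨QuotientGroup.mk (pu * g), ⟨pu * g, ?_, rfl⟩, ?_⟩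
  · have : Fact (p : ℕ).Prime := ⟨p.2⟩
    have hp0 : (((p : ℕ) ^ w : ℕ) : ℚ) ≠ 0 := Nat.cast_ne_zero.mpr (pow_ne_zero _ p.2.ne_zero)
    have hv := hg.2
    refine ⟨?_, ?_⟩
    · rw [Units.val_mul, coe_unitOf, smul_mul_assoc, one_mul, show (g : P.B) = ((g⁻¹⁻¹ : P.Bˣ) : P.B)
        by rw [inv_inv], coe_inv, smul_smul]
      refine P.smul_mem_localOrder_of_not_dvd_den p (not_dvd_den_of_nonneg p ?_)
        (P.star_mem_localOrder p hg.1)
      rw [padicValRat.mul hp0 (inv_ne_zero (P.nrd_unit_pos _).ne'), padicValRat.inv,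
        padicValRat.of_nat, padicValNat.prime_pow]
      rw [vp] at hv
      omega
    · rw [vp_coe_mul, vp, coe_unitOf, nrd_smul, map_one, mul_one, padicValRat.pow,
        padicValRat.of_nat, padicValNat.prime_pow]
      rw [vp_inv] at hv
      omega
  · show pu⁻¹ • (QuotientGroup.mk (pu * g) : P.Bˣ ⧸ Λ.W p) = QuotientGroup.mk g
    exact congrArg QuotientGroup.mk (inv_mul_cancel_left pu g)

variable (Λ) in
/-- **The classes are finite in number**. -/
theorem finite_cls : Finite (Cls Λ.level) := by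
  classical
  obtain ⟨C, hC⟩ := exists_reduced Λ
  let K := ⌈C⌉₊
  let Ps : Set Nat.Primes := {p | (p : ℕ) ≤ K} ∪ ↑Λ.bad
  have hPs : Ps.Finite := by
    refine Set.Finite.union ?_ Λ.bad.finite_toSet
    exact ((Set.finite_Iic K).preimage (f := fun p : Nat.Primes => (p : ℕ))
      Nat.Primes.coe_nat_injective.injOn)
  let T : Set (Pt Λ.level) := {z | IsReduced z ∧ (norm z)⁻¹ ≤ C}
  suffices hT : T.Finite by
    have : Finite T := hT.to_subtype
    refine Finite.of_surjective (fun z : T => cls z.1) fun c => ?_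
    induction c using Quotient.inductionOn' with
    | h x =>
      obtain ⟨γ, hγ⟩ := hC x
      exact ⟨⟨γ • x, hγ⟩, cls_smul γ x⟩
  have hbound : ∀ z ∈ T, ∀ p, ∃ w ≤ K, valAt z p = -(w : ℤ) ∧ (w = 0 ∨ (p : ℕ) ≤ K) := by
    intro z hz p
    have : Fact (p : ℕ).Prime := ⟨p.2⟩
    obtain ⟨n, hn⟩ := exists_natCast_eq_inv_norm hz.1
    have hn0 : n ≠ 0 := fun e => (inv_pos.mpr (norm_pos z)).ne' (by rw [hn, e, Nat.cast_zero])
    have hnK : n ≤ K := by
      have : (n : ℚ) ≤ C := hn ▸ hz.2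
      exact_mod_cast this.trans (Nat.le_ceil C)
    have hv : valAt z p = -(padicValNat p n : ℤ) := by
      rw [← padicValRat.of_nat, ← hn, padicValRat.inv, padicValRat_norm, neg_neg]
    have hpow := Nat.le_of_dvd (Nat.pos_of_ne_zero hn0) (pow_padicValNat_dvd (p := (p : ℕ)) (n := n))
    refine ⟨_, ((Nat.lt_pow_self p.2.one_lt).le.trans hpow).trans hnK, hv, ?_⟩
    rcases eq_or_ne (padicValNat p n) 0 with h | h
    · exact Or.inl h
    · exact Or.inr ((Nat.le_self_pow h _).trans (hpow.trans hnK))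
  let F : ∀ p : Ps, Set (P.Bˣ ⧸ Λ.level.U p.1) := fun p =>
    ⋃ w ∈ Set.Iic K, (fun g => QuotientGroup.mk g) '' {g | g⁻¹ ∈ P.cell p.1 w}
  have hF : ∀ p : Ps, (F p).Finite := fun p =>
    (Set.finite_Iic K).biUnion fun w _ => finite_inv_mem_cell p.1 w
  have : Finite Ps := hPs.to_subtype
  have hcell : ∀ z ∈ T, ∀ p, ∀ w : ℕ, valAt z p = -(w : ℤ) → (Λ.rep z p)⁻¹ ∈ P.cell p w :=
    fun z hz p w hw => ⟨hz.1 p, by rw [vp_inv]; rw [valAt] at hw; omega⟩
  refine Set.Finite.of_finite_image (f := fun z => fun p : Ps => z.val p.1) ?_ ?_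
  · refine (Set.Finite.pi hF).subset ?_
    rintro _ ⟨z, hz, rfl⟩ p -
    obtain ⟨w, hw, hv, -⟩ := hbound z hz p.1
    exact Set.mem_biUnion hw ⟨Λ.rep z p.1, hcell z hz p.1 w hv, mk_rep z p.1⟩
  · intro z hz z' hz' e
    refine Pt.ext fun p => ?_
    by_cases hp : p ∈ Ps
    · exact congrFun e ⟨p, hp⟩
    · have hb : p ∉ Λ.bad := fun h => hp (Or.inr h)
      have h1 : ∀ t ∈ T, Λ.rep t p ∈ Λ.W p := fun t ht => by
        obtain ⟨w, -, hv, h0⟩ := hbound t ht p
        rcases h0 with rfl | h0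
        · have := hcell t ht p 0 hv
          rw [cell_zero] at this
          rw [Λ.eq p hb]
          simpa using inv_mem (show (Λ.rep t p)⁻¹ ∈ P.localUnits p from this)
        · exact absurd (Or.inl h0) hp
      rw [← mk_rep z p, ← mk_rep z' p]
      exact QuotientGroup.eq.mpr (mul_mem (inv_mem (h1 z hz)) (h1 z' hz'))

instance instFiniteCls : Finite (Cls Λ.level) := Λ.finite_cls

end Fermat.Agent.Two.Brandt.Param.Sub

end
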