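import Mathlib.Algebra.BigOperators.Finsupp.Basic
import Mathlib.Algebra.Group.Action.Pointwise.Set.Basic
import Mathlib.Data.Multiset.Bind
import Mathlib.GroupTheory.GroupAction.Quotient
import Mathlib.GroupTheory.Index
import Mathlib.Algebra.Module.LinearMap.End
import Mathlib.Algebra.BigOperators.Pi
import Mathlib.Algebra.Module.Pi
import Mathlib.Algebra.Group.Commute.Basic
import Mathlib.Data.Finset.NoncommProd
import Mathlib.Tactic.Group
import Mathlib.Data.Nat.Cast.Basic

/-!
# Correspondences on a finite adelic quotient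

`G` is a group with a family of subgroups `U p` such that each element lies in almost all of them.
Points are almost everywhere trivial families of cosets, classes are their `G`-orbits, and
operators come from equivariant correspondences on points.
-/

set_option autoImplicit false

noncomputable section

namespace Fermat.Agent.Two.Brandt

universe u v

/-- A family of subgroups, each element being in almost all of them. -/
structure Level (G : Type u) [Group G] (ι : Type v) where
  U : ι → Subgroup G
  finite_notMem : ∀ g : G, {p | g ∉ U p}.Finite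

variable {G : Type u} [Group G] {ι : Type v} (Λ : Level G ι)

/-- Almost everywhere trivial families of cosets. -/
structure Pt where
  val : ∀ p, G ⧸ Λ.U p
  finite : {p | val p ≠ QuotientGroup.mk (1 : G)}.Finite

variable {Λ}

namespace Pt

@[ext]
theorem ext {x y : Pt Λ} (h : ∀ p, x.val p = y.val p) : x = y := by
  cases x; cases y; congr 1; exact funext h

instance : SMul G (Pt Λ) where
  smul g x := ⟨fun p => g • x.val p, by
    refine (x.finite.union (Λ.finite_notMem g)).subset fun p hp => ?_
    by_contra h
    simp only [Set.mem_union, Set.mem_ofPred_eq, not_or, not_not] at h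
    exact hp (by
      rw [h.1]
      exact QuotientGroup.eq.mpr (by simpa using h.2))⟩

@[simp]
theorem smul_val (g : G) (x : Pt Λ) (p : ι) : (g • x).val p = g • x.val p := rfl

instance : MulAction G (Pt Λ) where
  one_smul x := ext fun p => one_smul G (x.val p)
  mul_smul g h x := ext fun p => mul_smul g h (x.val p)

variable (Λ) in
/-- The trivial family. -/
def one : Pt Λ := ⟨fun _ => QuotientGroup.mk 1, by simp⟩

/-- Replacing one component. -/
def update [DecidableEq ι] (x : Pt Λ) (p : ι) (c : G ⧸ Λ.U p) : Pt Λ :=
  ⟨Function.update x.val p c, by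
    refine (x.finite.union (Set.finite_singleton p)).subset fun q hq => ?_
    by_cases h : q = p
    · exact Or.inr h
    · refine Or.inl ?_
      simpa [Function.update_of_ne h] using hq⟩

theorem update_val_self [DecidableEq ι] (x : Pt Λ) (p : ι) (c : G ⧸ Λ.U p) :
    (x.update p c).val p = c := Function.update_self _ _ _

theorem update_val_of_ne [DecidableEq ι] (x : Pt Λ) {p q : ι} (h : q ≠ p) (c : G ⧸ Λ.U p) :
    (x.update p c).val q = x.val q := Function.update_of_ne h _ _

theorem update_update [DecidableEq ι] (x : Pt Λ) (p : ι) (c c' : G ⧸ Λ.U p) :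
    (x.update p c).update p c' = x.update p c' :=
  ext fun q => by simp [update]

theorem update_comm [DecidableEq ι] (x : Pt Λ) {p q : ι} (h : p ≠ q) (c : G ⧸ Λ.U p)
    (c' : G ⧸ Λ.U q) : (x.update p c).update q c' = (x.update q c').update p c := by
  refine ext fun r => ?_
  show Function.update (Function.update x.val p c) q c' r =
    Function.update (Function.update x.val q c') p c r
  rw [Function.update_comm h]

theorem update_eq_self [DecidableEq ι] (x : Pt Λ) (p : ι) : x.update p (x.val p) = x :=
  ext fun q => by simp [update]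

theorem smul_update [DecidableEq ι] (g : G) (x : Pt Λ) (p : ι) (c : G ⧸ Λ.U p) :
    g • x.update p c = (g • x).update p (g • c) := by
  refine ext fun q => ?_
  by_cases h : q = p
  · subst h; simp [update_val_self]
  · simp [update_val_of_ne _ h]

end Pt

variable (Λ) in
/-- The classes. -/
abbrev Cls : Type (max u v) := MulAction.orbitRel.Quotient G (Pt Λ)

/-- The class of a point. -/
abbrev cls (x : Pt Λ) : Cls Λ := Quotient.mk'' x

theorem cls_smul (g : G) (x : Pt Λ) : cls (g • x) = cls x :=
  Quotient.sound' ⟨g, rfl⟩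

theorem cls_eq_iff {x y : Pt Λ} : cls x = cls y ↔ ∃ g : G, g • y = x :=
  Quotient.eq''.trans Iff.rfl

variable (Λ) in
/-- Correspondences on points commuting with `G`. -/
structure Corr where
  nbr : Pt Λ → Multiset (Pt Λ)
  nbr_smul : ∀ (g : G) (x : Pt Λ), nbr (g • x) = (nbr x).map (g • ·)

namespace Corr

@[ext]
theorem ext {K K' : Corr Λ} (h : ∀ x, K.nbr x = K'.nbr x) : K = K' := by
  cases K; cases K'; congr 1; exact funext h

instance : Zero (Corr Λ) := ⟨⟨fun _ => 0, fun _ _ => rfl⟩⟩
instance : One (Corr Λ) := ⟨⟨fun x => {x}, fun _ _ => rfl⟩⟩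
instance : Add (Corr Λ) :=
  ⟨fun K K' => ⟨fun x => K.nbr x + K'.nbr x, fun g x => by
    rw [K.nbr_smul, K'.nbr_smul, Multiset.map_add]⟩⟩
instance : Mul (Corr Λ) :=
  ⟨fun K K' => ⟨fun x => (K.nbr x).bind K'.nbr, fun g x => by
    rw [K.nbr_smul, Multiset.bind_map, Multiset.map_bind]
    exact congrArg _ (funext fun y => K'.nbr_smul g y)⟩⟩

theorem one_nbr (x : Pt Λ) : (1 : Corr Λ).nbr x = {x} := rfl
theorem add_nbr (K K' : Corr Λ) (x : Pt Λ) : (K + K').nbr x = K.nbr x + K'.nbr x := rfl
theorem mul_nbr (K K' : Corr Λ) (x : Pt Λ) : (K * K').nbr x = (K.nbr x).bind K'.nbr := rfl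

instance : Semiring (Corr Λ) where
  add_assoc a b c := ext fun x => add_assoc _ _ _
  zero_add a := ext fun x => zero_add _
  add_zero a := ext fun x => add_zero _
  add_comm a b := ext fun x => add_comm _ _
  nsmul := nsmulRec
  zero_mul a := ext fun x => (Multiset.zero_bind a.nbr : _)
  mul_zero a := ext fun x => Multiset.bind_zero _
  one_mul a := ext fun x => Multiset.singleton_bind _ _
  mul_one a := ext fun x => Multiset.bind_singleton (a.nbr x) id |>.trans (Multiset.map_id _)
  mul_assoc a b c := ext fun x => Multiset.bind_assoc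
  left_distrib a b c := ext fun x => Multiset.bind_add _ _ _
  right_distrib a b c := ext fun x => Multiset.add_bind _ _ _

variable (R : Type*) [CommSemiring R]

/-- The operator of a correspondence on functions of classes. -/
def toEnd (K : Corr Λ) : Module.End R (Cls Λ → R) where
  toFun f := Quotient.lift (fun x => ((K.nbr x).map fun y => f (cls y)).sum) (by
    rintro x y ⟨g, rfl⟩
    simp only [K.nbr_smul, Multiset.map_map, Function.comp_def, cls_smul])
  map_add' f f' := funext fun c => c.inductionOn' fun x => Multiset.sum_map_add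
  map_smul' r f := funext fun c => c.inductionOn' fun x => Multiset.sum_map_mul_left

/-- Correspondences act on functions of classes. -/
def op : Corr Λ →+* Module.End R (Cls Λ → R) where
  toFun := toEnd R
  map_one' := LinearMap.ext fun f => funext fun c => c.inductionOn' fun x => by
    show ((Multiset.map (fun y => f (cls y)) ({x} : Multiset (Pt Λ)))).sum = f (cls x)
    rw [Multiset.map_singleton, Multiset.sum_singleton]
  map_zero' := LinearMap.ext fun f => funext fun c => c.inductionOn' fun x => rfl
  map_add' K K' := LinearMap.ext fun f => funext fun c => c.inductionOn' fun x => by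
    show (Multiset.map _ (K.nbr x + K'.nbr x)).sum = _
    rw [Multiset.map_add, Multiset.sum_add]
    rfl
  map_mul' K K' := LinearMap.ext fun f => funext fun c => c.inductionOn' fun x => by
    show (Multiset.map _ ((K.nbr x).bind K'.nbr)).sum = _
    rw [Multiset.map_bind, Multiset.sum_bind]
    rfl

theorem op_apply (K : Corr Λ) (f : Cls Λ → R) (x : Pt Λ) :
    op R K f (cls x) = ((K.nbr x).map fun y => f (cls y)).sum := rfl

end Corr

variable (Λ) in
/-- A multiset of cosets stable under the subgroup. -/
structure LocOp (p : ι) where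
  cosets : Multiset (G ⧸ Λ.U p)
  stable : ∀ u ∈ Λ.U p, cosets.map (u • ·) = cosets

namespace LocOp

variable {p q : ι}

@[ext]
theorem ext {S S' : LocOp Λ p} (h : S.cosets = S'.cosets) : S = S' := by
  cases S; cases S'; congr

theorem map_eq_of_mk_eq (S : LocOp Λ p) {g g' : G}
    (h : (QuotientGroup.mk g : G ⧸ Λ.U p) = QuotientGroup.mk g') :
    S.cosets.map (g • ·) = S.cosets.map (g' • ·) := by
  have e := congrArg (Multiset.map (g • ·)) (S.stable _ (QuotientGroup.eq.mp h))
  rw [Multiset.map_map] at e
  rw [← e]
  refine Multiset.map_congr rfl fun c _ => ?_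
  rw [Function.comp_apply, ← mul_smul, mul_inv_cancel_left]

/-- The cosets translated by a coset. -/
def translate (S : LocOp Λ p) (c : G ⧸ Λ.U p) : Multiset (G ⧸ Λ.U p) :=
  S.cosets.map (c.out • ·)

theorem translate_mk (S : LocOp Λ p) (g : G) :
    S.translate (QuotientGroup.mk g) = S.cosets.map (g • ·) :=
  S.map_eq_of_mk_eq (QuotientGroup.out_eq' _)

theorem translate_smul (S : LocOp Λ p) (g : G) (c : G ⧸ Λ.U p) :
    S.translate (g • c) = (S.translate c).map (g • ·) := by
  obtain ⟨h, rfl⟩ := QuotientGroup.mk_surjective c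
  rw [show g • (QuotientGroup.mk h : G ⧸ Λ.U p) = QuotientGroup.mk (g * h) from rfl, translate_mk,
    translate_mk, Multiset.map_map]
  simp only [Function.comp_def, mul_smul]

instance : Zero (LocOp Λ p) := ⟨⟨0, fun _ _ => rfl⟩⟩
instance : One (LocOp Λ p) :=
  ⟨⟨{QuotientGroup.mk 1}, fun u hu => by
    rw [Multiset.map_singleton]
    exact congrArg _ (QuotientGroup.eq.mpr (by simpa using hu))⟩⟩
instance : Add (LocOp Λ p) :=
  ⟨fun S S' => ⟨S.cosets + S'.cosets, fun u hu => by
    rw [Multiset.map_add, S.stable u hu, S'.stable u hu]⟩⟩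
instance : Mul (LocOp Λ p) :=
  ⟨fun S S' => ⟨S.cosets.bind S'.translate, fun u hu => by
    conv_rhs => rw [← S.stable u hu, Multiset.bind_map]
    rw [Multiset.map_bind]
    exact congrArg _ (funext fun c => (S'.translate_smul u c).symm)⟩⟩

theorem mul_cosets (S S' : LocOp Λ p) : (S * S').cosets = S.cosets.bind S'.translate := rfl
theorem add_cosets (S S' : LocOp Λ p) : (S + S').cosets = S.cosets + S'.cosets := rfl
theorem one_cosets : (1 : LocOp Λ p).cosets = {QuotientGroup.mk 1} := rfl

variable [DecidableEq ι]

/-- The correspondence of a local operator. -/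
def corr (S : LocOp Λ p) : Corr Λ where
  nbr x := (S.translate (x.val p)).map (x.update p)
  nbr_smul g x := by
    rw [Pt.smul_val, translate_smul, Multiset.map_map, Multiset.map_map]
    exact congrArg (Multiset.map · _) (funext fun c => (Pt.smul_update g x p c).symm)

theorem corr_nbr (S : LocOp Λ p) (x : Pt Λ) :
    S.corr.nbr x = (S.translate (x.val p)).map (x.update p) := rfl

theorem corr_one : (1 : LocOp Λ p).corr = 1 := Corr.ext fun x => by
  obtain ⟨g, hg⟩ := QuotientGroup.mk_surjective (x.val p)
  rw [corr_nbr, ← hg, translate_mk, one_cosets, Multiset.map_singleton, Multiset.map_singleton]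
  rw [show g • (QuotientGroup.mk 1 : G ⧸ Λ.U p) = QuotientGroup.mk g from
    congrArg QuotientGroup.mk (mul_one g), hg, Pt.update_eq_self]
  rfl

theorem corr_add (S S' : LocOp Λ p) : (S + S').corr = S.corr + S'.corr := Corr.ext fun x => by
  rw [Corr.add_nbr, corr_nbr, corr_nbr, corr_nbr, translate, add_cosets, Multiset.map_add,
    Multiset.map_add]
  rfl

theorem corr_mul (S S' : LocOp Λ p) : (S * S').corr = S.corr * S'.corr := Corr.ext fun x => by
  obtain ⟨g, hg⟩ := QuotientGroup.mk_surjective (x.val p)
  rw [Corr.mul_nbr, corr_nbr, corr_nbr, ← hg, translate_mk, translate_mk, mul_cosets,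
    Multiset.map_bind, Multiset.map_bind, Multiset.map_map, Multiset.bind_map]
  refine congrArg _ (funext fun c => ?_)
  rw [corr_nbr]
  simp only [Function.comp_def, Pt.update_val_self, translate_smul, Multiset.map_map,
    Pt.update_update]

theorem corr_comm (S : LocOp Λ p) (S' : LocOp Λ q) (h : p ≠ q) :
    S.corr * S'.corr = S'.corr * S.corr := Corr.ext fun x => by
  simp only [Corr.mul_nbr, corr_nbr, Multiset.bind_map]
  simp only [Pt.update_val_of_ne x h.symm, Pt.update_val_of_ne x h, Pt.update_comm x h]
  exact Multiset.bind_map_comm _ _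

/-- A finite product of local operators at distinct places. -/
def prodCorr (s : Finset ι) (S : ∀ p, LocOp Λ p) : Corr Λ :=
  s.noncommProd (fun p => (S p).corr) fun p _ q _ h => show _ = _ from corr_comm (S p) (S q) h

theorem prodCorr_insert {s : Finset ι} (hp : p ∉ s) (S : ∀ p, LocOp Λ p) :
    prodCorr (insert p s) S = (S p).corr * prodCorr s S :=
  Finset.noncommProd_insert_of_notMem _ _ _ _ hp

theorem prodCorr_empty (S : ∀ p, LocOp Λ p) : prodCorr ∅ S = 1 := Finset.noncommProd_empty _ _

theorem mem_prodCorr_nbr (s : Finset ι) (S : ∀ p, LocOp Λ p) (x y : Pt Λ) :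
    y ∈ (prodCorr s S).nbr x ↔
      (∀ p ∈ s, y.val p ∈ (S p).translate (x.val p)) ∧ ∀ p, p ∉ s → y.val p = x.val p := by
  classical
  induction s using Finset.induction generalizing x with
  | empty =>
    rw [prodCorr_empty, Corr.one_nbr, Multiset.mem_singleton]
    exact ⟨fun h => ⟨by simp, fun p _ => h ▸ rfl⟩, fun h => Pt.ext fun p => h.2 p (by simp)⟩
  | insert a s ha ih =>
    rw [prodCorr_insert ha, Corr.mul_nbr, Multiset.mem_bind]
    simp only [corr_nbr, Multiset.mem_map, ih]
    constructor
    · rintro ⟨_, ⟨c, hc, rfl⟩, h1, h2⟩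
      refine ⟨fun p hp => ?_, fun p hp => ?_⟩
      · rcases Finset.mem_insert.mp hp with rfl | hps
        · rw [h2 p ha, Pt.update_val_self]; exact hc
        · have hne : p ≠ a := fun e => ha (e ▸ hps)
          simpa [Pt.update_val_of_ne x hne] using h1 p hps
      · rw [Finset.mem_insert, not_or] at hp
        rw [h2 p hp.2, Pt.update_val_of_ne x hp.1]
    · rintro ⟨h1, h2⟩
      refine ⟨_, ⟨y.val a, h1 a (Finset.mem_insert_self a s), rfl⟩, fun p hp => ?_, fun p hp => ?_⟩
      · rw [Pt.update_val_of_ne x fun e : p = a => ha (e ▸ hp)]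
        exact h1 p (Finset.mem_insert_of_mem hp)
      · by_cases e : p = a
        · subst e; rw [Pt.update_val_self]
        · rw [Pt.update_val_of_ne x e]
          exact h2 p (by simp [e, hp])

theorem nodup_prodCorr_nbr (s : Finset ι) (S : ∀ p, LocOp Λ p)
    (hS : ∀ p ∈ s, (S p).cosets.Nodup) (x : Pt Λ) : ((prodCorr s S).nbr x).Nodup := by
  classical
  induction s using Finset.induction generalizing x with
  | empty => rw [prodCorr_empty]; exact Multiset.nodup_singleton x
  | insert a s ha ih =>
    rw [prodCorr_insert ha, Corr.mul_nbr, corr_nbr, Multiset.bind_map]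
    refine Multiset.nodup_bind.mpr ⟨fun c _ => ih (fun p hp => hS p (Finset.mem_insert_of_mem hp)) _,
      ?_⟩
    refine Multiset.Nodup.pairwise ?_ ((hS a (Finset.mem_insert_self a s)).map
      (MulAction.injective _))
    intro c _ c' _ hne
    refine Multiset.disjoint_left.mpr fun {y} hy hy' => hne ?_
    have h1 := ((mem_prodCorr_nbr s S _ y).mp hy).2 a ha
    have h2 := ((mem_prodCorr_nbr s S _ y).mp hy').2 a ha
    rw [Pt.update_val_self] at h1 h2
    exact h1.symm.trans h2

end LocOp

open Classical in
/-- The matrix entry of a correspondence. -/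
def entry (K : Corr Λ) (x y : Pt Λ) : ℕ := (K.nbr x).countP fun z => cls z = cls y

theorem op_single (K : Corr Λ) (R : Type*) [CommSemiring R] [DecidableEq (Cls Λ)] (x y : Pt Λ) :
    Corr.op R K (Pi.single (cls y) 1) (cls x) = (entry K x y : R) := by
  rw [Corr.op_apply, entry]
  induction K.nbr x using Multiset.induction with
  | empty => simp
  | cons z t ih =>
    rw [Multiset.map_cons, Multiset.sum_cons, ih, Multiset.countP_cons, Pi.single_apply]
    split_ifs <;> simp [add_comm]

/-- Counting group elements that move `y` to a neighbour of `x`. -/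
theorem card_eq_entry_mul_stabilizer (K : Corr Λ) (x y : Pt Λ) (h : (K.nbr x).Nodup) :
    Nat.card {g : G // g • y ∈ K.nbr x} = entry K x y * Nat.card (MulAction.stabilizer G y) := by
  classical
  let Y := {z : Pt Λ // z ∈ (K.nbr x).filter fun z => cls z = cls y}
  have hg : ∀ z : Y, ∃ g : G, g • y = z.1 := fun z =>
    cls_eq_iff.mp (Multiset.mem_filter.mp z.2).2
  choose t ht using hg
  let e : Y × MulAction.stabilizer G y ≃ {g : G // g • y ∈ K.nbr x} :=
    { toFun := fun a => ⟨t a.1 * a.2, by
        rw [mul_smul, a.2.2, ht]; exact (Multiset.mem_filter.mp a.1.2).1⟩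
      invFun := fun g => (⟨g.1 • y, Multiset.mem_filter.mpr ⟨g.2, cls_smul _ _⟩⟩,
        ⟨(t ⟨g.1 • y, Multiset.mem_filter.mpr ⟨g.2, cls_smul _ _⟩⟩)⁻¹ * g.1, by
          rw [MulAction.mem_stabilizer_iff, mul_smul, inv_smul_eq_iff, ht]⟩)
      left_inv := by
        rintro ⟨z, s⟩
        have hz : (t z * (s : G)) • y = z.1 := by rw [mul_smul, s.2, ht]
        refine Prod.ext (Subtype.ext hz) (Subtype.ext ?_)
        show (t ⟨(t z * (s : G)) • y, _⟩)⁻¹ * (t z * s) = s
        simp only [hz]
        exact inv_mul_cancel_left _ _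
      right_inv := fun g => Subtype.ext (mul_inv_cancel_left _ _) }
  rw [← Nat.card_congr e, Nat.card_prod]
  congr 1
  rw [Nat.card_congr (Equiv.subtypeEquivRight (p := fun z => z ∈ (K.nbr x).filter fun z => cls z = cls y)
    (q := fun z => z ∈ ((K.nbr x).filter fun z => cls z = cls y).toFinset) fun z => by simp),
    Nat.card_eq_fintype_card, Fintype.card_coe,
    Multiset.toFinset_card_of_nodup (h.filter _), entry, Multiset.countP_eq_card_filter]

end Fermat.Agent.Two.Brandt

end
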