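import Mathlib.NumberTheory.LegendreSymbol.JacobiSymbol
import Mathlib.NumberTheory.LSeries.PrimesInAP
import Mathlib.Data.Nat.Squarefree
import Mathlib.Data.Nat.ChineseRemainder

/-!
# Parameters of the definite quaternion algebras

For a discriminant `D < 0`, a set `V` of inert odd primes and a split prime `r` (or `r = 1`),
Dirichlet gives an auxiliary split prime `q` such that `e = r ∏ V` and `M = q r` realise any
pattern `T` of ramification at the primes dividing `D` of the required parity.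
-/

set_option autoImplicit false

namespace Fermat.Agent.Two.Brandt

/-- Reciprocity against a modulus congruent to `3` mod `4`. -/
theorem jacobiSym_neg_eq {N v : ℕ} (hN : N % 4 = 3) (hv : v % 2 = 1) :
    jacobiSym (-(N : ℤ)) v = jacobiSym v N := by
  have hvo : Odd v := Nat.odd_iff.mpr hv
  rw [jacobiSym.neg _ hvo]
  rcases Nat.odd_mod_four_iff.mp hv with h | h
  · rw [ZMod.χ₄_nat_one_mod_four h, one_mul,
      jacobiSym.quadratic_reciprocity_one_mod_four' (Nat.odd_iff.mpr (by omega)) h]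
  · rw [ZMod.χ₄_nat_three_mod_four h, jacobiSym.quadratic_reciprocity_three_mod_four hN h]
    ring

theorem jacobiSym_prod_right {ι : Type*} (a : ℤ) (s : Finset ι) (f : ι → ℕ) (hf : ∀ i ∈ s, f i ≠ 0) :
    jacobiSym a (∏ i ∈ s, f i) = ∏ i ∈ s, jacobiSym a (f i) := by
  classical
  induction s using Finset.induction_on with
  | empty => simp
  | insert i s his ih =>
    have h : ∏ j ∈ s, f j ≠ 0 :=
      Finset.prod_ne_zero_iff.mpr fun j hj => hf j (Finset.mem_insert_of_mem hj)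
    have : NeZero (f i) := ⟨hf i (Finset.mem_insert_self i s)⟩
    have : NeZero (∏ j ∈ s, f j) := ⟨h⟩
    rw [Finset.prod_insert his, Finset.prod_insert his, jacobiSym.mul_right,
      ih fun j hj => hf j (Finset.mem_insert_of_mem hj)]

theorem jacobiSym_prod_left {ι : Type*} (N : ℕ) (s : Finset ι) (f : ι → ℤ) :
    jacobiSym (∏ i ∈ s, f i) N = ∏ i ∈ s, jacobiSym (f i) N := by
  classical
  induction s using Finset.induction_on with
  | empty => simp
  | insert i s his ih =>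
    rw [Finset.prod_insert his, Finset.prod_insert his, jacobiSym.mul_left, ih]

/-- Both signs are Legendre symbols. -/
theorem exists_jacobiSym_eq {l : ℕ} (hl : l.Prime) (hl2 : l ≠ 2) {ε : ℤ} (hε : ε = 1 ∨ ε = -1) :
    ∃ a : ℕ, jacobiSym a l = ε := by
  have := Fact.mk hl
  rcases hε with rfl | rfl
  · exact ⟨1, by simp⟩
  · obtain ⟨a, ha⟩ := FiniteField.exists_nonsquare (F := ZMod l) (by rw [ZMod.ringChar_zmod_n]; exact hl2)
    refine ⟨a.val, ?_⟩
    rw [← jacobiSym.legendreSym.to_jacobiSym, legendreSym.eq_neg_one_iff',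
      ZMod.natCast_zmod_val]
    exact ha

/-- A split odd prime has a root of `X ^ 2 - X - c`. -/
theorem exists_dvd_sq_sub {p : ℕ} (hp : p.Prime) (hp2 : p ≠ 2) {D c : ℤ} (hc : D = 4 * c + 1)
    (h : jacobiSym D p = 1) : ∃ s : ℤ, (p : ℤ) ∣ s ^ 2 - s - c := by
  have := Fact.mk hp
  have h0 : (D : ZMod p) ≠ 0 := fun h0 => by
    rw [← jacobiSym.legendreSym.to_jacobiSym, (legendreSym.eq_zero_iff p D).mpr h0] at h
    exact zero_ne_one h
  rw [← jacobiSym.legendreSym.to_jacobiSym, legendreSym.eq_one_iff p h0] at h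
  obtain ⟨y, hy⟩ := h
  have h2 : (2 : ZMod p) ≠ 0 := by
    intro h2
    have : ((2 : ℕ) : ZMod p) = 0 := by exact_mod_cast h2
    exact hp2 ((Nat.prime_dvd_prime_iff_eq hp Nat.prime_two).mp
      ((ZMod.natCast_eq_zero_iff 2 p).mp this))
  obtain ⟨s, hs⟩ := ZMod.intCast_surjective ((y + 1) / 2 : ZMod p)
  refine ⟨s, (ZMod.intCast_zmod_eq_zero_iff_dvd _ p).mp ?_⟩
  rw [hc, Int.cast_add, Int.cast_mul] at hy
  push_cast at hy ⊢
  rw [hs]
  field_simp
  linear_combination (-1 : ZMod p) * hy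

/-- The parameters of a definite quaternion algebra with prescribed ramification. -/
theorem exists_param {D c₁ : ℤ} (hD : D < 0) (hc : D = 4 * c₁ + 1) (hsq : Squarefree D)
    (V : Finset ℕ) (hV : ∀ v ∈ V, v.Prime ∧ v ≠ 2 ∧ jacobiSym D v = -1)
    {r : ℕ} (hr : r = 1 ∨ (r.Prime ∧ r ≠ 2 ∧ jacobiSym D r = 1))
    {T : Finset ℕ} (hT : T ⊆ D.natAbs.primeFactors) (hpar : Odd (V.card + T.card)) (B : ℕ) :
    ∃ (q : ℕ) (s : ℤ), q.Prime ∧ B < q ∧ q ≠ 2 ∧ q ∉ V ∧ q ≠ r ∧ ¬(q : ℤ) ∣ D ∧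
      jacobiSym D q = 1 ∧ ((q * r : ℕ) : ℤ) ∣ s ^ 2 - s - c₁ ∧
      ∀ l ∈ D.natAbs.primeFactors,
        (jacobiSym (-(((r * ∏ v ∈ V, v : ℕ) : ℤ) * ((q * r : ℕ) : ℤ))) l = -1 ↔ l ∈ T) := by
  classical
  set N := D.natAbs with hNdef
  have hN : D = -(N : ℤ) := by omega
  have hN4 : N % 4 = 3 := by omega
  have hN0 : N ≠ 0 := by omega
  have : NeZero N := ⟨hN0⟩
  have hNsq : Squarefree N := Int.squarefree_natAbs.mpr hsq
  have hNprod : ∏ l ∈ N.primeFactors, l = N := Nat.prod_primeFactors_of_squarefree hNsq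
  have hl2 : ∀ l ∈ N.primeFactors, l ≠ 2 := fun l hl h2 => by
    subst h2
    have := Nat.dvd_of_mem_primeFactors hl
    omega
  set P := ∏ v ∈ V, v
  have hDzero : ∀ l ∈ N.primeFactors, jacobiSym D l = 0 := fun l hl => by
    have := Fact.mk (Nat.prime_of_mem_primeFactors hl)
    rw [← jacobiSym.legendreSym.to_jacobiSym, legendreSym.eq_zero_iff,
      ZMod.intCast_zmod_eq_zero_iff_dvd]
    exact Int.natCast_dvd.mpr (Nat.dvd_of_mem_primeFactors hl)
  have hne : ∀ (l a : ℕ), l ∈ N.primeFactors → a.Prime → jacobiSym D a ≠ 0 →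
      jacobiSym a l ≠ 0 := fun l a hl ha h h0 => by
    have := Fact.mk (Nat.prime_of_mem_primeFactors hl)
    rw [← jacobiSym.legendreSym.to_jacobiSym, legendreSym.eq_zero_iff, Int.cast_natCast,
      ZMod.natCast_eq_zero_iff, Nat.prime_dvd_prime_iff_eq (Nat.prime_of_mem_primeFactors hl) ha]
      at h0
    exact h (h0 ▸ hDzero l hl)
  have hJP : ∀ l ∈ N.primeFactors, jacobiSym (-(P : ℤ)) l = 1 ∨ jacobiSym (-(P : ℤ)) l = -1 := by
    intro l hl
    refine (jacobiSym.trichotomy _ l).resolve_left fun h0 => ?_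
    have hlo : Odd l := (Nat.prime_of_mem_primeFactors hl).odd_of_ne_two (hl2 l hl)
    rw [jacobiSym.neg _ hlo] at h0
    push_cast [P] at h0
    rw [jacobiSym_prod_left] at h0
    rcases mul_eq_zero.mp h0 with h | h
    · rcases Nat.odd_mod_four_iff.mp (Nat.odd_iff.mp hlo) with h4 | h4
      · simp [ZMod.χ₄_nat_one_mod_four h4] at h
      · simp [ZMod.χ₄_nat_three_mod_four h4] at h
    · obtain ⟨v, hv, hv0⟩ := Finset.prod_eq_zero_iff.mp h
      exact hne l v hl (hV v hv).1 (by rw [(hV v hv).2.2]; decide) hv0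
  let ε : ℕ → ℤ := fun l => if l ∈ T then -1 else 1
  have hex : ∀ l, ∃ a : ℕ, l ∈ N.primeFactors → jacobiSym a l = ε l * jacobiSym (-(P : ℤ)) l :=
    fun l => by
      by_cases hl : l ∈ N.primeFactors
      · obtain ⟨a, ha⟩ := exists_jacobiSym_eq (Nat.prime_of_mem_primeFactors hl) (hl2 l hl)
          (ε := ε l * jacobiSym (-(P : ℤ)) l) (by
            rcases hJP l hl with h | h <;> simp only [ε] <;> split <;> simp [h])
        exact ⟨a, fun _ => ha⟩
      · exact ⟨0, fun h => absurd h hl⟩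
  choose a ha using hex
  obtain ⟨u, hu⟩ := Nat.chineseRemainderOfFinset a id N.primeFactors
    (fun l hl => (Nat.prime_of_mem_primeFactors hl).ne_zero)
    (fun l hl l' hl' hll => (Nat.coprime_primes (Nat.prime_of_mem_primeFactors hl)
      (Nat.prime_of_mem_primeFactors hl')).mpr hll)
  have hua : ∀ l ∈ N.primeFactors, jacobiSym u l = ε l * jacobiSym (-(P : ℤ)) l := fun l hl => by
    rw [← ha l hl]
    exact jacobiSym.mod_left' (by exact_mod_cast hu l hl)
  have hεne : ∀ l, ε l ≠ 0 := fun l => by simp only [ε]; split <;> decide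
  have hunit : IsUnit (u : ZMod N) := by
    rw [ZMod.isUnit_iff_coprime, ← hNprod]
    refine Nat.Coprime.prod_right fun l hl => ?_
    refine ((Nat.prime_of_mem_primeFactors hl).coprime_iff_not_dvd.mpr fun h => ?_).symm
    have := Fact.mk (Nat.prime_of_mem_primeFactors hl)
    have h0 : jacobiSym u l = 0 := by
      rw [← jacobiSym.legendreSym.to_jacobiSym, legendreSym.eq_zero_iff, Int.cast_natCast,
        ZMod.natCast_eq_zero_iff]
      exact h
    rw [hua l hl] at h0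
    rcases hJP l hl with h' | h' <;> simp [h', hεne] at h0
  obtain ⟨q, hq, hqp, hqu⟩ := Nat.forall_exists_prime_gt_and_eq_mod hunit (B + r + N + V.sup id + 2)
  have hq2 : q ≠ 2 := by omega
  have hqN : ¬(q : ℤ) ∣ D := fun h => by
    have := Nat.le_of_dvd (Nat.pos_of_ne_zero hN0) (Int.natCast_dvd.mp h)
    omega
  have hql : ∀ l ∈ N.primeFactors, jacobiSym q l = ε l * jacobiSym (-(P : ℤ)) l := fun l hl => by
    rw [← hua l hl]
    have hmod : q ≡ u [MOD l] :=
      Nat.ModEq.of_dvd (Nat.dvd_of_mem_primeFactors hl) ((ZMod.natCast_eq_natCast_iff q u N).mp hqu)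
    exact jacobiSym.mod_left' (by exact_mod_cast hmod)
  have hsum : jacobiSym (-(P : ℤ)) N = (-1) ^ (V.card + 1) := by
    rw [jacobiSym.neg _ (Nat.odd_iff.mpr (by omega)), ZMod.χ₄_nat_three_mod_four hN4, pow_succ']
    push_cast [P]
    rw [jacobiSym_prod_left, Finset.prod_eq_pow_card fun v hv => ?_]
    obtain ⟨hvp, hv2, hv1⟩ := hV v hv
    rw [← jacobiSym_neg_eq hN4 (Nat.odd_iff.mp (hvp.odd_of_ne_two hv2)), ← hN, hv1]
  have hJq : jacobiSym D q = 1 := by
    rw [hN, jacobiSym_neg_eq hN4 (Nat.odd_iff.mp (hqp.odd_of_ne_two hq2))]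
    conv_lhs => rw [← hNprod]
    rw [jacobiSym_prod_right _ _ _ fun l hl => (Nat.prime_of_mem_primeFactors hl).ne_zero,
      Finset.prod_congr rfl hql, Finset.prod_mul_distrib, ← jacobiSym_prod_right _ _ _
        fun l hl => (Nat.prime_of_mem_primeFactors hl).ne_zero, hNprod, hsum]
    simp only [ε, Finset.prod_ite_mem, Finset.inter_eq_right.mpr hT, Finset.prod_const]
    rw [← pow_add]
    exact Even.neg_one_pow (by rw [Nat.odd_iff] at hpar; rw [Nat.even_iff]; omega)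
  obtain ⟨s₁, hs₁⟩ := exists_dvd_sq_sub hqp hq2 hc hJq
  obtain ⟨s, hs⟩ : ∃ s : ℤ, ((q * r : ℕ) : ℤ) ∣ s ^ 2 - s - c₁ := by
    rcases hr with rfl | ⟨hrp, hr2, hr1⟩
    · exact ⟨s₁, by simpa using hs₁⟩
    obtain ⟨s₂, hs₂⟩ := exists_dvd_sq_sub hrp hr2 hc hr1
    have hco : IsCoprime (q : ℤ) r :=
      Nat.isCoprime_iff_coprime.mpr ((Nat.coprime_primes hqp hrp).mpr (by omega))
    obtain ⟨x, y, hxy⟩ := id hco
    refine ⟨s₁ * (y * r) + s₂ * (x * q), ?_⟩
    rw [Nat.cast_mul]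
    refine hco.mul_dvd ?_ ?_
    · have h : s₁ * (y * r) + s₂ * (x * q) = s₁ + (q : ℤ) * (x * (s₂ - s₁)) := by
        linear_combination s₁ * hxy
      rw [h, show (s₁ + (q : ℤ) * (x * (s₂ - s₁))) ^ 2 - (s₁ + (q : ℤ) * (x * (s₂ - s₁))) - c₁ =
        (s₁ ^ 2 - s₁ - c₁) + (q : ℤ) * (x * (s₂ - s₁) *
          (2 * s₁ - 1 + (q : ℤ) * (x * (s₂ - s₁)))) by ring]
      exact dvd_add hs₁ (dvd_mul_right _ _)
    · have h : s₁ * (y * r) + s₂ * (x * q) = s₂ + (r : ℤ) * (y * (s₁ - s₂)) := by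
        linear_combination s₂ * hxy
      rw [h, show (s₂ + (r : ℤ) * (y * (s₁ - s₂))) ^ 2 - (s₂ + (r : ℤ) * (y * (s₁ - s₂))) - c₁ =
        (s₂ ^ 2 - s₂ - c₁) + (r : ℤ) * (y * (s₁ - s₂) *
          (2 * s₂ - 1 + (r : ℤ) * (y * (s₁ - s₂)))) by ring]
      exact dvd_add hs₂ (dvd_mul_right _ _)
  refine ⟨q, s, hqp, by omega, hq2, fun h => ?_, by omega, hqN, hJq, hs, fun l hl => ?_⟩
  · have := Finset.le_sup (f := id) h
    simp only [id] at this
    omega
  have hrl : jacobiSym r l * jacobiSym r l = 1 := by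
    rcases hr with rfl | ⟨hrp, -, hr1⟩
    · simp
    · rcases jacobiSym.trichotomy (r : ℤ) l with h | h | h
      · exact absurd h (hne l r hl hrp (by rw [hr1]; decide))
      all_goals simp [h]
  have e : -(((r * P : ℕ) : ℤ) * ((q * r : ℕ) : ℤ)) = (-(P : ℤ)) * q * (r * r) := by
    push_cast; ring
  rw [e, jacobiSym.mul_left, jacobiSym.mul_left, jacobiSym.mul_left, hrl, mul_one, hql l hl]
  have hJ2 : jacobiSym (-(P : ℤ)) l * jacobiSym (-(P : ℤ)) l = 1 := by
    rcases hJP l hl with h | h <;> rw [h] <;> decide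
  rw [mul_left_comm, hJ2, mul_one]
  by_cases hlT : l ∈ T <;> simp [ε, hlT]

end Fermat.Agent.Two.Brandt
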