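import Fermat.Agent.Two.Brandt.Theta
import Fermat.Agent.Two.Theta.Quat.Plain

/-!
# The modular form of a function on the classes

`θ_x f = ∑ f(y) θ(x, y)` has coefficients `2 (T_n f)(x)`.
-/

set_option autoImplicit false

noncomputable section

open CongruenceSubgroup UpperHalfPlane ModularFormClass
open scoped MatrixGroups ModularForm

namespace Fermat.Agent.Two.Brandt.Param.Sub

variable {P : Param} {Λ : P.Sub}

theorem Frame.reps_form {x y : Pt Λ.level} (F : Frame x y) (hbad : Λ.bad = ∅) {n : ℕ} (hn : n ≠ 0) :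
    F.form.reps n = entry (Λ.heckeT n) x y * Nat.card (MulAction.stabilizer P.Bˣ y) := by
  have h := F.entry_eq_thetaCoeff hbad hn
  rw [Theta.Quat.thetaCoeff, Finset.sum_const, nsmul_one,
    ← Set.ncard_eq_toFinset_card _ (F.form.finite_eval_eq n), Nat.cast_inj] at h
  rw [h]
  rfl

/-- The theta series of a pair of points. -/
def pairTheta (x y : Pt Λ.level) :
    ModularForm ((Gamma0 (latticeLevel P) : Subgroup SL(2, ℤ)) : Subgroup (GL (Fin 2) ℝ)) 2 :=
  (frame x y).form.plainTheta

variable (Λ) in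
/-- A representative of a class. -/
def classRep (c : Cls Λ.level) : Pt Λ.level := Quotient.out c

theorem cls_classRep (c : Cls Λ.level) : cls (classRep Λ c) = c := Quotient.out_eq c

/-- The theta series of a function on the classes, seen from a point. -/
def classTheta (x : Pt Λ.level) (f : Cls Λ.level → ℂ) :
    ModularForm ((Gamma0 (latticeLevel P) : Subgroup SL(2, ℤ)) : Subgroup (GL (Fin 2) ℝ)) 2 :=
  haveI := Fintype.ofFinite (Cls Λ.level)
  ∑ c, f c • pairTheta x (classRep Λ c)

theorem hasSum_classTheta (x : Pt Λ.level) (f : Cls Λ.level → ℂ) (τ : ℍ) :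
    HasSum (fun n : ℕ => (∑ᶠ c, f c * ((frame x (classRep Λ c)).form.reps n : ℂ)) •
      Function.Periodic.qParam 1 τ ^ n) (classTheta x f τ) := by
  let := Fintype.ofFinite (Cls Λ.level)
  simp only [finsum_eq_sum_of_fintype, Finset.sum_smul, mul_smul]
  have happ : ∀ (s : Finset (Cls Λ.level)) (g : Cls Λ.level →
      ModularForm ((Gamma0 (latticeLevel P) : Subgroup SL(2, ℤ)) : Subgroup (GL (Fin 2) ℝ)) 2),
      (∑ c ∈ s, g c) τ = ∑ c ∈ s, g c τ := fun s g => by
    classical
    induction s using Finset.induction with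
    | empty => simp
    | insert a s ha ih =>
      rw [Finset.sum_insert ha, Finset.sum_insert ha, ← ih]
      rfl
  rw [classTheta, happ]
  have h := hasSum_sum (s := Finset.univ) fun (c : Cls Λ.level) _ =>
    ((frame x (classRep Λ c)).form.hasSum_plainTheta τ).const_smul (f c)
  exact h

theorem qCoeff_classTheta (x : Pt Λ.level) (f : Cls Λ.level → ℂ) (n : ℕ) :
    qCoeff (classTheta x f) n = ∑ᶠ c, f c * ((frame x (classRep Λ c)).form.reps n : ℂ) :=
  (ModularFormClass.qExpansion_coeff_unique
    (Γ := ((Gamma0 (latticeLevel P) : Subgroup SL(2, ℤ)) : Subgroup (GL (Fin 2) ℝ))) (k := 2)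
    (f := classTheta x f) one_pos (by simp) (hasSum_classTheta x f) n).symm

/-- A Hecke operator as a sum over the classes. -/
theorem op_eq_sum (K : Corr Λ.level) (x : Pt Λ.level) (f : Cls Λ.level → ℂ) :
    Corr.op ℂ K f (cls x) = ∑ᶠ c, f c * (entry K x (classRep Λ c) : ℂ) := by
  classical
  have := Fintype.ofFinite (Cls Λ.level)
  rw [finsum_eq_sum_of_fintype]
  conv_lhs => rw [pi_eq_sum_univ' f, map_sum, Finset.sum_apply]
  refine Finset.sum_congr rfl fun c _ => ?_
  rw [map_smul, Pi.smul_apply, smul_eq_mul, ← op_single K ℂ x (classRep Λ c), cls_classRep]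

/-- **The coefficients of the class theta series are twice the Hecke transforms**. -/
theorem qCoeff_classTheta_eq {l : Nat.Primes} (hram : IsRamified P l) (hl : (l : ℕ) % 12 = 1)
    (hbad : Λ.bad = ∅) (x : Pt Λ.level) (f : Cls Λ.level → ℂ) {n : ℕ} (hn : n ≠ 0) :
    qCoeff (classTheta x f) n = 2 * Corr.op ℂ (Λ.heckeT n) f (cls x) := by
  have := Fintype.ofFinite (Cls Λ.level)
  rw [qCoeff_classTheta, op_eq_sum, finsum_eq_sum_of_fintype, finsum_eq_sum_of_fintype,
    Finset.mul_sum]
  refine Finset.sum_congr rfl fun c _ => ?_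
  rw [Frame.reps_form _ hbad hn, card_stabilizer_eq_two hram hl _ (by simp [hbad])]
  push_cast
  ring

theorem qCoeff_classTheta_one {l : Nat.Primes} (hram : IsRamified P l) (hl : (l : ℕ) % 12 = 1)
    (hbad : Λ.bad = ∅) (x : Pt Λ.level) (f : Cls Λ.level → ℂ) :
    qCoeff (classTheta x f) 1 = 2 * f (cls x) := by
  rw [qCoeff_classTheta_eq hram hl hbad x f one_ne_zero, heckeT_one, map_one]
  rfl

end Fermat.Agent.Two.Brandt.Param.Sub

end
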