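import Fermat.Agent.Two.Brandt.Local
import Mathlib.FieldTheory.Finite.Basic
import Mathlib.LinearAlgebra.Matrix.Notation
import Mathlib.Data.Set.Card
import Mathlib.Tactic.ComputeDegree

/-!
# Primes not dividing `D e`

There the order modulo `p` is the algebra of two by two matrices, with the norm as determinant.
Left divisors of norm valuation one correspond to the lines of the plane.
-/

set_option autoImplicit false

noncomputable section

open Matrix Polynomial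

namespace Fermat.Agent.Two.Brandt

namespace Plane

variable {F : Type*} [Field F]

/-- Representatives of the lines of the plane. -/
def vec : Option F → Fin 2 → F
  | none => ![0, 1]
  | some t => ![1, t]

theorem exists_eq_vecMulVec {m : Matrix (Fin 2) (Fin 2) F} (h : m.det = 0) :
    ∃ t r, m = vecMulVec (vec t) r := by
  rw [det_fin_two] at h
  by_cases h0 : m 0 0 = 0
  · by_cases h1 : m 0 1 = 0
    · refine ⟨none, m 1, ?_⟩
      ext i j
      fin_cases i <;> fin_cases j <;> simp [vec, vecMulVec_apply, h0, h1]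
    · refine ⟨some (m 1 1 / m 0 1), m 0, ?_⟩
      have h10 : m 1 0 = 0 := by simpa [h0, h1] using h
      ext i j
      fin_cases i <;> fin_cases j <;> simp [vec, vecMulVec_apply, h0, h10, h1]
  · refine ⟨some (m 1 0 / m 0 0), m 0, ?_⟩
    ext i j
    fin_cases i <;> fin_cases j <;> simp [vec, vecMulVec_apply, h0]
    field_simp
    linear_combination h

theorem eq_of_vecMulVec_eq {t t' : Option F} {r r' : Fin 2 → F}
    (h : vecMulVec (vec t) r = vecMulVec (vec t') r') (hr : r ≠ 0) : t = t' := by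
  obtain ⟨j, hj⟩ := Function.ne_iff.mp hr
  have h0 := congrFun (congrFun h 0) j
  have h1 := congrFun (congrFun h 1) j
  simp only [Pi.zero_apply] at hj
  cases t <;> cases t' <;> simp only [vec, vecMulVec_apply, cons_val_zero, cons_val_one, zero_mul,
    one_mul] at h0 h1 ⊢
  · rw [← h0, mul_zero] at h1; exact absurd h1 hj
  · exact absurd h0 hj
  · rename_i a b
    rw [← h0] at h1
    rw [mul_right_cancel₀ hj h1]

theorem exists_mul_eq_vecMulVec (v : Fin 2 → F) {r : Fin 2 → F} (hr : r ≠ 0) (r' : Fin 2 → F) :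
    ∃ T : Matrix (Fin 2) (Fin 2) F, vecMulVec v r * T = vecMulVec v r' := by
  obtain ⟨j, hj⟩ := Function.ne_iff.mp hr
  refine ⟨vecMulVec (Pi.single j (r j)⁻¹) r', ?_⟩
  rw [vecMulVec_mul_vecMulVec, dotProduct_single, mul_inv_cancel₀ hj, one_smul]

theorem exists_det_ne_zero (t : Option F) :
    ∃ G : Matrix (Fin 2) (Fin 2) F, G.det ≠ 0 ∧ G *ᵥ ![1, 0] = vec t := by
  cases t with
  | none =>
    refine ⟨!![0, 1; 1, 0], by simp [det_fin_two], ?_⟩
    ext i; fin_cases i <;> simp [vec]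
  | some t =>
    refine ⟨!![1, 0; t, 1], by simp [det_fin_two], ?_⟩
    ext i; fin_cases i <;> simp [vec]

end Plane

namespace Param

variable (P : Param) (p : Nat.Primes)

attribute [local instance] fact_prime
attribute [local instance 10000] RingHom.instRingHomClass RingHomClass.toAddMonoidHomClass

/-- The matrix attached to the coordinates of an element modulo `p`. -/
def matModP (a b w₀ w₁ : ZMod p) (v : Fin 4 → ZMod p) : Matrix (Fin 2) (Fin 2) (ZMod p) :=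
  let r := v 2 * (a * P.M + b * (1 - P.s)) + v 3 * (b * P.h - a * P.s)
  let t := v 3 * a - v 2 * b
  let x := w₀ * r + P.c * w₁ * t
  let z := w₀ * t + w₁ * r + w₁ * t
  !![v 0 + x, v 1 * P.c + x - P.c * z; v 1 + z, v 0 + v 1 - x]

/-- The binary form modulo `p`. -/
def gModP (a b : ZMod p) : ZMod p := P.M * a ^ 2 + (1 - 2 * P.s) * a * b + P.h * b ^ 2

private theorem of_fin_two_congr {R : Type*} {a b c d a' b' c' d' : R} (h1 : a = a') (h2 : b = b')
    (h3 : c = c') (h4 : d = d') : !![a, b; c, d] = !![a', b'; c', d'] := by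
  rw [h1, h2, h3, h4]

private theorem matModP_add (a b w₀ w₁ : ZMod p) (v v' : Fin 4 → ZMod p) :
    P.matModP p a b w₀ w₁ (v + v') =
      P.matModP p a b w₀ w₁ v + P.matModP p a b w₀ w₁ v' := by
  simp only [matModP, Pi.add_apply, Matrix.of_add_of, Matrix.cons_add_cons,
    Matrix.empty_add_empty]
  refine of_fin_two_congr ?_ ?_ ?_ ?_ <;> ring

theorem four_c_add_one_ne_zero (hD : ¬((p : ℕ) : ℤ) ∣ P.D) : (4 * P.c + 1 : ZMod p) ≠ 0 := fun h =>
  hD ((ZMod.intCast_zmod_eq_zero_iff_dvd _ _).mp (by rw [P.hc]; push_cast; exact h))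

theorem e_ne_zero (he : ¬((p : ℕ) : ℤ) ∣ P.e) : (P.e : ZMod p) ≠ 0 := fun h =>
  he ((ZMod.intCast_zmod_eq_zero_iff_dvd _ _).mp h)

theorem M_mul_h_cast : (P.M * P.h : ZMod p) = (P.s : ZMod p) ^ 2 - P.s - P.c := by
  have h := congrArg (Int.cast : ℤ → ZMod p) P.M_mul_h
  push_cast at h
  exact h

theorem exists_gModP_ne_zero (hD : ¬((p : ℕ) : ℤ) ∣ P.D) : ∃ a b, P.gModP p a b ≠ 0 := by
  by_contra h
  push Not at h
  have h1 := h 1 0
  have h2 := h 0 1
  have h3 := h 1 1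
  simp only [gModP, one_pow, mul_one, mul_zero, zero_pow two_ne_zero, add_zero, zero_add] at h1 h2 h3
  have hMh := P.M_mul_h_cast p
  refine P.four_c_add_one_ne_zero p hD ?_
  linear_combination (1 - 2 * (P.s : ZMod p)) * h3 - (1 - 2 * (P.s : ZMod p) + 4 * P.h) * h1 -
    (1 - 2 * (P.s : ZMod p)) * h2 + 4 * hMh

/-- The norm form of the quadratic ring represents every nonzero residue. -/
theorem exists_g₀_eq (hD : ¬((p : ℕ) : ℤ) ∣ P.D) {ν : ZMod p} (hν : ν ≠ 0) :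
    ∃ x y : ZMod p, x ^ 2 + x * y - P.c * y ^ 2 = ν := by
  rcases p.2.eq_two_or_odd with h2 | hodd
  · refine ⟨1, 0, ?_⟩
    rw [one_pow, mul_zero, add_zero, zero_pow two_ne_zero, mul_zero, sub_zero]
    have : ∀ z : ZMod 2, z ≠ 0 → 1 = z := by decide
    obtain ⟨q, hq⟩ := p
    obtain rfl : q = 2 := h2
    exact this ν hν
  have hp2 : (2 : ZMod p) ≠ 0 := by
    intro h
    have h' : ((2 : ℕ) : ZMod p) = 0 := by exact_mod_cast h
    have := Nat.le_of_dvd two_pos ((ZMod.natCast_eq_zero_iff 2 p).mp h')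
    have := p.2.two_le
    omega
  set d : ZMod p := -(4 * P.c + 1) / 4
  have hd : d ≠ 0 := div_ne_zero (neg_ne_zero.mpr (P.four_c_add_one_ne_zero p hD)) (by
    rw [show (4 : ZMod p) = 2 * 2 by norm_num]; exact mul_ne_zero hp2 hp2)
  obtain ⟨u, y, h⟩ := FiniteField.exists_root_sum_quadratic (R := ZMod p) (f := Polynomial.X ^ 2)
    (g := Polynomial.C d * Polynomial.X ^ 2 + Polynomial.C (-ν)) (degree_X_pow 2)
    (by compute_degree!) (by rw [ZMod.card]; exact hodd)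
  simp only [eval_pow, eval_X, eval_add, eval_mul, eval_C] at h
  refine ⟨u - y / 2, y, ?_⟩
  have h4 : (4 : ZMod p) * d = -(4 * P.c + 1) :=
    mul_div_cancel₀ _ (by rw [show (4 : ZMod p) = 2 * 2 by norm_num]; exact mul_ne_zero hp2 hp2)
  field_simp
  linear_combination 4 * h - y ^ 2 * h4

section Form

variable {a b w₀ w₁ : ZMod p}

theorem matModP_mul (hw : (w₀ ^ 2 + w₀ * w₁ - P.c * w₁ ^ 2) * P.gModP p a b = -(P.e : ZMod p))
    (v v' : Fin 4 → ℤ) :
    P.matModP p a b w₀ w₁ (fun i => (P.mulCoord v v' i : ZMod p)) =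
      P.matModP p a b w₀ w₁ (fun i => (v i : ZMod p)) *
        P.matModP p a b w₀ w₁ (fun i => (v' i : ZMod p)) := by
  have hMh := P.M_mul_h_cast p
  have he : (P.e : ZMod p) = -((w₀ ^ 2 + w₀ * w₁ - P.c * w₁ ^ 2) * P.gModP p a b) := by
    rw [hw, neg_neg]
  rw [gModP] at he
  simp only [matModP, mulCoord, Matrix.mul_fin_two, Matrix.cons_val]
  push_cast
  rw [he]
  refine of_fin_two_congr ?_ ?_ ?_ ?_
  · linear_combination ((w₀ ^ 2 + w₀ * w₁ - P.c * w₁ ^ 2) * (v 3 * a - v 2 * b) *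
      (v' 3 * a - v' 2 * b) +
      w₀ * (v' 1 * (v 3 * a - v 2 * b) - v 1 * (v' 3 * a - v' 2 * b))) * hMh
  · linear_combination ((w₀ - P.c * w₁) *
      (v' 1 * (v 3 * a - v 2 * b) - v 1 * (v' 3 * a - v' 2 * b))) * hMh
  · linear_combination (w₁ * (v' 1 * (v 3 * a - v 2 * b) - v 1 * (v' 3 * a - v' 2 * b))) * hMh
  · linear_combination ((w₀ ^ 2 + w₀ * w₁ - P.c * w₁ ^ 2) * (v 3 * a - v 2 * b) *
      (v' 3 * a - v' 2 * b) -
      w₀ * (v' 1 * (v 3 * a - v 2 * b) - v 1 * (v' 3 * a - v' 2 * b))) * hMh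

theorem matModP_det (hw : (w₀ ^ 2 + w₀ * w₁ - P.c * w₁ ^ 2) * P.gModP p a b = -(P.e : ZMod p))
    (v : Fin 4 → ℤ) :
    (P.matModP p a b w₀ w₁ fun i => (v i : ZMod p)).det =
      ((P.g₀ (v 0) (v 1) + P.e * P.g (v 2) (v 3) : ℤ) : ZMod p) := by
  have hMh := P.M_mul_h_cast p
  have hc : (P.c : ZMod p) = (P.s : ZMod p) ^ 2 - P.s - P.M * P.h := by rw [hMh]; ring
  have he : (P.e : ZMod p) = -((w₀ ^ 2 + w₀ * w₁ - P.c * w₁ ^ 2) * P.gModP p a b) := by
    rw [hw, neg_neg]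
  rw [gModP] at he
  simp only [matModP, det_fin_two_of, g₀, g]
  push_cast
  rw [he, hc]
  ring

theorem matModP_injective (hD : ¬((p : ℕ) : ℤ) ∣ P.D) (he : ¬((p : ℕ) : ℤ) ∣ P.e)
    (hw : (w₀ ^ 2 + w₀ * w₁ - P.c * w₁ ^ 2) * P.gModP p a b = -(P.e : ZMod p))
    {v : Fin 4 → ZMod p} (hv : P.matModP p a b w₀ w₁ v = 0) : v = 0 := by
  obtain ⟨hN, hg⟩ : w₀ ^ 2 + w₀ * w₁ - P.c * w₁ ^ 2 ≠ 0 ∧ P.gModP p a b ≠ 0 :=
    mul_ne_zero_iff.mp (hw ▸ neg_ne_zero.mpr (P.e_ne_zero p he))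
  have e00 := congrFun (congrFun hv 0) 0
  have e01 := congrFun (congrFun hv 0) 1
  have e10 := congrFun (congrFun hv 1) 0
  have e11 := congrFun (congrFun hv 1) 1
  simp only [matModP, of_apply, cons_val', cons_val_zero, cons_val_one, empty_val', cons_val_fin_one,
    Matrix.zero_apply] at e00 e01 e10 e11
  set r := v 2 * (a * P.M + b * (1 - P.s)) + v 3 * (b * P.h - a * P.s)
  set t := v 3 * a - v 2 * b
  have hx : w₀ * r + P.c * w₁ * t = 0 := by
    refine (mul_eq_zero.mp ?_).resolve_left (P.four_c_add_one_ne_zero p hD)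
    linear_combination (2 * (P.c : ZMod p)) * e00 + e01 - (2 * (P.c : ZMod p)) * e11 +
      (P.c : ZMod p) * e10
  have hz : w₀ * t + w₁ * r + w₁ * t = 0 := by
    linear_combination e10 + e00 - e11 - 2 * hx
  have hv0 : v 0 = 0 := by linear_combination e00 - hx
  have hv1 : v 1 = 0 := by linear_combination e10 - hz
  have hr : r = 0 := by
    refine (mul_eq_zero.mp ?_).resolve_left hN
    linear_combination (w₀ + w₁) * hx - (P.c : ZMod p) * w₁ * hz
  have ht : t = 0 := by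
    refine (mul_eq_zero.mp ?_).resolve_left hN
    linear_combination w₀ * hz - w₁ * hx
  have h3 : v 3 = 0 := by
    refine (mul_eq_zero.mp ?_).resolve_left hg
    simp only [gModP, r, t] at hr ht ⊢
    linear_combination b * hr + (a * P.M + b * (1 - P.s)) * ht
  have h2 : v 2 = 0 := by
    refine (mul_eq_zero.mp ?_).resolve_left hg
    simp only [gModP, r, t] at hr ht ⊢
    linear_combination a * hr - (b * P.h - a * P.s) * ht
  funext i
  fin_cases i <;> assumption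

end Form

/-- Modulo a prime not dividing `D e` the order is a matrix algebra with norm the determinant. -/
theorem exists_modP (hD : ¬((p : ℕ) : ℤ) ∣ P.D) (he : ¬((p : ℕ) : ℤ) ∣ P.e) :
    ∃ π : P.order →+* Matrix (Fin 2) (Fin 2) (ZMod p), Function.Surjective π ∧
      (∀ z, π z = 0 ↔ ∃ w ∈ P.order, (z : P.B) = (p : ℕ) • w) ∧
      ∀ (z : P.order) (n : ℤ), P.nrd z = n → (π z).det = n := by
  obtain ⟨a, b, hg⟩ := P.exists_gModP_ne_zero p hD
  obtain ⟨w₀, w₁, hw'⟩ := P.exists_g₀_eq p hD (ν := -(P.e : ZMod p) / P.gModP p a b)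
    (div_ne_zero (neg_ne_zero.mpr (P.e_ne_zero p he)) hg)
  have hw : (w₀ ^ 2 + w₀ * w₁ - P.c * w₁ ^ 2) * P.gModP p a b = -(P.e : ZMod p) := by
    rw [hw', div_mul_cancel₀ _ hg]
  let κ : P.order → Fin 4 → ℤ := fun z => (P.mem_order.mp z.2).choose
  have hκ : ∀ z, P.elem (κ z) = z := fun z => (P.mem_order.mp z.2).choose_spec
  let f : P.order → Matrix (Fin 2) (Fin 2) (ZMod p) := fun z =>
    P.matModP p a b w₀ w₁ fun i => (κ z i : ZMod p)
  have hf : ∀ (z : P.order) v, P.elem v = z → f z = P.matModP p a b w₀ w₁ fun i => (v i : ZMod p) :=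
    fun z v h => by simp only [f, P.elem_injective ((hκ z).trans h.symm)]
  let π : P.order →+* Matrix (Fin 2) (Fin 2) (ZMod p) :=
    { toFun := f
      map_one' := by
        rw [hf 1 _ P.elem_one]
        simp [matModP, Matrix.one_fin_two]
      map_mul' := fun z w => by
        rw [hf (z * w) (P.mulCoord (κ z) (κ w)) (by rw [← P.elem_mul, hκ, hκ]; rfl),
          P.matModP_mul p hw]
      map_zero' := by
        rw [hf 0 _ P.elem_zero]
        have h := P.matModP_add p a b w₀ w₁ 0 0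
        rw [add_zero, left_eq_add] at h
        exact (congrArg _ (_root_.funext fun _ => Int.cast_zero)).trans h
      map_add' := fun z w => by
        rw [hf (z + w) (κ z + κ w) (by rw [P.elem_add, hκ, hκ]; rfl)]
        exact (congrArg _ (_root_.funext fun i => Int.cast_add (κ z i) (κ w i))).trans
          (P.matModP_add p a b w₀ w₁ _ _) }
  have hinj : Function.Injective (P.matModP p a b w₀ w₁) := fun v w h => by
    refine sub_eq_zero.mp (P.matModP_injective p hD he hw ?_)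
    have h' := P.matModP_add p a b w₀ w₁ (v - w) w
    rwa [sub_add_cancel, h, right_eq_add] at h'
  have hbij : Function.Bijective (P.matModP p a b w₀ w₁) :=
    (Fintype.bijective_iff_injective_and_card _).mpr ⟨hinj, by
      show Fintype.card (Fin 4 → ZMod p) = Fintype.card (Fin 2 → Fin 2 → ZMod p)
      simp only [Fintype.card_fun, Fintype.card_fin, ← pow_mul]⟩
  refine ⟨π, fun m => ?_, fun z => ⟨fun h => ?_, ?_⟩, fun z n hn => ?_⟩
  · obtain ⟨v, rfl⟩ := hbij.2 m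
    refine ⟨⟨_, P.elem_mem fun i => (v i).val⟩, ?_⟩
    show f _ = _
    rw [hf _ (fun i => ((v i).val : ℤ)) rfl]
    simp
  · have hv : (fun i => (κ z i : ZMod p)) = 0 := P.matModP_injective p hD he hw h
    choose w hw' using fun i => (ZMod.intCast_zmod_eq_zero_iff_dvd _ _).mp (congrFun hv i)
    refine ⟨P.elem w, P.elem_mem w, ?_⟩
    rw [← natCast_zsmul, ← P.elem_smul, ← hκ z]
    exact congrArg _ (funext fun i => by simpa using hw' i)
  · rintro ⟨w, hwm, hz⟩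
    rw [show z = (p : ℕ) • (⟨w, hwm⟩ : P.order) from Subtype.ext hz, map_nsmul, ← Nat.cast_smul_eq_nsmul (ZMod p),
      ZMod.natCast_self, zero_smul]
  · show (f z).det = _
    rw [P.matModP_det p hw]
    have h1 : ((P.g₀ (κ z 0) (κ z 1) + P.e * P.g (κ z 2) (κ z 3) : ℤ) : ℚ) = n := by
      rw [← P.nrd_elem, hκ, hn]
    rw [show P.g₀ (κ z 0) (κ z 1) + P.e * P.g (κ z 2) (κ z 3) = n from Int.cast_injective h1]

theorem natCast_ne_zero_of_not_dvd {c : ℕ} (hc : ¬(p : ℕ) ∣ c) : (c : ZMod p) ≠ 0 :=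
  fun h => hc ((ZMod.natCast_eq_zero_iff c p).mp h)

/-- The local form: reduction of the local order, detecting units by the determinant. -/
theorem exists_local_modP (hD : ¬((p : ℕ) : ℤ) ∣ P.D) (he : ¬((p : ℕ) : ℤ) ∣ P.e) :
    ∃ π : P.localOrder p →+* Matrix (Fin 2) (Fin 2) (ZMod p), Function.Surjective π ∧
      (∀ z, π z = 0 ↔ ∃ w ∈ P.localOrder p, (z : P.B) = (p : ℕ) • w) ∧
      ∀ z : P.localOrder p, (z : P.B) ≠ 0 → ((π z).det = 0 ↔ P.vp p z ≠ 0) := by
  obtain ⟨π, hπ, hker, hdet⟩ := P.exists_modP p hD he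
  let f : P.localOrder p → Matrix (Fin 2) (Fin 2) (ZMod p) := fun z =>
    ((z.2.choose : ℕ) : ZMod p)⁻¹ • π ⟨_, z.2.choose_spec.2⟩
  have hf : ∀ (z : P.localOrder p) (c : ℕ) (y : P.order), ¬(p : ℕ) ∣ c → (y : P.B) = c • (z : P.B) →
      f z = (c : ZMod p)⁻¹ • π y := fun z c y hc hy => by
    have h0 := natCast_ne_zero_of_not_dvd p z.2.choose_spec.1
    have h1 := natCast_ne_zero_of_not_dvd p hc
    have h := congrArg π (show c • (⟨_, z.2.choose_spec.2⟩ : P.order) = z.2.choose • y from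
      Subtype.ext (by
        show c • z.2.choose • (z : P.B) = z.2.choose • (y : P.B)
        rw [hy, smul_comm]))
    rw [map_nsmul, map_nsmul] at h
    replace h := (Nat.cast_smul_eq_nsmul (ZMod p) c _).trans
      (h.trans (Nat.cast_smul_eq_nsmul (ZMod p) _ _).symm)
    show _ • _ = _
    rw [eq_inv_smul_iff₀ h1, smul_comm (c : ZMod p) ((z.2.choose : ZMod p))⁻¹, h, smul_smul,
      inv_mul_cancel₀ h0, one_smul]
  let πl : P.localOrder p →+* Matrix (Fin 2) (Fin 2) (ZMod p) :=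
    { toFun := f
      map_one' := by rw [hf 1 1 1 p.2.not_dvd_one (one_smul ℕ (1 : P.B)).symm]; simp
      map_mul' := fun z w => by
        obtain ⟨c, hc, hzc⟩ := z.2
        obtain ⟨d, hd, hwd⟩ := w.2
        have hy : (((⟨_, hzc⟩ : P.order) * ⟨_, hwd⟩ : P.order) : P.B) =
            (c * d) • ((z * w : P.localOrder p) : P.B) :=
          smul_mul_smul_comm c (z : P.B) d (w : P.B)
        rw [hf z c ⟨_, hzc⟩ hc rfl, hf w d ⟨_, hwd⟩ hd rfl,
          hf (z * w) (c * d) _ (p.2.not_dvd_mul hc hd) hy, RingHom.map_mul, smul_mul_smul_comm,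
          Nat.cast_mul, _root_.mul_inv_rev, mul_comm (c : ZMod p)⁻¹]
      map_zero' := by rw [hf 0 1 0 p.2.not_dvd_one (smul_zero _).symm]; simp
      map_add' := fun z w => by
        obtain ⟨c, hc, hzc⟩ := z.2
        obtain ⟨d, hd, hwd⟩ := w.2
        have hy : ((d • ⟨_, hzc⟩ + c • ⟨_, hwd⟩ : P.order) : P.B) = (c * d) • ((z + w : P.localOrder p) : P.B) := by
          show d • c • (z : P.B) + c • d • (w : P.B) = _
          rw [smul_smul, smul_smul, mul_comm d c, ← smul_add]; rfl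
        rw [hf z c ⟨_, hzc⟩ hc rfl, hf w d ⟨_, hwd⟩ hd rfl,
          hf (z + w) (c * d) _ (p.2.not_dvd_mul hc hd) hy, RingHom.map_add, map_nsmul, map_nsmul]
        generalize π ⟨_, hzc⟩ = A
        generalize π ⟨_, hwd⟩ = A'
        rw [← Nat.cast_smul_eq_nsmul (ZMod p), ← Nat.cast_smul_eq_nsmul (ZMod p), smul_add, smul_smul, smul_smul, Nat.cast_mul]
        have h0 := natCast_ne_zero_of_not_dvd p hc
        have h1 := natCast_ne_zero_of_not_dvd p hd
        congr 2 <;> field_simp }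
  refine ⟨πl, fun m => ?_, fun z => ⟨fun h => ?_, ?_⟩, fun z hz => ?_⟩
  · obtain ⟨y, rfl⟩ := hπ m
    exact ⟨⟨y, P.order_le_localOrder p y.2⟩, (hf _ 1 y p.2.not_dvd_one (one_smul _ _).symm).trans (by simp)⟩
  · obtain ⟨c, hc, hzc⟩ := z.2
    have h' : (c : ZMod p)⁻¹ • π ⟨_, hzc⟩ = 0 := (hf z c ⟨_, hzc⟩ hc rfl).symm.trans h
    obtain ⟨w, hw, e⟩ := (hker _).mp ((smul_eq_zero.mp h').resolve_left
      (inv_ne_zero (natCast_ne_zero_of_not_dvd p hc)))
    have hc0 : (c : ℚ) ≠ 0 := Nat.cast_ne_zero.mpr fun e => hc (e ▸ dvd_zero _)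
    refine ⟨(c : ℚ)⁻¹ • w, P.smul_mem_localOrder_of_not_dvd_den p ?_ (P.order_le_localOrder p hw), ?_⟩
    · rw [Rat.inv_natCast_den_of_pos (Nat.pos_of_ne_zero (by rintro rfl; exact hc (dvd_zero _)))]
      exact hc
    · rw [smul_comm, ← show c • (z : P.B) = (p : ℕ) • w from e, ← Nat.cast_smul_eq_nsmul ℚ c,
        smul_smul, inv_mul_cancel₀ hc0, one_smul]
  · rintro ⟨w, hwm, hzw⟩
    rw [show z = (p : ℕ) • (⟨w, hwm⟩ : P.localOrder p) from Subtype.ext hzw, map_nsmul,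
      ← Nat.cast_smul_eq_nsmul (ZMod p), ZMod.natCast_self, zero_smul]
  · obtain ⟨c, hc, hzc⟩ := z.2
    obtain ⟨n, hn⟩ := P.exists_nrd_eq_intCast hzc
    have hc0 : (c : ℚ) ≠ 0 := Nat.cast_ne_zero.mpr fun e => hc (e ▸ dvd_zero _)
    have hvn : P.vp p z = padicValInt p n := by
      rw [← Nat.cast_smul_eq_nsmul ℚ, nrd_smul] at hn
      have h1 := congrArg (padicValRat (p : ℕ)) hn
      rw [padicValRat.mul (pow_ne_zero 2 hc0) (P.nrd_pos hz).ne', padicValRat.pow,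
        padicValRat.of_nat, padicValNat.eq_zero_of_not_dvd hc, padicValRat.of_int] at h1
      simpa [vp] using h1
    have hn0 : n ≠ 0 := fun h0 => by
      rw [h0, ← Nat.cast_smul_eq_nsmul ℚ, nrd_smul, Int.cast_zero] at hn
      exact mul_ne_zero (pow_ne_zero 2 hc0) (P.nrd_pos hz).ne' hn
    show (f z).det = 0 ↔ _
    rw [hf z c ⟨_, hzc⟩ hc rfl, det_smul, mul_eq_zero,
      hdet ⟨_, hzc⟩ n hn, ZMod.intCast_zmod_eq_zero_iff_dvd, hvn, ← pow_one ((p : ℕ) : ℤ),
      padicValInt_dvd_iff]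
    simp [natCast_ne_zero_of_not_dvd p hc, hn0, Nat.one_le_iff_ne_zero]

section Tree

variable {P p}

theorem nrd_add_natCast_smul (z s : P.B) (n : ℕ) :
    P.nrd (z + n • s) = (1 - n) * P.nrd z + (n ^ 2 - n) * P.nrd s + n * P.nrd (z + s) := by
  rw [← Nat.cast_smul_eq_nsmul ℚ]
  simp only [nrd_def, QuaternionAlgebra.re_add, QuaternionAlgebra.imI_add, QuaternionAlgebra.imJ_add,
    QuaternionAlgebra.imK_add, QuaternionAlgebra.re_smul, QuaternionAlgebra.imI_smul,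
    QuaternionAlgebra.imJ_smul, QuaternionAlgebra.imK_smul,
    smul_eq_mul]
  ring

theorem vp_natCast_smul {z : P.B} (hz : z ≠ 0) : P.vp p ((p : ℕ) • z) = P.vp p z + 2 := by
  have hp0 : ((p : ℕ) : ℚ) ≠ 0 := Nat.cast_ne_zero.mpr p.2.ne_zero
  rw [vp, ← Nat.cast_smul_eq_nsmul ℚ, nrd_smul, padicValRat.mul (pow_ne_zero 2 hp0) (P.nrd_pos hz).ne',
    padicValRat.pow, padicValRat.self p.2.one_lt, vp, add_comm]
  rfl

theorem ne_natCast_smul_of_cell_one {y : P.Bˣ} (hy : y ∈ P.cell p 1) {t : P.B}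
    (ht : t ∈ P.localOrder p) : (y : P.B) ≠ (p : ℕ) • t := fun h => by
  have ht0 : t ≠ 0 := fun e => y.ne_zero (by rw [h, e, smul_zero])
  have h1 := hy.2
  rw [h, vp_natCast_smul ht0] at h1
  have := P.vp_nonneg p ht
  omega

theorem inv_mul_mem_cell_iff {y w : P.Bˣ} (hy : y ∈ P.cell p 1) {v : ℕ} (hw : w ∈ P.cell p (v + 1)) :
    y⁻¹ * w ∈ P.cell p v ↔ ((y⁻¹ * w : P.Bˣ) : P.B) ∈ P.localOrder p :=
  ⟨fun h => h.1, fun h => ⟨h, by rw [vp_coe_mul, vp_inv, hy.2, hw.2]; push_cast; ring⟩⟩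

/-- A multiple of `p` is left divisible by every element of norm valuation one. -/
theorem inv_mul_natCast_smul_mem {y : P.Bˣ} (hy : y ∈ P.cell p 1) {t : P.B}
    (ht : t ∈ P.localOrder p) : ((y⁻¹ : P.Bˣ) : P.B) * (p : ℕ) • t ∈ P.localOrder p := by
  rw [coe_inv, ← Nat.cast_smul_eq_nsmul ℚ, mul_smul_comm, smul_mul_assoc, smul_smul]
  refine P.smul_mem_localOrder_of_not_dvd_den p (not_dvd_den_of_nonneg p ?_)
    (mul_mem (P.star_mem_localOrder p hy.1) ht)
  have h := hy.2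
  rw [vp] at h
  rw [padicValRat.mul (Nat.cast_ne_zero.mpr p.2.ne_zero) (inv_ne_zero (P.nrd_unit_pos y).ne'),
    padicValRat.self p.2.one_lt, padicValRat.inv, h]
  norm_num

section Reduction

variable {π : P.localOrder p →+* Matrix (Fin 2) (Fin 2) (ZMod p)}
  (hπ : Function.Surjective π)
  (hker : ∀ z, π z = 0 ↔ ∃ w ∈ P.localOrder p, (z : P.B) = (p : ℕ) • w)
  (hdet : ∀ z : P.localOrder p, (z : P.B) ≠ 0 → ((π z).det = 0 ↔ P.vp p z ≠ 0))

include hπ hker hdet

omit hπ hker in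
theorem exists_line {w : P.Bˣ} {v : ℕ} (hw : w ∈ P.cell p (v + 1)) :
    ∃ t r, π ⟨w, hw.1⟩ = vecMulVec (Plane.vec t) r :=
  Plane.exists_eq_vecMulVec ((hdet ⟨w, hw.1⟩ w.ne_zero).mpr (by
    show P.vp p w ≠ 0
    rw [hw.2]; omega))

omit hdet in
theorem inv_mul_mem_of_line {y w : P.Bˣ} (hy : y ∈ P.cell p 1) (hw : (w : P.B) ∈ P.localOrder p)
    {t : Option (ZMod p)} {r r' : Fin 2 → ZMod p} (hr : π ⟨y, hy.1⟩ = vecMulVec (Plane.vec t) r)
    (hr' : π ⟨w, hw⟩ = vecMulVec (Plane.vec t) r') :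
    ((y⁻¹ * w : P.Bˣ) : P.B) ∈ P.localOrder p := by
  have hr0 : r ≠ 0 := fun e => by
    obtain ⟨t', ht', he⟩ := (hker ⟨y, hy.1⟩).mp (by rw [hr, e]; ext i j; simp [vecMulVec_apply])
    exact ne_natCast_smul_of_cell_one hy ht' he
  obtain ⟨T, hT⟩ := Plane.exists_mul_eq_vecMulVec (Plane.vec t) hr0 r'
  obtain ⟨z, rfl⟩ := hπ T
  obtain ⟨s, hs, e⟩ := (hker (⟨w, hw⟩ - ⟨y, hy.1⟩ * z)).mp (by
    rw [RingHom.map_sub, RingHom.map_mul, hr, hT, hr', sub_self])
  have e' : (w : P.B) = (y : P.B) * z + (p : ℕ) • s := by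
    rw [← show (w : P.B) - (y : P.B) * z = (p : ℕ) • s from e]; abel
  rw [Units.val_mul, e', mul_add, Units.inv_mul_cancel_left]
  exact add_mem z.2 (inv_mul_natCast_smul_mem hy hs)

omit hπ hker hdet in
theorem line_eq_of_inv_mul_mem {y w : P.Bˣ} (hy : (y : P.B) ∈ P.localOrder p)
    (hw : (w : P.B) ∈ P.localOrder p) (h : ((y⁻¹ * w : P.Bˣ) : P.B) ∈ P.localOrder p)
    (hne : π ⟨w, hw⟩ ≠ 0) {t t' : Option (ZMod p)} {r r' : Fin 2 → ZMod p}
    (hr : π ⟨y, hy⟩ = vecMulVec (Plane.vec t) r) (hr' : π ⟨w, hw⟩ = vecMulVec (Plane.vec t') r') :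
    t = t' := by
  have e : (⟨w, hw⟩ : P.localOrder p) = ⟨y, hy⟩ * ⟨_, h⟩ := Subtype.ext (by
    show (w : P.B) = (y : P.B) * ((y⁻¹ * w : P.Bˣ) : P.B)
    rw [Units.val_mul, Units.mul_inv_cancel_left])
  have e2 := congrArg π e
  rw [RingHom.map_mul, hr, vecMulVec_mul, hr'] at e2
  refine (Plane.eq_of_vecMulVec_eq e2 fun hr0 => hne ?_).symm
  rw [hr', hr0]; ext i j; simp [vecMulVec_apply]

omit hπ hker hdet in
theorem mk_eq_mk_iff {y y' : P.Bˣ} (hy : y ∈ P.cell p 1) (hy' : y' ∈ P.cell p 1) :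
    (QuotientGroup.mk y : P.Bˣ ⧸ P.localUnits p) = QuotientGroup.mk y' ↔
      ((y⁻¹ * y' : P.Bˣ) : P.B) ∈ P.localOrder p := by
  rw [QuotientGroup.eq, ← SetLike.mem_coe, ← cell_zero, inv_mul_mem_cell_iff hy hy']

omit hker in
theorem exists_cell_one_line (t : Option (ZMod p)) :
    ∃ (y : P.Bˣ) (hy : y ∈ P.cell p 1) (r : Fin 2 → ZMod p),
      π ⟨y, hy.1⟩ = vecMulVec (Plane.vec t) r := by
  -- an element of norm valuation one above a projection
  obtain ⟨z, hz⟩ := hπ !![1, 0; 0, 0]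
  obtain ⟨s, hs⟩ := hπ !![0, 0; 0, 1]
  have hp0 : ((p : ℕ) : ℚ) ≠ 0 := Nat.cast_ne_zero.mpr p.2.ne_zero
  have hne : ∀ x : P.localOrder p, π x ≠ 0 → (x : P.B) ≠ 0 := fun x hx e =>
    hx (by rw [show x = 0 from Subtype.ext e, RingHom.map_zero])
  have hzs : π (z + s) = 1 := by
    rw [RingHom.map_add, hz, hs]; ext i j; fin_cases i <;> fin_cases j <;> simp
  have hzs0 : ((z + s : P.localOrder p) : P.B) ≠ 0 := hne _ (by rw [hzs]; exact one_ne_zero)
  have hz0 : (z : P.B) ≠ 0 := hne _ (by rw [hz]; intro e; simpa using congrFun (congrFun e 0) 0)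
  have hs0 : (s : P.B) ≠ 0 := hne _ (by rw [hs]; intro e; simpa using congrFun (congrFun e 1) 1)
  have v1 : P.vp p ((z + s : P.localOrder p) : P.B) = 0 := by
    by_contra h
    simpa [hzs] using (hdet _ hzs0).mpr h
  have v2 : P.vp p (z : P.B) ≠ 0 := (hdet _ hz0).mp (by rw [hz]; simp [det_fin_two])
  have v3 : P.vp p (s : P.B) ≠ 0 := (hdet _ hs0).mp (by rw [hs]; simp [det_fin_two])
  obtain ⟨x, hx0, hx1, hxπ⟩ : ∃ x : P.localOrder p, (x : P.B) ≠ 0 ∧ P.vp p x = 1 ∧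
      π x = !![1, 0; 0, 0] := by
    by_cases h1 : P.vp p (z : P.B) = 1
    · exact ⟨z, hz0, h1, hz⟩
    have hπ' : π (z + (p : ℕ) • s) = !![1, 0; 0, 0] := by
      rw [RingHom.map_add, map_nsmul, ← Nat.cast_smul_eq_nsmul (ZMod p), ZMod.natCast_self, zero_smul,
        add_zero, hz]
    refine ⟨z + (p : ℕ) • s, hne _ (by rw [hπ']; intro e; simpa using congrFun (congrFun e 0) 0), ?_, hπ'⟩
    have v2' := P.vp_nonneg p z.2
    have v3' := P.vp_nonneg p s.2
    show padicValRat p (P.nrd ((z : P.B) + (p : ℕ) • (s : P.B))) = 1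
    rw [nrd_add_natCast_smul]
    have hC : padicValRat (p : ℕ) (((p : ℕ) : ℚ) * P.nrd ((z : P.B) + s)) = 1 := by
      show padicValRat (p : ℕ) (((p : ℕ) : ℚ) * P.nrd ((z + s : P.localOrder p) : P.B)) = 1
      rw [padicValRat.mul hp0 (P.nrd_pos hzs0).ne', padicValRat.self p.2.one_lt]
      exact (congrArg ((1 : ℤ) + ·) v1).trans (add_zero 1)
    have h1p : ((1 : ℚ) - (p : ℕ)) ≠ 0 := sub_ne_zero.mpr fun e =>
      p.2.ne_one (by exact_mod_cast e.symm)
    have hp1 : padicValRat (p : ℕ) (1 - ((p : ℕ) : ℚ)) = 0 := by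
      have e : (1 : ℚ) - ((p : ℕ) : ℚ) = -(((p : ℕ) - 1 : ℕ) : ℚ) := by
        rw [Nat.cast_sub p.2.one_le]; push_cast; ring
      rw [e, padicValRat.neg, padicValRat.of_nat, Nat.cast_eq_zero,
        padicValNat.eq_zero_of_not_dvd]
      intro h
      have := p.2.two_le
      have := Nat.le_of_dvd (by omega) h
      omega
    have hA : 2 ≤ padicValRat (p : ℕ) ((1 - ((p : ℕ) : ℚ)) * P.nrd (z : P.B)) := by
      rw [padicValRat.mul h1p (P.nrd_pos hz0).ne', hp1, zero_add]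
      show 2 ≤ P.vp p (z : P.B)
      omega
    have hB : 2 ≤ padicValRat (p : ℕ) ((((p : ℕ) : ℚ) ^ 2 - (p : ℕ)) * P.nrd (s : P.B)) := by
      rw [show ((p : ℕ) : ℚ) ^ 2 - (p : ℕ) = (p : ℕ) * -(1 - ((p : ℕ) : ℚ)) by ring,
        padicValRat.mul (mul_ne_zero hp0 (neg_ne_zero.mpr h1p)) (P.nrd_pos hs0).ne',
        padicValRat.mul hp0 (neg_ne_zero.mpr h1p), padicValRat.neg, hp1,
        padicValRat.self p.2.one_lt]
      show 2 ≤ 1 + 0 + P.vp p (s : P.B)
      omega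
    set A := (1 - ((p : ℕ) : ℚ)) * P.nrd (z : P.B)
    set B' := (((p : ℕ) : ℚ) ^ 2 - (p : ℕ)) * P.nrd (s : P.B)
    set C' := ((p : ℕ) : ℚ) * P.nrd ((z : P.B) + s)
    have hC0 : C' ≠ 0 := fun e => by simp [e] at hC
    by_cases hAB : A + B' = 0
    · rw [hAB, zero_add, hC]
    · have h2 : 2 ≤ padicValRat (p : ℕ) (A + B') :=
        le_trans (le_min hA hB) (padicValRat.min_le_padicValRat_add hAB)
      have hne' : A + B' + C' ≠ 0 := fun e => by
        rw [show A + B' = -C' by linear_combination e, padicValRat.neg, hC] at h2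
        omega
      rw [padicValRat.add_eq_min hne' hAB hC0 (by omega)]
      omega
  obtain ⟨G, hG, hGv⟩ := Plane.exists_det_ne_zero t
  obtain ⟨u, rfl⟩ := hπ G
  have hu0 : (u : P.B) ≠ 0 := hne u fun e => hG (by rw [e, det_zero])
  have hu : P.vp p (u : P.B) = 0 := by_contra fun h => hG ((hdet u hu0).mpr h)
  refine ⟨P.unitOf _ hu0 * P.unitOf _ hx0, ⟨?_, ?_⟩, ![1, 0], ?_⟩
  · rw [Units.val_mul]; exact mul_mem u.2 x.2
  · rw [vp_coe_mul, coe_unitOf, coe_unitOf, hu, hx1]; rfl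
  · show π (u * x) = _
    rw [RingHom.map_mul, hxπ, ← hGv, show (!![1, 0; 0, 0] : Matrix (Fin 2) (Fin 2) (ZMod p)) =
      vecMulVec ![1, 0] ![1, 0] from by ext i j; fin_cases i <;> fin_cases j <;> simp [vecMulVec_apply],
      mul_vecMulVec]

end Reduction

end Tree

/-- The cosets of norm valuation one. -/
def cosets₁ : Set (P.Bˣ ⧸ P.localUnits p) := QuotientGroup.mk '' P.cell p 1

/-- There are `p + 1` cosets of norm valuation one. -/
theorem ncard_cosets₁ (hD : ¬((p : ℕ) : ℤ) ∣ P.D) (he : ¬((p : ℕ) : ℤ) ∣ P.e) :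
    (P.cosets₁ p).ncard = p + 1 := by
  obtain ⟨π, hπ, hker, hdet⟩ := P.exists_local_modP p hD he
  choose y hy r hr using fun t => exists_cell_one_line hπ hdet t
  have hne : ∀ t, π ⟨y t, (hy t).1⟩ ≠ 0 := fun t h => by
    obtain ⟨t', ht', e⟩ := (hker _).mp h
    exact ne_natCast_smul_of_cell_one (hy t) ht' e
  have hrange : Set.range (fun t => (QuotientGroup.mk (y t) : P.Bˣ ⧸ P.localUnits p)) =
      P.cosets₁ p := by
    refine Set.Subset.antisymm (Set.range_subset_iff.mpr fun t => ⟨y t, hy t, rfl⟩) ?_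
    rintro _ ⟨z, hz, rfl⟩
    obtain ⟨t, r', hr'⟩ := exists_line hdet (v := 0) hz
    exact ⟨t, (mk_eq_mk_iff (hy t) hz).mpr
      (inv_mul_mem_of_line hπ hker (hy t) hz.1 (hr t) hr')⟩
  rw [← hrange, Set.ncard_range_of_injective fun t t' h => ?_, Nat.card_eq_fintype_card,
    Fintype.card_option, ZMod.card]
  exact line_eq_of_inv_mul_mem (hy t).1 (hy t').1
    ((mk_eq_mk_iff (hy t) (hy t')).mp h) (hne t') (hr t) (hr t')

/-- An element not divisible by `p` has exactly one left divisor of norm valuation one. -/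
theorem existsUnique_coset_dvd (hD : ¬((p : ℕ) : ℤ) ∣ P.D) (he : ¬((p : ℕ) : ℤ) ∣ P.e) {v : ℕ}
    {w : P.Bˣ} (hw : w ∈ P.cell p (v + 1))
    (hndvd : ¬∃ t ∈ P.localOrder p, (w : P.B) = (p : ℕ) • t) :
    ∃ y ∈ P.cell p 1, y⁻¹ * w ∈ P.cell p v ∧
      ∀ y' ∈ P.cell p 1, ((y'⁻¹ * w : P.Bˣ) : P.B) ∈ P.localOrder p →
        (QuotientGroup.mk y' : P.Bˣ ⧸ P.localUnits p) = QuotientGroup.mk y := by
  obtain ⟨π, hπ, hker, hdet⟩ := P.exists_local_modP p hD he
  have hne : π ⟨w, hw.1⟩ ≠ 0 := fun h => hndvd ((hker _).mp h)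
  obtain ⟨t, r, hr⟩ := exists_line hdet hw
  obtain ⟨y, hy, r₁, hr₁⟩ := exists_cell_one_line hπ hdet t
  refine ⟨y, hy, (inv_mul_mem_cell_iff hy hw).mpr
    (inv_mul_mem_of_line hπ hker hy hw.1 hr₁ hr), fun y' hy' h => ?_⟩
  obtain ⟨t', r', hr'⟩ := exists_line hdet (v := 0) hy'
  obtain rfl := line_eq_of_inv_mul_mem hy'.1 hw.1 h hne hr' hr
  exact (mk_eq_mk_iff hy' hy).mpr (inv_mul_mem_of_line hπ hker hy' hy.1 hr' hr₁)

end Param

end Fermat.Agent.Two.Brandt

end
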