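import Fermat.Agent.Two.Brandt.Lattice
import Mathlib.LinearAlgebra.Matrix.NonsingularInverse
import Mathlib.LinearAlgebra.Matrix.ToLinearEquiv
import Mathlib.LinearAlgebra.FreeModule.PID
import Mathlib.LinearAlgebra.BilinearMap
import Mathlib.LinearAlgebra.Dimension.StrongRankCondition
import Mathlib.LinearAlgebra.Dimension.Free
import Mathlib.LinearAlgebra.FreeModule.StrongRankCondition
import Mathlib.Algebra.BigOperators.Field
import Mathlib.Tactic.FinCases

/-!
# Gram matrices of the lattices and counting of neighbours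

The norm form of a lattice has an even Gram matrix of square determinant and level dividing
`-D e`; the matrix entries of the Hecke correspondences count its representations.
-/

set_option autoImplicit false

noncomputable section

namespace Fermat.Agent.Two.Brandt.Param

variable {P : Param}

variable (P) in
/-- The polar form as a bilinear map. -/
def polL : P.B →ₗ[ℚ] P.B →ₗ[ℚ] ℚ :=
  LinearMap.mk₂ ℚ P.pol pol_add_left (fun r z w => by rw [pol_smul_left, smul_eq_mul])
    (fun z w w' => by rw [pol_comm, pol_add_left, pol_comm w, pol_comm w'])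
    (fun r z w => by rw [pol_comm, pol_smul_left, pol_comm, smul_eq_mul])

theorem polL_apply (z w : P.B) : P.polL z w = P.pol z w := rfl

theorem pol_sum_sum {ι : Type*} [Fintype ι] (a a' : ι → ℚ) (b : ι → P.B) :
    P.pol (∑ i, a i • b i) (∑ j, a' j • b j) = ∑ i, ∑ j, a i * (a' j * P.pol (b i) (b j)) := by
  rw [← polL_apply, map_sum (P.polL), LinearMap.sum_apply]
  refine Finset.sum_congr rfl fun i _ => ?_
  rw [map_smul, LinearMap.smul_apply, map_sum, Finset.smul_sum]
  refine Finset.sum_congr rfl fun j _ => ?_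
  rw [map_smul, polL_apply, smul_eq_mul, smul_eq_mul]

namespace Sub

open Matrix

variable {Λ : P.Sub}

/-- Coordinates on a lattice. -/
structure Frame (x y : Pt Λ.level) where
  toHom : (Fin 4 → ℤ) →+ P.B
  injective : Function.Injective toHom
  range_eq : toHom.range = Λ.lattice x y

theorem nonempty_frame (x y : Pt Λ.level) : Nonempty (Frame x y) := by
  classical
  obtain ⟨c, hc, hsub, hout⟩ := exists_sandwich x y
  have hc' : (c : ℚ) ≠ 0 := Nat.cast_ne_zero.mpr hc
  let N : Submodule ℤ (Fin 4 → ℤ) :=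
    { carrier := {v | ∃ z ∈ Λ.lattice x y, P.elem v = c • z}
      zero_mem' := ⟨0, zero_mem _, by rw [P.elem_zero, smul_zero]⟩
      add_mem' := fun {a b} ⟨z, hz, h⟩ ⟨w, hw, h'⟩ =>
        ⟨z + w, add_mem hz hw, by rw [P.elem_add, h, h', smul_add]⟩
      smul_mem' := fun n a ⟨z, hz, h⟩ =>
        ⟨n • z, zsmul_mem hz n, by rw [P.elem_smul, h, smul_comm]⟩ }
  have hN : Module.finrank ℤ N = 4 := by
    refine le_antisymm ((Submodule.finrank_le N).trans (by rw [Module.finrank_fin_fun])) ?_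
    let g : (Fin 4 → ℤ) →ₗ[ℤ] N := LinearMap.codRestrict N (((c * c : ℕ) : ℤ) • LinearMap.id)
      fun v => ⟨c • P.elem v, hsub _ (P.elem_mem v), by
        rw [LinearMap.smul_apply, LinearMap.id_apply, P.elem_smul, natCast_zsmul, mul_smul]⟩
    have hg : Function.Injective g := fun a b h => by
      have h' : ((c * c : ℕ) : ℤ) • a = ((c * c : ℕ) : ℤ) • b := congrArg Subtype.val h
      exact smul_right_injective _ (Int.natCast_ne_zero.mpr (mul_ne_zero hc hc)) h'
    have := LinearMap.finrank_le_finrank_of_injective hg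
    rwa [Module.finrank_fin_fun] at this
  let b := Module.finBasisOfFinrankEq ℤ N hN
  choose z hz hzb using fun i => (b i).2
  let f : (Fin 4 → ℤ) →ₗ[ℤ] P.B := Fintype.linearCombination ℤ z
  have key : ∀ v, c • f v = P.elem ((∑ i, v i • b i : N) : Fin 4 → ℤ) := fun v => by
    let E : (Fin 4 → ℤ) →+ P.B := AddMonoidHom.mk' P.elem P.elem_add
    show _ = E _
    rw [Fintype.linearCombination_apply, Finset.smul_sum, Submodule.coe_sum, map_sum]
    refine Finset.sum_congr rfl fun i _ => ?_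
    rw [Submodule.coe_smul, map_zsmul, smul_comm]
    exact congrArg (v i • ·) (hzb i).symm
  refine ⟨⟨f.toAddMonoidHom, fun u v h => ?_, le_antisymm ?_ fun w hw => ?_⟩⟩
  · have h' : c • f u = c • f v := congrArg (c • ·) h
    rw [key, key] at h'
    have h'' := congrArg b.equivFun (Subtype.ext (P.elem_injective h'))
    rwa [← b.equivFun_symm_apply, ← b.equivFun_symm_apply, LinearEquiv.apply_symm_apply,
      LinearEquiv.apply_symm_apply] at h''
  · rintro _ ⟨v, rfl⟩
    show f v ∈ _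
    rw [Fintype.linearCombination_apply]
    exact sum_mem fun i _ => zsmul_mem (hz i) _
  · obtain ⟨u, hu⟩ := hout w hw
    refine ⟨b.equivFun ⟨u, w, hw, hu⟩, ?_⟩
    show f _ = w
    have h := key (b.equivFun ⟨u, w, hw, hu⟩)
    rw [b.sum_equivFun] at h
    rw [← Nat.cast_smul_eq_nsmul ℚ] at h
    refine smul_right_injective P.B hc' ?_
    show (c : ℚ) • _ = (c : ℚ) • w
    rw [h, Nat.cast_smul_eq_nsmul ℚ]
    exact hu

/-- Chosen coordinates. -/
def frame (x y : Pt Λ.level) : Frame x y := (nonempty_frame x y).some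

variable {x y : Pt Λ.level} (F : Frame x y)

theorem Frame.mem (v : Fin 4 → ℤ) : F.toHom v ∈ Λ.lattice x y :=
  F.range_eq ▸ ⟨v, rfl⟩

theorem Frame.exists_eq {z : P.B} (hz : z ∈ Λ.lattice x y) : ∃ v, F.toHom v = z := by
  rw [← F.range_eq] at hz
  exact hz

/-- The basis vectors. -/
def Frame.vec (i : Fin 4) : P.B := F.toHom (Pi.single i 1)

theorem Frame.toHom_apply (v : Fin 4 → ℤ) : F.toHom v = ∑ i, (v i : ℚ) • F.vec i := by
  conv_lhs => rw [pi_eq_sum_univ' v]
  rw [map_sum]
  refine Finset.sum_congr rfl fun i _ => ?_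
  rw [map_zsmul, Frame.vec, Int.cast_smul_eq_zsmul]

/-- The Gram matrix. -/
def Frame.gram : Matrix (Fin 4) (Fin 4) ℤ :=
  Matrix.of fun i j => (P.pol (F.vec i) (F.vec j) * norm y / norm x).num

theorem exists_pol_eq {z w : P.B} (hz : z ∈ Λ.lattice x y) (hw : w ∈ Λ.lattice x y) :
    ∃ n : ℤ, P.pol z w * norm y / norm x = n := by
  obtain ⟨a, ha⟩ := exists_normForm_eq hz
  obtain ⟨b, hb⟩ := exists_normForm_eq hw
  obtain ⟨c, hc⟩ := exists_normForm_eq (add_mem hz hw)
  refine ⟨c - a - b, ?_⟩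
  push_cast
  rw [← ha, ← hb, ← hc, normForm, normForm, normForm, nrd_add]
  ring

theorem Frame.gram_cast (i j : Fin 4) :
    (F.gram i j : ℚ) = P.pol (F.vec i) (F.vec j) * norm y / norm x := by
  obtain ⟨n, hn⟩ := exists_pol_eq (F.mem (Pi.single i 1)) (F.mem (Pi.single j 1))
  rw [Frame.gram, Matrix.of_apply, Frame.vec, Frame.vec, hn, Rat.num_intCast]

theorem Frame.pol_toHom (v w : Fin 4 → ℤ) :
    P.pol (F.toHom v) (F.toHom w) * norm y / norm x = ((v ⬝ᵥ F.gram *ᵥ w : ℤ) : ℚ) := by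
  rw [F.toHom_apply, F.toHom_apply, pol_sum_sum]
  simp only [dotProduct, Matrix.mulVec, Int.cast_sum, Int.cast_mul, F.gram_cast, Finset.sum_mul,
    Finset.sum_div, Finset.mul_sum]
  refine Finset.sum_congr rfl fun i _ => Finset.sum_congr rfl fun j _ => ?_
  ring

/-- The quadratic form of the Gram matrix is twice the norm. -/
theorem Frame.two_mul_normForm (v : Fin 4 → ℤ) :
    2 * normForm x y (F.toHom v) = ((v ⬝ᵥ F.gram *ᵥ v : ℤ) : ℚ) := by
  rw [← F.pol_toHom, pol_self, normForm]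
  ring

theorem Frame.gram_isSymm : F.gram.IsSymm :=
  Matrix.IsSymm.ext fun i j => Rat.intCast_injective
    (by rw [F.gram_cast, F.gram_cast, pol_comm])

theorem Frame.gram_even (i : Fin 4) : Even (F.gram i i) := by
  obtain ⟨n, hn⟩ := exists_normForm_eq (F.mem (Pi.single i 1))
  refine ⟨n, Rat.intCast_injective ?_⟩
  rw [F.gram_cast, pol_self, Int.cast_add, ← hn, normForm, Frame.vec]
  ring

theorem Frame.gram_pos {v : Fin 4 → ℤ} (hv : v ≠ 0) : 0 < v ⬝ᵥ F.gram *ᵥ v := by
  have h : F.toHom v ≠ 0 := fun e => hv (F.injective (by rw [e, map_zero]))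
  have h' : 0 < 2 * normForm x y (F.toHom v) :=
    mul_pos two_pos (div_pos (mul_pos (P.nrd_pos h) (norm_pos y)) (norm_pos x))
  rw [F.two_mul_normForm] at h'
  exact_mod_cast h'

theorem Frame.det_gram_ne_zero : F.gram.det ≠ 0 := fun h => by
  obtain ⟨v, hv, hv'⟩ := Matrix.exists_mulVec_eq_zero_iff.mpr h
  have := F.gram_pos hv
  rw [hv', dotProduct_zero] at this
  exact this.false

/-- The determinant is a square. -/
theorem Frame.isSquare_det : IsSquare F.gram.det := by
  rw [← Rat.isSquare_intCast_iff]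
  set r : ℚ := norm y / norm x with hr
  let T : Matrix (Fin 4) (Fin 4) ℚ := Matrix.of fun k i =>
    ![(F.vec i).re, (F.vec i).imI, (F.vec i).imJ, (F.vec i).imK] k
  let G : Matrix (Fin 4) (Fin 4) ℚ :=
    !![2, 1, 0, 0; 1, -2 * (P.c : ℚ), 0, 0; 0, 0, 2 * ((P.e : ℚ) / P.M), (P.e : ℚ) / P.M;
      0, 0, (P.e : ℚ) / P.M, -2 * (P.c : ℚ) * ((P.e : ℚ) / P.M)]
  have hA : F.gram.map (Int.castRingHom ℚ) = r • (T.transpose * G * T) := by
    ext i j
    rw [Matrix.map_apply, eq_intCast, F.gram_cast, Matrix.smul_apply, smul_eq_mul]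
    simp only [Matrix.mul_apply, Matrix.transpose_apply, Fin.sum_univ_four]
    simp [T, G, pol, hr]
    ring
  have hG : G.det = ((P.D : ℚ) * ((P.e : ℚ) / P.M)) ^ 2 := by
    have hD : (P.D : ℚ) = 4 * P.c + 1 := by exact_mod_cast P.hc
    rw [hD]
    simp [G, Matrix.det_succ_row_zero, Fin.sum_univ_succ, Fin.succAbove]
    ring
  have h := congrArg Matrix.det hA
  rw [show (F.gram.map (Int.castRingHom ℚ)).det = (F.gram.det : ℚ) from
      ((Int.castRingHom ℚ).map_det F.gram).symm,
    Matrix.det_smul, Fintype.card_fin, Matrix.det_mul, Matrix.det_mul, Matrix.det_transpose,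
    hG] at h
  exact ⟨r ^ 2 * T.det * ((P.D : ℚ) * ((P.e : ℚ) / P.M)), by rw [h]; ring⟩

variable (P) in
/-- The level of the lattices. -/
def latticeLevel : ℕ := (P.D * P.e).natAbs

theorem latticeLevel_ne_zero : latticeLevel P ≠ 0 :=
  Int.natAbs_ne_zero.mpr (mul_ne_zero P.hD.ne P.he.ne')

theorem latticeLevel_cast : (latticeLevel P : ℤ) = -(P.D * P.e) :=
  Int.ofNat_natAbs_of_nonpos (mul_neg_of_neg_of_pos P.hD P.he).le

/-- **The adjoint form**: even, with `A * A' = N`. -/
theorem Frame.exists_adjoint : ∃ A' : Matrix (Fin 4) (Fin 4) ℤ,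
    F.gram * A' = (latticeLevel P : ℤ) • 1 ∧ ∀ i, Even (A' i i) := by
  classical
  set AQ := F.gram.map (Int.castRingHom ℚ) with hAQ
  have hdet : IsUnit AQ.det := by
    rw [hAQ, show (F.gram.map (Int.castRingHom ℚ)).det = (F.gram.det : ℚ) from
      ((Int.castRingHom ℚ).map_det F.gram).symm]
    exact isUnit_iff_ne_zero.mpr (Int.cast_ne_zero.mpr F.det_gram_ne_zero)
  let u : Fin 4 → P.B := fun j => ∑ k, AQ⁻¹ k j • F.vec k
  have hpair : ∀ j w, P.pol (u j) (F.toHom w) * norm y / norm x = (w j : ℚ) := fun j w => by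
    rw [F.toHom_apply, pol_sum_sum, Finset.sum_comm]
    have h1 : ∀ i, ∑ k, AQ⁻¹ k j * ((w i : ℚ) * P.pol (F.vec k) (F.vec i)) * norm y / norm x =
        (w i : ℚ) * (AQ * AQ⁻¹) i j := fun i => by
      rw [Matrix.mul_apply, Finset.mul_sum]
      refine Finset.sum_congr rfl fun k _ => ?_
      rw [hAQ, Matrix.map_apply, eq_intCast, F.gram_cast, pol_comm (F.vec i)]
      ring
    rw [Finset.sum_mul, Finset.sum_div]
    simp only [Finset.sum_mul, Finset.sum_div, h1, Matrix.mul_nonsing_inv _ hdet]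
    simp [Matrix.one_apply]
  choose hmem n hn using fun j => smul_mem_lattice_of_dual (z := u j) fun w hw => by
    obtain ⟨v, rfl⟩ := F.exists_eq hw
    exact ⟨v j, hpair j v⟩
  choose a ha using fun j => F.exists_eq (hmem j)
  refine ⟨Matrix.of fun k j => -a j k, Matrix.ext fun i j => ?_, fun j => ?_⟩
  · have h := F.pol_toHom (Pi.single i 1) (a j)
    rw [ha, pol_comm, pol_smul_left, mul_assoc, mul_div_assoc] at h
    rw [show P.pol (u j) (F.toHom (Pi.single i 1)) * norm y / norm x =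
      ((Pi.single i 1 : Fin 4 → ℤ) j : ℚ) from hpair j _, single_one_dotProduct] at h
    refine Rat.intCast_injective ?_
    rw [Matrix.mul_apply, Matrix.smul_apply, latticeLevel_cast, Matrix.one_apply]
    simp only [Matrix.of_apply, mul_neg, Finset.sum_neg_distrib]
    rw [show ∑ k, F.gram i k * a j k = (F.gram *ᵥ a j) i from rfl, Int.cast_neg, ← h,
      Pi.single_apply]
    by_cases hij : i = j
    · subst hij; simp
    · simp [hij, Ne.symm hij]
  · refine ⟨-n j, Rat.intCast_injective ?_⟩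
    have h := hpair j (a j)
    rw [ha, pol_comm, pol_smul_left, pol_self] at h
    have h' := hn j
    rw [normForm] at h'
    rw [Matrix.of_apply, Int.cast_neg, ← h, Int.cast_add, Int.cast_neg, ← h']
    ring

/-! ### Counting -/

variable (x y) in
/-- The condition at the bad primes. -/
def SameBad (z : P.B) : Prop :=
  ∀ p ∈ Λ.bad, ∃ u ∈ Λ.W p, (u : P.B) = ((Λ.rep x p)⁻¹ : P.Bˣ) * z * (Λ.rep y p : P.B)

theorem smul_val_eq_iff (γ : P.Bˣ) (p : Nat.Primes) :
    γ • y.val p = x.val p ↔ (Λ.rep x p)⁻¹ * γ * Λ.rep y p ∈ Λ.W p := by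
  rw [eq_comm, ← mk_rep x p, ← mk_rep y p, mul_assoc]
  exact QuotientGroup.eq

theorem sameBad_coe_iff (γ : P.Bˣ) :
    SameBad x y (γ : P.B) ↔ ∀ p ∈ Λ.bad, γ • y.val p = x.val p := by
  refine forall₂_congr fun p _ => ?_
  rw [smul_val_eq_iff]
  constructor
  · rintro ⟨u, hu, e⟩
    rwa [show (Λ.rep x p)⁻¹ * γ * Λ.rep y p = u from Units.ext (by simpa using e.symm)]
  · exact fun h => ⟨_, h, by simp⟩

/-- **Entries of the Hecke correspondences count representations**. -/
theorem entry_heckeT_mul_stabilizer {n : ℕ} (hn : Λ.Good n) (x y : Pt Λ.level) :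
    entry (Λ.heckeT n) x y * Nat.card (MulAction.stabilizer P.Bˣ y) =
      Nat.card {z : P.B // z ∈ Λ.lattice x y ∧ normForm x y z = n ∧ SameBad x y z} := by
  rw [← card_eq_entry_mul_stabilizer _ x y (Λ.nodup_heckeT n x)]
  have hiff : ∀ γ : P.Bˣ, γ • y ∈ (Λ.heckeT n).nbr x ↔
      (γ : P.B) ∈ Λ.lattice x y ∧ normForm x y γ = n ∧ SameBad x y γ := fun γ => by
    rw [smul_mem_heckeT_iff hn, sameBad_coe_iff, normForm, div_eq_iff (norm_pos x).ne']
  refine Nat.card_congr (Equiv.ofBijective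
    (fun γ => ⟨(γ.1 : P.B), (hiff γ.1).mp γ.2⟩) ⟨fun a b h => ?_, fun z => ?_⟩)
  · exact Subtype.ext (Units.ext (congrArg Subtype.val h))
  · have hz : z.1 ≠ 0 := fun e => hn.1 (by
      have h := z.2.2.1
      rw [e, normForm, map_zero, zero_mul, zero_div] at h
      exact_mod_cast h.symm)
    exact ⟨⟨P.unitOf _ hz, (hiff _).mpr z.2⟩, rfl⟩

/-- The same count in coordinates. -/
theorem Frame.entry_heckeT_mul_stabilizer {n : ℕ} (hn : Λ.Good n) :
    entry (Λ.heckeT n) x y * Nat.card (MulAction.stabilizer P.Bˣ y) =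
      Nat.card {v : Fin 4 → ℤ // v ⬝ᵥ F.gram *ᵥ v = 2 * n ∧ SameBad x y (F.toHom v)} := by
  rw [Sub.entry_heckeT_mul_stabilizer hn]
  have hiff : ∀ v, normForm x y (F.toHom v) = n ↔ v ⬝ᵥ F.gram *ᵥ v = 2 * n := fun v => by
    rw [← Int.cast_inj (α := ℚ), ← F.two_mul_normForm]
    push_cast
    constructor <;> intro h <;> linarith
  refine (Nat.card_congr (Equiv.ofBijective
    (fun v => ⟨F.toHom v.1, F.mem _, (hiff v.1).mpr v.2.1, v.2.2⟩)
    ⟨fun a b h => ?_, fun z => ?_⟩)).symm
  · exact Subtype.ext (F.injective (congrArg Subtype.val h))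
  · obtain ⟨v, hv⟩ := F.exists_eq z.2.1
    exact ⟨⟨v, (hiff v).mp (hv ▸ z.2.2.1), hv ▸ z.2.2.2⟩, Subtype.ext hv⟩

end Sub

end Fermat.Agent.Two.Brandt.Param

end
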