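import Fermat.Agent.Two.Brandt.Level
import Mathlib.Data.Int.GCD
import Mathlib.Tactic.LinearCombination

/-!
# The lattices of pairs of points: size, integrality, dual
-/

set_option autoImplicit false

noncomputable section

namespace Fermat.Agent.Two.Brandt.Param

variable {P : Param}

/-- The polar form of the norm. -/
def pol (P : Param) (z w : P.B) : ℚ :=
  2 * z.re * w.re + (z.re * w.imI + z.imI * w.re) - 2 * P.c * (z.imI * w.imI) +
    (P.e : ℚ) / P.M *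
      (2 * z.imJ * w.imJ + (z.imJ * w.imK + z.imK * w.imJ) - 2 * P.c * (z.imK * w.imK))

theorem nrd_add (z w : P.B) : P.nrd (z + w) = P.nrd z + P.nrd w + P.pol z w := by
  simp [nrd_def, pol]; ring

theorem pol_comm (z w : P.B) : P.pol z w = P.pol w z := by simp [pol]; ring

theorem pol_add_left (z z' w : P.B) : P.pol (z + z') w = P.pol z w + P.pol z' w := by
  simp [pol]; ring

theorem pol_smul_left (r : ℚ) (z w : P.B) : P.pol (r • z) w = r * P.pol z w := by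
  simp [pol]; ring

theorem pol_self (z : P.B) : P.pol z z = 2 * P.nrd z := by
  simp [nrd_def, pol]; ring

theorem pol_mul_mul (a b z w : P.B) :
    P.pol (a * z * b) (a * w * b) = P.nrd a * P.nrd b * P.pol z w := by
  have e : ∀ z w, P.pol z w = P.nrd (z + w) - P.nrd z - P.nrd w := fun z w => by
    rw [nrd_add]; ring
  rw [e, e, ← add_mul, ← mul_add, map_mul, map_mul, map_mul, map_mul, map_mul, map_mul]
  ring

/-- An element in all localisations lies in the order. -/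
theorem mem_order_of_forall {z : P.B} (h : ∀ p, z ∈ P.localOrder p) : z ∈ P.order := by
  classical
  have hex : ∃ c : ℕ, c ≠ 0 ∧ c • z ∈ P.order := P.exists_natCast_smul_mem z
  obtain ⟨hm0, hm⟩ := Nat.find_spec hex
  by_cases h1 : Nat.find hex = 1
  · rwa [h1, one_smul] at hm
  · exfalso
    obtain ⟨p, hp, hpd⟩ := Nat.exists_prime_and_dvd h1
    obtain ⟨c, hc, hcz⟩ := h ⟨p, hp⟩
    have hg : (Nat.gcd (Nat.find hex) c) • z ∈ P.order := by
      rw [← natCast_zsmul, Nat.gcd_eq_gcd_ab, add_smul, mul_comm, mul_smul, natCast_zsmul,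
        mul_comm (c : ℤ), mul_smul, natCast_zsmul]
      exact add_mem (zsmul_mem hm _) (zsmul_mem hcz _)
    have hne : Nat.gcd (Nat.find hex) c ≠ 0 := fun e => hm0 (Nat.gcd_eq_zero_iff.mp e).1
    have hle := Nat.find_le (h := hex) (n := Nat.gcd (Nat.find hex) c) ⟨hne, hg⟩
    have hdvd := Nat.gcd_dvd_left (Nat.find hex) c
    have heq : Nat.gcd (Nat.find hex) c = Nat.find hex :=
      le_antisymm (Nat.le_of_dvd (Nat.pos_of_ne_zero hm0) hdvd) hle
    exact hc (hpd.trans (heq ▸ Nat.gcd_dvd_right (Nat.find hex) c))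

theorem den_eq_one_of_nonneg {r : ℚ} (h : ∀ p : Nat.Primes, 0 ≤ padicValRat (p : ℕ) r) :
    r.den = 1 := by
  by_contra hne
  obtain ⟨p, hp, hpd⟩ := Nat.exists_prime_and_dvd hne
  exact not_dvd_den_of_nonneg ⟨p, hp⟩ (h ⟨p, hp⟩) hpd

theorem exists_intCast_eq {r : ℚ} (h : ∀ p : Nat.Primes, 0 ≤ padicValRat (p : ℕ) r) :
    ∃ n : ℤ, r = n :=
  ⟨r.num, by conv_lhs => rw [← Rat.num_div_den r, den_eq_one_of_nonneg h]; simp⟩

variable (p : Nat.Primes)

theorem nonneg_of_intCast_eq_natCast_mul {r : ℚ} {c : ℕ} (hc : ¬ (p : ℕ) ∣ c) {n : ℤ}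
    (h : (c : ℚ) * r = n) : 0 ≤ padicValRat (p : ℕ) r := by
  have : Fact (p : ℕ).Prime := ⟨p.2⟩
  rcases eq_or_ne r 0 with rfl | hr
  · simp
  · have hc0 : (c : ℚ) ≠ 0 := Nat.cast_ne_zero.mpr fun e => hc (e ▸ dvd_zero _)
    have e := congrArg (padicValRat (p : ℕ)) h
    rw [padicValRat.mul hc0 hr, padicValRat.of_nat, padicValNat.eq_zero_of_not_dvd hc,
      padicValRat.of_int, Nat.cast_zero, zero_add] at e
    rw [e]
    exact Nat.cast_nonneg _

/-- **The dual of the local order**: its level divides `D * e`. -/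
theorem dual_localOrder {z : P.B} (h : ∀ v, ∃ c : ℕ, ∃ n : ℤ, ¬ (p : ℕ) ∣ c ∧
    (c : ℚ) * P.pol z (P.elem v) = n) :
    ((P.D * P.e : ℤ) : ℚ) • z ∈ P.localOrder p ∧
      0 ≤ padicValRat (p : ℕ) (((P.D * P.e : ℤ) : ℚ) * P.nrd z) := by
  obtain ⟨c₀, u, hc₀, hu⟩ := h ![1, 0, 0, 0]
  obtain ⟨c₁, w, hc₁, hw⟩ := h ![0, 1, 0, 0]
  obtain ⟨c₂, u', hc₂, hu'⟩ := h ![0, 0, 1, 0]
  obtain ⟨c₃, w', hc₃, hw'⟩ := h ![0, 0, 0, 1]
  have hM : (P.M : ℚ) ≠ 0 := by exact_mod_cast P.hM.ne'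
  have hh : (P.M : ℚ) * P.h = (P.s : ℚ) ^ 2 - P.s - P.c := by exact_mod_cast P.M_mul_h
  have hD : (P.D : ℚ) = 4 * P.c + 1 := by exact_mod_cast P.hc
  set m := c₀ * c₁ * (c₂ * c₃) with hm
  have hmd : ¬ (p : ℕ) ∣ m := p.2.not_dvd_mul (p.2.not_dvd_mul hc₀ hc₁) (p.2.not_dvd_mul hc₂ hc₃)
  -- the four pairings, cleared by `m`
  set U : ℤ := (c₁ * (c₂ * c₃) : ℕ) * u with hU
  set W : ℤ := (c₀ * (c₂ * c₃) : ℕ) * w with hW
  set U' : ℤ := (c₀ * c₁ * c₃ : ℕ) * u' with hU'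
  set W' : ℤ := (c₀ * c₁ * c₂ : ℕ) * w' with hW'
  obtain ⟨x, y, a, b⟩ := z
  have eU : (m : ℚ) * (2 * x + y) = U := by
    rw [hU, hm]; push_cast; rw [← hu]; simp [pol, elem]; ring
  have eW : (m : ℚ) * (x - 2 * P.c * y) = W := by
    rw [hW, hm]; push_cast; rw [← hw]; simp [pol, elem]; ring
  have eU' : (m : ℚ) * ((P.e : ℚ) * (2 * a + b)) = U' := by
    rw [hU', hm]; push_cast; rw [← hu']; simp [pol, elem]; field_simp
  have eW' : (m : ℚ) * ((P.e : ℚ) / P.M * ((1 - 2 * P.s) * a - (P.s + 2 * P.c) * b)) = W' := by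
    rw [hW', hm]; push_cast; rw [← hw']; simp [pol, elem]; field_simp; ring
  -- coordinates of `(D e) z`
  set v0 : ℤ := P.e * (2 * P.c * U + W) with hv0
  set v1 : ℤ := P.e * (U - 2 * W) with hv1
  set v2 : ℤ := (1 - 2 * P.s) * W' - 2 * P.h * U' with hv2
  set v3 : ℤ := (1 - 2 * P.s) * U' - 2 * P.M * W' with hv3
  have e0 : (m : ℚ) * ((P.D : ℚ) * P.e * x) = (v0 : ℚ) := by
    rw [hv0]; push_cast; rw [← eU, ← eW, hD]; ring
  have e1 : (m : ℚ) * ((P.D : ℚ) * P.e * y) = (v1 : ℚ) := by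
    rw [hv1]; push_cast; rw [← eU, ← eW, hD]; ring
  have hh' : (P.h : ℚ) = ((P.s : ℚ) ^ 2 - P.s - P.c) / P.M := by
    rw [eq_div_iff hM, ← hh, mul_comm]
  have e2 : (m : ℚ) * ((P.D : ℚ) * P.e * a) = (P.M * v2 - P.s * v3 : ℚ) := by
    rw [hv2, hv3]; push_cast; rw [← eU', ← eW', hD, hh']; field_simp; ring
  have e3 : (m : ℚ) * ((P.D : ℚ) * P.e * b) = (v3 : ℚ) := by
    rw [hv3]; push_cast; rw [← eU', ← eW', hD]; field_simp; ring
  refine ⟨⟨m, hmd, ⟨![v0, v1, v2, v3], ?_⟩⟩, ?_⟩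
  · rw [← Nat.cast_smul_eq_nsmul ℚ, smul_smul]
    ext <;> simp only [elem, QuaternionAlgebra.re_smul, QuaternionAlgebra.imI_smul,
      QuaternionAlgebra.imJ_smul, QuaternionAlgebra.imK_smul, Matrix.cons_val_zero,
      Matrix.cons_val_one, Matrix.cons_val, smul_eq_mul, Int.cast_mul]
    · rw [← e0]; ring
    · rw [← e1]; ring
    · rw [← e2]; ring
    · rw [← e3]; ring
  · refine nonneg_of_intCast_eq_natCast_mul p (c := m * m) (p.2.not_dvd_mul hmd hmd)
      (n := P.e * (P.c * U ^ 2 + U * W - W ^ 2) +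
        (-P.h * U' ^ 2 + (1 - 2 * P.s) * U' * W' - P.M * W' ^ 2)) ?_
    push_cast
    rw [← eU, ← eW, ← eU', ← eW', nrd_def, hD, hh']
    field_simp
    ring

namespace Sub

variable {Λ : P.Sub}

/-- The normalised norm form of a lattice. -/
def normForm (x y : Pt Λ.level) (z : P.B) : ℚ := P.nrd z * norm y / norm x

theorem padicValRat_scale (x y : Pt Λ.level) :
    padicValRat (p : ℕ) (P.nrd (Λ.rep x p) / P.nrd (Λ.rep y p) * (norm y / norm x)) = 0 := by
  have : Fact (p : ℕ).Prime := ⟨p.2⟩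
  rw [padicValRat.mul (div_ne_zero (P.nrd_unit_pos _).ne' (P.nrd_unit_pos _).ne')
    (div_ne_zero (norm_pos y).ne' (norm_pos x).ne'), padicValRat.div (P.nrd_unit_pos _).ne'
    (P.nrd_unit_pos _).ne', padicValRat.div (norm_pos y).ne' (norm_pos x).ne', padicValRat_norm,
    padicValRat_norm, valAt, valAt, vp, vp]
  ring

/-- The normalised norm is integral on the lattice. -/
theorem exists_normForm_eq {x y : Pt Λ.level} {z : P.B} (hz : z ∈ Λ.lattice x y) :
    ∃ n : ℤ, normForm x y z = n := by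
  refine exists_intCast_eq fun q => ?_
  have : Fact (q : ℕ).Prime := ⟨q.2⟩
  rcases eq_or_ne z 0 with rfl | hz0
  · simp [normForm]
  have hv := P.vp_nonneg q (hz q)
  have hne : ((Λ.rep x q)⁻¹ : P.Bˣ) * z * (Λ.rep y q : P.B) ≠ 0 :=
    (Units.isUnit (Λ.rep x q)⁻¹ |>.mul (P.unitOf z hz0).isUnit |>.mul (Λ.rep y q).isUnit).ne_zero
  rw [vp, map_mul, map_mul, nrd_inv] at hv
  have e : normForm x y z = ((P.nrd (Λ.rep x q))⁻¹ * P.nrd z * P.nrd (Λ.rep y q)) *
      (P.nrd (Λ.rep x q) / P.nrd (Λ.rep y q) * (norm y / norm x)) := by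
    have h1 := (P.nrd_unit_pos (Λ.rep x q)).ne'
    have h2 := (P.nrd_unit_pos (Λ.rep y q)).ne'
    rw [normForm]; field_simp
  rw [e, padicValRat.mul, padicValRat_scale, add_zero]
  · exact hv
  · exact mul_ne_zero (mul_ne_zero (inv_ne_zero (P.nrd_unit_pos _).ne') (P.nrd_pos hz0).ne')
      (P.nrd_unit_pos _).ne'
  · exact mul_ne_zero (div_ne_zero (P.nrd_unit_pos _).ne' (P.nrd_unit_pos _).ne')
      (div_ne_zero (norm_pos y).ne' (norm_pos x).ne')

theorem finite_rep_notMem (x : Pt Λ.level) : {q | Λ.rep x q ∉ P.localUnits q}.Finite := by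
  refine x.finite.subset fun q hq h => hq ?_
  have e := QuotientGroup.eq.mp (((mk_rep x q).trans h).symm)
  rw [inv_one, one_mul] at e
  exact Λ.le q e

theorem exists_smul_mem_prod (g : List P.Bˣ) :
    ∃ c : ℕ, c ≠ 0 ∧ ∀ h ∈ g, c • (h : P.B) ∈ P.order := by
  induction g with
  | nil => exact ⟨1, one_ne_zero, by simp⟩
  | cons h t ih =>
    obtain ⟨c, hc, hct⟩ := ih
    obtain ⟨d, hd, hdh⟩ := P.exists_natCast_smul_mem (h : P.B)
    refine ⟨c * d, mul_ne_zero hc hd, fun k hk => ?_⟩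
    rcases List.mem_cons.mp hk with rfl | hk
    · rw [mul_smul]; exact nsmul_mem hdh c
    · rw [mul_comm, mul_smul]; exact nsmul_mem (hct k hk) d

/-- **The lattice lies between multiples of the order**. -/
theorem exists_sandwich (x y : Pt Λ.level) : ∃ c : ℕ, c ≠ 0 ∧
    (∀ z ∈ P.order, c • z ∈ Λ.lattice x y) ∧ ∀ z ∈ Λ.lattice x y, c • z ∈ P.order := by
  classical
  let S := (finite_rep_notMem x).toFinset ∪ (finite_rep_notMem y).toFinset
  obtain ⟨c, hc, hmem⟩ := exists_smul_mem_prod (P := P)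
    (S.toList.flatMap fun q => [Λ.rep x q, (Λ.rep x q)⁻¹, Λ.rep y q, (Λ.rep y q)⁻¹])
  have hx : ∀ q, (c • (Λ.rep x q : P.B) ∈ P.localOrder q ∧
      c • (((Λ.rep x q)⁻¹ : P.Bˣ) : P.B) ∈ P.localOrder q) ∧
      (c • (Λ.rep y q : P.B) ∈ P.localOrder q ∧
      c • (((Λ.rep y q)⁻¹ : P.Bˣ) : P.B) ∈ P.localOrder q) := fun q => by
    by_cases hq : q ∈ S
    · have hin : ∀ h ∈ [Λ.rep x q, (Λ.rep x q)⁻¹, Λ.rep y q, (Λ.rep y q)⁻¹],
          c • (h : P.B) ∈ P.localOrder q := fun h hh => P.order_le_localOrder q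
        (hmem h (List.mem_flatMap.mpr ⟨q, Finset.mem_toList.mpr hq, hh⟩))
      exact ⟨⟨hin _ (by simp), hin _ (by simp)⟩, hin _ (by simp), hin _ (by simp)⟩
    · simp only [S, Finset.mem_union, Set.Finite.mem_toFinset, Set.mem_ofPred_eq, not_or,
        not_not] at hq
      exact ⟨⟨nsmul_mem hq.1.1 c, nsmul_mem (inv_mem hq.1).1 c⟩, nsmul_mem hq.2.1 c,
        nsmul_mem (inv_mem hq.2).1 c⟩
  refine ⟨c * c, mul_ne_zero hc hc, fun z hz q => ?_, fun z hz => ?_⟩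
  · obtain ⟨⟨-, ha⟩, hb, -⟩ := hx q
    have e : (((Λ.rep x q)⁻¹ : P.Bˣ) : P.B) * ((c * c) • z) * (Λ.rep y q : P.B) =
        (c • (((Λ.rep x q)⁻¹ : P.Bˣ) : P.B)) * z * (c • (Λ.rep y q : P.B)) := by
      simp only [mul_smul_comm, smul_mul_assoc, smul_smul]
    rw [e]
    exact mul_mem (mul_mem ha (P.order_le_localOrder q hz)) hb
  · refine mem_order_of_forall fun q => ?_
    obtain ⟨⟨ha, -⟩, -, hb⟩ := hx q
    have e : (c * c) • z = (c • (Λ.rep x q : P.B)) *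
        ((((Λ.rep x q)⁻¹ : P.Bˣ) : P.B) * z * (Λ.rep y q : P.B)) *
          (c • (((Λ.rep y q)⁻¹ : P.Bˣ) : P.B)) := by
      simp only [mul_smul_comm, smul_mul_assoc, smul_smul, mul_assoc, Units.mul_inv_cancel_left]
      rw [Units.mul_inv, mul_one]
    rw [e]
    exact mul_mem (mul_mem ha (hz q)) hb

/-- Local elements lift to the lattice up to multiples prime to `p`. -/
theorem exists_lift (x y : Pt Λ.level) (v : Fin 4 → ℤ) : ∃ m : ℕ, ¬ (p : ℕ) ∣ m ∧
    m • ((Λ.rep x p : P.B) * P.elem v * (((Λ.rep y p)⁻¹ : P.Bˣ) : P.B)) ∈ Λ.lattice x y := by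
  obtain ⟨c, hc, hsub, -⟩ := exists_sandwich x y
  set w := (Λ.rep x p : P.B) * P.elem v * (((Λ.rep y p)⁻¹ : P.Bˣ) : P.B) with hw
  obtain ⟨d, hd, hdw⟩ := P.exists_natCast_smul_mem w
  obtain ⟨k, m, hm, hn⟩ := Nat.exists_eq_pow_mul_and_not_dvd (mul_ne_zero hc hd) (p : ℕ)
    p.2.ne_one
  refine ⟨m, hm, fun q => ?_⟩
  by_cases hq : q = p
  · subst hq
    rw [hw, mul_smul_comm, smul_mul_assoc]
    refine nsmul_mem ?_ m
    simp only [mul_assoc, Units.inv_mul_cancel_left]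
    rw [Units.inv_mul, mul_one]
    exact P.order_le_localOrder _ (P.elem_mem v)
  · have h := hsub _ hdw q
    rw [smul_smul, hn, mul_smul] at h
    rw [mul_smul_comm, smul_mul_assoc] at h
    obtain ⟨e, he, hem⟩ := h
    refine ⟨e * (p : ℕ) ^ k, q.2.not_dvd_mul he fun h' => hq ?_, ?_⟩
    · exact Nat.Primes.coe_nat_injective ((Nat.prime_dvd_prime_iff_eq q.2 p.2).mp
        (q.2.dvd_of_dvd_pow h'))
    · rw [mul_smul]; exact hem

/-- **The level of the lattice**: an element pairing integrally with the lattice. -/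
theorem smul_mem_lattice_of_dual {x y : Pt Λ.level} {z : P.B}
    (h : ∀ w ∈ Λ.lattice x y, ∃ n : ℤ, P.pol z w * norm y / norm x = n) :
    ((P.D * P.e : ℤ) : ℚ) • z ∈ Λ.lattice x y ∧
      ∃ n : ℤ, ((P.D * P.e : ℤ) : ℚ) * normForm x y z = n := by
  have key : ∀ q, (((Λ.rep x q)⁻¹ : P.Bˣ) : P.B) * (((P.D * P.e : ℤ) : ℚ) • z) *
      (Λ.rep y q : P.B) ∈ P.localOrder q ∧
        0 ≤ padicValRat (q : ℕ) (((P.D * P.e : ℤ) : ℚ) * normForm x y z) := fun q => by
    have : Fact (q : ℕ).Prime := ⟨q.2⟩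
    set z' := (((Λ.rep x q)⁻¹ : P.Bˣ) : P.B) * z * (Λ.rep y q : P.B) with hz'
    set r := P.nrd (Λ.rep x q) / P.nrd (Λ.rep y q) * (norm y / norm x) with hr
    have hrv : padicValRat (q : ℕ) r = 0 := padicValRat_scale q x y
    have hr0 : r ≠ 0 := mul_ne_zero (div_ne_zero (P.nrd_unit_pos _).ne' (P.nrd_unit_pos _).ne')
      (div_ne_zero (norm_pos y).ne' (norm_pos x).ne')
    have hz'' : z = (Λ.rep x q : P.B) * z' * (((Λ.rep y q)⁻¹ : P.Bˣ) : P.B) := by
      simp only [hz', mul_assoc, Units.mul_inv_cancel_left, Units.mul_inv, mul_one]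
    have hpair : ∀ v, ∃ c : ℕ, ∃ n : ℤ, ¬ (q : ℕ) ∣ c ∧ (c : ℚ) * P.pol z' (P.elem v) = n :=
      fun v => by
        obtain ⟨m, hm, hmem⟩ := exists_lift q x y v
        obtain ⟨n, hn⟩ := h _ hmem
        rw [← Nat.cast_smul_eq_nsmul ℚ, pol_comm, pol_smul_left, pol_comm] at hn
        nth_rewrite 1 [hz''] at hn
        rw [pol_mul_mul, nrd_inv] at hn
        have hn' : (m : ℚ) * P.pol z' (P.elem v) * r = n := by
          rw [← hn, hr]; ring
        refine ⟨m * r.num.natAbs, n * r.den * r.num.sign, q.2.not_dvd_mul hm fun hd => ?_, ?_⟩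
        · have hne : r.num.natAbs ≠ 0 := Int.natAbs_ne_zero.mpr (Rat.num_ne_zero.mpr hr0)
          have h1 : 0 < padicValInt (q : ℕ) r.num :=
            Nat.pos_of_ne_zero (dvd_iff_padicValNat_ne_zero hne |>.mp hd)
          have h2 : padicValNat (q : ℕ) r.den = 0 := padicValNat.eq_zero_of_not_dvd fun hd' => by
            have := Nat.dvd_gcd hd hd'
            rw [r.reduced] at this
            exact q.2.not_dvd_one this
          rw [padicValRat_def] at hrv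
          omega
        · push_cast
          rw [← hn', Nat.cast_natAbs, ← Int.sign_mul_self_eq_abs, Int.cast_mul,
            ← Rat.mul_den_eq_num r]
          ring
    obtain ⟨h1, h2⟩ := dual_localOrder q hpair
    refine ⟨by rw [mul_smul_comm, smul_mul_assoc]; exact h1, ?_⟩
    have e : ((P.D * P.e : ℤ) : ℚ) * normForm x y z = ((P.D * P.e : ℤ) : ℚ) * P.nrd z' * r := by
      have h1 := (P.nrd_unit_pos (Λ.rep x q)).ne'
      have h2 := (P.nrd_unit_pos (Λ.rep y q)).ne'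
      rw [normForm, hz', map_mul, map_mul, nrd_inv, hr]
      field_simp
    rw [e]
    rcases eq_or_ne (((P.D * P.e : ℤ) : ℚ) * P.nrd z') 0 with h0 | h0
    · rw [h0, zero_mul, padicValRat.zero]
    · rw [padicValRat.mul h0 hr0, hrv, add_zero]
      exact h2
  exact ⟨fun q => (key q).1, exists_intCast_eq fun q => (key q).2⟩

end Sub

end Fermat.Agent.Two.Brandt.Param

end
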