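import Fermat.Agent.Two.Brandt.Alg
import Mathlib.NumberTheory.Padics.PadicVal.Basic
import Mathlib.Algebra.Field.ZMod
import Mathlib.Data.Fintype.Pi
import Mathlib.Data.Nat.Prime.Basic
import Mathlib.GroupTheory.Coset.Defs

/-!
# The order at a prime

No completions: the local order at `p` is the localisation of the order inside the algebra.
-/

set_option autoImplicit false

noncomputable section

namespace Fermat.Agent.Two.Brandt.Param

variable (P : Param) (p : Nat.Primes)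

theorem fact_prime (p : Nat.Primes) : Fact (p : ℕ).Prime := ⟨p.2⟩

attribute [local instance] fact_prime

/-- The localisation of the order at a prime. -/
def localOrder : Subring P.B where
  carrier := {z | ∃ c : ℕ, ¬ (p : ℕ) ∣ c ∧ c • z ∈ P.order}
  one_mem' := ⟨1, p.2.not_dvd_one, by rw [one_smul]; exact one_mem _⟩
  zero_mem' := ⟨1, p.2.not_dvd_one, by rw [smul_zero]; exact zero_mem _⟩
  add_mem' := by
    rintro a b ⟨c, hc, ha⟩ ⟨d, hd, hb⟩
    refine ⟨c * d, p.2.not_dvd_mul hc hd, ?_⟩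
    rw [smul_add]
    refine add_mem ?_ ?_
    · rw [mul_comm, mul_smul]; exact nsmul_mem ha d
    · rw [mul_smul]; exact nsmul_mem hb c
  neg_mem' := by
    rintro a ⟨c, hc, ha⟩
    exact ⟨c, hc, by rw [smul_neg]; exact neg_mem ha⟩
  mul_mem' := by
    rintro a b ⟨c, hc, ha⟩ ⟨d, hd, hb⟩
    refine ⟨c * d, p.2.not_dvd_mul hc hd, ?_⟩
    rw [← smul_mul_smul_comm]
    exact mul_mem ha hb

theorem order_le_localOrder : P.order ≤ P.localOrder p := fun z hz =>
  ⟨1, p.2.not_dvd_one, by rwa [one_smul]⟩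

theorem star_mem_localOrder {z : P.B} (hz : z ∈ P.localOrder p) : star z ∈ P.localOrder p := by
  obtain ⟨c, hc, h⟩ := hz
  exact ⟨c, hc, by rw [← star_nsmul]; exact P.star_mem_order h⟩

theorem smul_mem_localOrder_of_not_dvd_den {r : ℚ} (hr : ¬ (p : ℕ) ∣ r.den) {z : P.B}
    (hz : z ∈ P.localOrder p) : r • z ∈ P.localOrder p := by
  obtain ⟨c, hc, h⟩ := hz
  refine ⟨r.den * c, p.2.not_dvd_mul hr hc, ?_⟩
  rw [mul_smul, smul_comm c r, ← Nat.cast_smul_eq_nsmul ℚ r.den, smul_smul, mul_comm,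
    Rat.mul_den_eq_num, Int.cast_smul_eq_zsmul]
  exact zsmul_mem h _

/-- The valuation of the norm. -/
def vp (z : P.B) : ℤ := padicValRat p (P.nrd z)

theorem vp_mul {z w : P.B} (hz : z ≠ 0) (hw : w ≠ 0) : P.vp p (z * w) = P.vp p z + P.vp p w := by
  rw [vp, map_mul, padicValRat.mul (P.nrd_pos hz).ne' (P.nrd_pos hw).ne']
  rfl

theorem vp_star (z : P.B) : P.vp p (star z) = P.vp p z := by rw [vp, nrd_star]; rfl

theorem vp_coe_mul (u v : P.Bˣ) :
    P.vp p ((u * v : P.Bˣ) : P.B) = P.vp p u + P.vp p v :=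
  (congrArg (P.vp p) (Units.val_mul u v)).trans (P.vp_mul p u.ne_zero v.ne_zero)

theorem vp_inv (u : P.Bˣ) : P.vp p ((u⁻¹ : P.Bˣ) : P.B) = -P.vp p u := by
  rw [vp, nrd_inv, padicValRat.inv]; rfl

theorem vp_nonneg {z : P.B} (hz : z ∈ P.localOrder p) : 0 ≤ P.vp p z := by
  obtain ⟨c, hc, h⟩ := hz
  rcases eq_or_ne z 0 with rfl | hne
  · simp [vp]
  obtain ⟨n, hn⟩ := P.exists_nrd_eq_intCast h
  have hc0 : (c : ℚ) ≠ 0 := Nat.cast_ne_zero.mpr fun e => hc (e ▸ dvd_zero _)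
  rw [← Nat.cast_smul_eq_nsmul ℚ, nrd_smul] at hn
  have h1 := congrArg (padicValRat (p : ℕ)) hn
  rw [padicValRat.mul (pow_ne_zero 2 hc0) (P.nrd_pos hne).ne', padicValRat.pow,
    padicValRat.of_nat, padicValNat.eq_zero_of_not_dvd hc, padicValRat.of_int] at h1
  simp only [Nat.cast_zero, mul_zero, zero_add] at h1
  rw [vp, h1]
  exact Nat.cast_nonneg _

theorem not_dvd_den_of_nonneg {r : ℚ} (h : 0 ≤ padicValRat (p : ℕ) r) : ¬ (p : ℕ) ∣ r.den := by
  intro hd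
  have hn : ¬ (p : ℕ) ∣ r.num.natAbs := fun hnum => by
    have := Nat.dvd_gcd hnum hd
    rw [r.reduced] at this
    exact p.2.not_dvd_one this
  have h1 : padicValRat (p : ℕ) r = padicValInt p r.num - padicValNat p r.den :=
    padicValRat_def p r
  have h2 : padicValInt (p : ℕ) r.num = 0 := padicValNat.eq_zero_of_not_dvd hn
  have h3 : 0 < padicValNat (p : ℕ) r.den :=
    Nat.pos_of_ne_zero (dvd_iff_padicValNat_ne_zero r.den_nz |>.mp hd)
  omega

/-- Elements of unit norm in the local order have their inverse there. -/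
theorem inv_mem_localOrder {u : P.Bˣ} (hu : (u : P.B) ∈ P.localOrder p) (hv : P.vp p u = 0) :
    ((u⁻¹ : P.Bˣ) : P.B) ∈ P.localOrder p := by
  rw [coe_inv]
  refine P.smul_mem_localOrder_of_not_dvd_den p (not_dvd_den_of_nonneg p ?_)
    (P.star_mem_localOrder p hu)
  rw [padicValRat.inv]
  exact le_of_eq (neg_eq_zero.mpr hv).symm

/-- The local units. -/
def localUnits : Subgroup P.Bˣ where
  carrier := {u | (u : P.B) ∈ P.localOrder p ∧ P.vp p u = 0}
  one_mem' := ⟨by rw [Units.val_one]; exact one_mem _, by simp [vp]⟩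
  mul_mem' := by
    rintro u v ⟨hu, hu'⟩ ⟨hv, hv'⟩
    exact ⟨by rw [Units.val_mul]; exact mul_mem hu hv, by rw [vp_coe_mul, hu', hv', add_zero]⟩
  inv_mem' := by
    rintro u ⟨hu, hu'⟩
    exact ⟨P.inv_mem_localOrder p hu hu', by rw [vp_inv, hu', neg_zero]⟩

theorem mem_localUnits {u : P.Bˣ} :
    u ∈ P.localUnits p ↔ (u : P.B) ∈ P.localOrder p ∧ P.vp p u = 0 := Iff.rfl

/-- An element lies in almost all local unit groups. -/
theorem finite_notMem_localUnits (u : P.Bˣ) : {q : Nat.Primes | u ∉ P.localUnits q}.Finite := by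
  obtain ⟨c, hc, h⟩ := P.exists_natCast_smul_mem (u : P.B)
  obtain ⟨d, hd, h'⟩ := P.exists_natCast_smul_mem ((u⁻¹ : P.Bˣ) : P.B)
  refine Set.Finite.of_finite_image (f := fun q : Nat.Primes => (q : ℕ))
    ((c * d).divisors.finite_toSet.subset ?_) Subtype.val_injective.injOn
  rintro _ ⟨q, hq, rfl⟩
  rw [Finset.mem_coe, Nat.mem_divisors]
  refine ⟨by_contra fun hnd => hq ?_, mul_ne_zero hc hd⟩
  have hcm : (u : P.B) ∈ P.localOrder q := ⟨c, fun e => hnd (e.mul_right d), h⟩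
  have hdm : ((u⁻¹ : P.Bˣ) : P.B) ∈ P.localOrder q := ⟨d, fun e => hnd (e.mul_left c), h'⟩
  refine ⟨hcm, le_antisymm ?_ (P.vp_nonneg q hcm)⟩
  have := P.vp_nonneg q hdm
  rw [vp_inv] at this
  omega

/-- The elements of norm valuation `v` in the local order. -/
def cell (v : ℕ) : Set P.Bˣ := {u | (u : P.B) ∈ P.localOrder p ∧ P.vp p u = v}

theorem cell_zero : P.cell p 0 = (P.localUnits p : Set P.Bˣ) := rfl

theorem mul_mem_cell {u w : P.Bˣ} {v v' : ℕ} (hu : u ∈ P.cell p v) (hw : w ∈ P.cell p v') :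
    u * w ∈ P.cell p (v + v') :=
  ⟨by rw [Units.val_mul]; exact mul_mem hu.1 hw.1, by rw [vp_coe_mul, hu.2, hw.2, Nat.cast_add]⟩

/-- The congruence subgroup of level `p ^ N`. -/
def congrSet (N : ℕ) : Set P.Bˣ :=
  {u | u ∈ P.localUnits p ∧ ∃ t ∈ P.localOrder p, (u : P.B) = 1 + (p : ℕ) ^ N • t}

/-- Elements congruent modulo a high power of `p` differ by a congruence unit. -/
theorem exists_congr_mul {z z' : P.Bˣ} {v N : ℕ} (hz : z ∈ P.cell p v) {t : P.B}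
    (ht : t ∈ P.localOrder p) (h : (z' : P.B) = z + (p : ℕ) ^ (v + (N + 1)) • t) :
    z⁻¹ * z' ∈ P.congrSet p N := by
  set r : ℚ := (p : ℚ) ^ v * (P.nrd z)⁻¹ with hr
  have hp0 : (p : ℚ) ≠ 0 := Nat.cast_ne_zero.mpr p.2.ne_zero
  have hrv : padicValRat (p : ℕ) r = 0 := by
    rw [hr, padicValRat.mul (pow_ne_zero _ hp0) (inv_ne_zero (P.nrd_unit_pos z).ne'),
      padicValRat.inv, padicValRat.pow, padicValRat.self p.2.one_lt, mul_one]
    have := hz.2
    rw [vp] at this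
    omega
  set t' := ((p : ℕ) • (r • (star (z : P.B) * t))) with ht'def
  have ht' : t' ∈ P.localOrder p :=
    nsmul_mem (P.smul_mem_localOrder_of_not_dvd_den p (not_dvd_den_of_nonneg p hrv.ge)
      (mul_mem (P.star_mem_localOrder p hz.1) ht)) _
  have e : ((z⁻¹ * z' : P.Bˣ) : P.B) = 1 + (p : ℕ) ^ N • t' := by
    rw [Units.val_mul, h, mul_add, ← Units.val_mul, inv_mul_cancel, Units.val_one, coe_inv,
      smul_mul_assoc, mul_smul_comm, ht'def, hr]
    congr 1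
    simp only [← Nat.cast_smul_eq_nsmul ℚ, smul_smul]
    congr 1
    push_cast
    ring
  have hmem : ((z⁻¹ * z' : P.Bˣ) : P.B) ∈ P.localOrder p := by
    rw [e]; exact add_mem (one_mem _) (nsmul_mem ht' _)
  refine ⟨⟨hmem, ?_⟩, t', ht', e⟩
  obtain ⟨c, hc, hct⟩ := mul_mem (P.star_mem_localOrder p hz.1) ht
  set y := (c * r.den) • (r • (star (z : P.B) * t)) with hy
  have hyO : y ∈ P.order := by
    rw [hy, mul_comm, mul_smul, ← smul_comm r, ← Nat.cast_smul_eq_nsmul ℚ r.den, smul_smul,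
      mul_comm, Rat.mul_den_eq_num, Int.cast_smul_eq_zsmul]
    exact zsmul_mem hct _
  obtain ⟨w, hw⟩ := hyO
  have hden : ¬ (p : ℕ) ∣ c * r.den := p.2.not_dvd_mul hc (not_dvd_den_of_nonneg p hrv.ge)
  -- the norm of `(c * den) • u` is `(c * den) ^ 2` modulo `p`
  have e2 : (c * r.den) • ((z⁻¹ * z' : P.Bˣ) : P.B) =
      P.elem (![((c * r.den : ℕ) : ℤ), 0, 0, 0] + (((p : ℕ) ^ (N + 1) : ℕ) : ℤ) • w) := by
    rw [e, elem_add, elem_smul, hw, natCast_zsmul, smul_add, ht'def, hy]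
    congr 1
    · ext <;> simp [elem]
    · simp only [smul_smul, pow_succ]
      congr 1
      ring
  have h2 := congrArg P.nrd e2
  rw [← Nat.cast_smul_eq_nsmul ℚ, nrd_smul, nrd_elem] at h2
  have hnd : ¬ ((p : ℕ) : ℤ) ∣ P.g₀ (((c * r.den : ℕ) : ℤ) + ((p : ℕ) ^ (N + 1) : ℕ) * w 0)
      (((p : ℕ) ^ (N + 1) : ℕ) * w 1) + P.e * P.g (((p : ℕ) ^ (N + 1) : ℕ) * w 2)
        (((p : ℕ) ^ (N + 1) : ℕ) * w 3) := by
    intro hdvd
    have hpdvd : ((p : ℕ) : ℤ) ∣ ((((p : ℕ) ^ (N + 1) : ℕ)) : ℤ) :=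
      Int.natCast_dvd_natCast.mpr (dvd_pow_self _ (Nat.succ_ne_zero N))
    rw [← ZMod.intCast_zmod_eq_zero_iff_dvd] at hdvd hpdvd
    simp only [g₀, g, Int.cast_add, Int.cast_sub, Int.cast_mul, Int.cast_pow, hpdvd, zero_mul,
      add_zero, mul_zero, sub_zero, zero_pow two_ne_zero, Int.cast_natCast] at hdvd
    exact hden ((ZMod.natCast_eq_zero_iff _ _).mp (pow_eq_zero_iff two_ne_zero |>.mp hdvd))
  have h3 := congrArg (padicValRat (p : ℕ)) h2
  have hm0 : ((c * r.den : ℕ) : ℚ) ≠ 0 := Nat.cast_ne_zero.mpr fun e => hden (e ▸ dvd_zero _)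
  rw [padicValRat.mul (pow_ne_zero 2 hm0) (P.nrd_unit_pos _).ne', padicValRat.pow,
    padicValRat.of_nat, padicValNat.eq_zero_of_not_dvd hden, padicValRat.of_int] at h3
  simp only [Pi.add_apply, Pi.smul_apply, smul_eq_mul, Matrix.cons_val_zero, Matrix.cons_val_one,
    Matrix.cons_val, zero_add] at h3
  rw [padicValInt.eq_zero_of_not_dvd hnd] at h3
  simpa [vp] using h3

theorem coe_congrSet_subset (N : ℕ) : P.congrSet p N ⊆ P.localUnits p := fun _ h => h.1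

/-- Cosets of a cell modulo a subgroup containing a congruence subgroup are finite in number. -/
theorem finite_cell_image (v N : ℕ) (W : Subgroup P.Bˣ) (hN : P.congrSet p N ⊆ W) :
    ((fun u => (QuotientGroup.mk u : P.Bˣ ⧸ W)) '' P.cell p v).Finite := by
  have : NeZero ((p : ℕ) ^ (v + (N + 1))) := ⟨pow_ne_zero _ p.2.ne_zero⟩
  classical
  let m := (p : ℕ) ^ (v + (N + 1))
  -- representatives: one element of the cell for each class of coordinates
  let Good : (Fin 4 → ZMod m) → Prop := fun a =>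
    ∃ u ∈ P.cell p v, ∃ (c : ℕ) (w : Fin 4 → ℤ), ¬ (p : ℕ) ∣ c ∧ c • (u : P.B) = P.elem w ∧
      (fun i => (c : ZMod m)⁻¹ * (w i : ZMod m)) = a
  refine ((Set.finite_range fun a : {a // Good a} =>
    (QuotientGroup.mk a.2.choose : P.Bˣ ⧸ W))).subset ?_
  rintro _ ⟨u, hu, rfl⟩
  obtain ⟨c, hc, w, hw⟩ := hu.1
  have hgood : Good fun i => (c : ZMod m)⁻¹ * (w i : ZMod m) :=
    ⟨u, hu, c, w, hc, hw.symm, rfl⟩
  refine ⟨⟨_, hgood⟩, ?_⟩
  obtain ⟨hu₀, c₀, w₀, hc₀, hw₀, ha⟩ := hgood.choose_spec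
  let u₀ := hgood.choose
  have hunit : ∀ d : ℕ, ¬ (p : ℕ) ∣ d → (d : ZMod m)⁻¹ * (d : ZMod m) = 1 := fun d hd =>
    ZMod.inv_mul_of_unit _ ((ZMod.isUnit_iff_coprime _ _).mpr
      ((p.2.coprime_iff_not_dvd.mpr hd).symm.pow_right _))
  have hcoord : ∀ i, (m : ℤ) ∣ (c₀ : ℤ) * w i - (c : ℤ) * w₀ i := fun i => by
    rw [← ZMod.intCast_zmod_eq_zero_iff_dvd]
    have h := congrArg (fun x => (c₀ : ZMod m) * (c : ZMod m) * x) (congrFun ha i)
    push_cast
    linear_combination (hunit c₀ hc₀ * (c : ZMod m) * w₀ i) - (hunit c hc) * (c₀ : ZMod m) * w i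
      - h
  choose t ht using hcoord
  refine QuotientGroup.eq.mpr (hN (P.exists_congr_mul p hu₀
    (t := ((c₀ : ℚ) * c)⁻¹ • P.elem t) ⟨c₀ * c, p.2.not_dvd_mul hc₀ hc, ?_⟩ ?_))
  · rw [← Nat.cast_smul_eq_nsmul ℚ, smul_smul, Nat.cast_mul, mul_inv_cancel₀, one_smul]
    · exact P.elem_mem t
    · exact mul_ne_zero (Nat.cast_ne_zero.mpr fun e => hc₀ (e ▸ dvd_zero _))
        (Nat.cast_ne_zero.mpr fun e => hc (e ▸ dvd_zero _))
  · have hc0 : (c₀ : ℚ) * c ≠ 0 := mul_ne_zero (Nat.cast_ne_zero.mpr fun e => hc₀ (e ▸ dvd_zero _))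
        (Nat.cast_ne_zero.mpr fun e => hc (e ▸ dvd_zero _))
    refine smul_right_injective P.B hc0 ?_
    simp only [smul_add, smul_smul, ← Nat.cast_smul_eq_nsmul ℚ]
    have hm : (c₀ : ℚ) * c * ((((p : ℕ) ^ (v + (N + 1)) : ℕ) : ℚ) * ((c₀ : ℚ) * c)⁻¹) =
        ((m : ℤ) : ℚ) := by
      rw [mul_comm ((((p : ℕ) ^ (v + (N + 1)) : ℕ) : ℚ)), ← mul_assoc, mul_inv_cancel₀ hc0, one_mul,
        Int.cast_natCast]
    rw [hm]
    rw [mul_smul, mul_comm (c₀ : ℚ) c, mul_smul]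
    simp only [Nat.cast_smul_eq_nsmul ℚ, Int.cast_smul_eq_zsmul]
    rw [hw.symm, hw₀, ← natCast_zsmul, ← natCast_zsmul,
      ← elem_smul, ← elem_smul, ← elem_smul, ← elem_add]
    refine congrArg _ (funext fun i => ?_)
    simp only [Pi.add_apply, Pi.smul_apply, smul_eq_mul]
    linear_combination ht i

end Fermat.Agent.Two.Brandt.Param

end
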