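import Fermat.Agent.Two.Brandt.Corr
import Fermat.Agent.Two.Brandt.Local
import Mathlib.NumberTheory.Padics.PadicVal.Basic
import Mathlib.Data.Nat.Factorization.Defs

/-!
# Levels, Hecke correspondences and lattices
-/

set_option autoImplicit false

noncomputable section

namespace Fermat.Agent.Two.Brandt

/-- A positive rational number is determined by its valuations. -/
theorem eq_of_padicValRat_eq {r s : ℚ} (hr : 0 < r) (hs : 0 < s)
    (h : ∀ p : Nat.Primes, padicValRat (p : ℕ) r = padicValRat (p : ℕ) s) : r = s := by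
  obtain ⟨a, ha⟩ : ∃ a : ℕ, (a : ℤ) = r.num := ⟨r.num.toNat, Int.toNat_of_nonneg (Rat.num_pos.mpr hr).le⟩
  obtain ⟨b, hb⟩ : ∃ b : ℕ, (b : ℤ) = s.num := ⟨s.num.toNat, Int.toNat_of_nonneg (Rat.num_pos.mpr hs).le⟩
  have ha0 : a ≠ 0 := by intro e; simp [e] at ha; exact (Rat.num_pos.mpr hr).ne' ha.symm
  have hb0 : b ≠ 0 := by intro e; simp [e] at hb; exact (Rat.num_pos.mpr hs).ne' hb.symm
  have key : a * s.den = b * r.den := by
    refine Nat.eq_of_factorization_eq (Nat.mul_ne_zero ha0 s.den_nz) (Nat.mul_ne_zero hb0 r.den_nz)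
      fun p => ?_
    by_cases hp : p.Prime
    · have : Fact p.Prime := ⟨hp⟩
      rw [Nat.factorization_def _ hp, Nat.factorization_def _ hp, padicValNat.mul ha0 s.den_nz,
        padicValNat.mul hb0 r.den_nz]
      have h' := h ⟨p, hp⟩
      simp only [padicValRat_def, ← ha, ← hb, padicValInt.of_nat] at h'
      omega
    · simp [Nat.factorization_eq_zero_of_not_prime _ hp]
  rw [← Rat.num_div_den r, ← Rat.num_div_den s, ← ha, ← hb, Int.cast_natCast, Int.cast_natCast,
    div_eq_div_iff (Nat.cast_ne_zero.mpr r.den_nz) (Nat.cast_ne_zero.mpr s.den_nz)]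
  exact_mod_cast key

namespace Param

variable {P : Param}

/-- A level below the order: at finitely many primes a smaller open group. -/
structure Sub (P : Param) where
  W : Nat.Primes → Subgroup P.Bˣ
  bad : Finset Nat.Primes
  le : ∀ p, W p ≤ P.localUnits p
  eq : ∀ p, p ∉ bad → W p = P.localUnits p
  exists_congr : ∀ p, ∃ N, P.congrSet p N ⊆ W p

variable (P) in
/-- The level of the order. -/
def stdSub : P.Sub where
  W := P.localUnits
  bad := ∅
  le _ := le_rfl
  eq _ _ := rfl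
  exists_congr p := ⟨0, P.coe_congrSet_subset p 0⟩

namespace Sub

variable (Λ : P.Sub)

/-- The level as a family of subgroups. -/
def level : Level P.Bˣ Nat.Primes where
  U := Λ.W
  finite_notMem g := by
    refine (Λ.bad.finite_toSet.union (P.finite_notMem_localUnits g)).subset fun p hp => ?_
    by_cases h : p ∈ Λ.bad
    · exact Or.inl h
    · exact Or.inr fun hg => hp (by rw [Λ.eq p h]; exact hg)

variable {Λ} {p : Nat.Primes}

theorem mem_cell_mul_right {u g : P.Bˣ} {v : ℕ} (hg : g ∈ P.cell p v) (hu : u ∈ Λ.W p) :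
    g * u ∈ P.cell p v := by
  have := P.mul_mem_cell p hg (show u ∈ P.cell p 0 by rw [cell_zero]; exact Λ.le p hu)
  rwa [add_zero] at this

theorem mem_cell_mul_left {u g : P.Bˣ} {v : ℕ} (hg : g ∈ P.cell p v) (hu : u ∈ Λ.W p) :
    u * g ∈ P.cell p v := by
  have := P.mul_mem_cell p (show u ∈ P.cell p 0 by rw [cell_zero]; exact Λ.le p hu) hg
  rwa [zero_add] at this

theorem finite_cell_cosets (p : Nat.Primes) (v : ℕ) :
    ((fun u => (QuotientGroup.mk u : P.Bˣ ⧸ Λ.W p)) '' P.cell p v).Finite :=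
  let ⟨N, hN⟩ := Λ.exists_congr p
  P.finite_cell_image p v N (Λ.W p) hN

variable (Λ) in
/-- The local operator of all elements of norm valuation `v`. -/
def cellOp (p : Nat.Primes) (v : ℕ) : LocOp Λ.level p where
  cosets := (Λ.finite_cell_cosets p v).toFinset.val
  stable u hu := by
    classical
    have h : ((Λ.finite_cell_cosets p v).toFinset.map
        ⟨(u • · : P.Bˣ ⧸ Λ.W p → P.Bˣ ⧸ Λ.W p), MulAction.injective u⟩) =
        (Λ.finite_cell_cosets p v).toFinset := by
      refine Finset.ext fun c => ?_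
      simp only [Finset.mem_map, Set.Finite.mem_toFinset, Set.mem_image,
        Function.Embedding.coeFn_mk]
      constructor
      · rintro ⟨_, ⟨g, hg, rfl⟩, rfl⟩
        exact ⟨u * g, mem_cell_mul_left hg hu, rfl⟩
      · rintro ⟨g, hg, rfl⟩
        exact ⟨_, ⟨u⁻¹ * g, mem_cell_mul_left hg (inv_mem hu), rfl⟩,
          congrArg QuotientGroup.mk (mul_inv_cancel_left u g)⟩
    exact congrArg Finset.val h

theorem nodup_cellOp (p : Nat.Primes) (v : ℕ) : (Λ.cellOp p v).cosets.Nodup :=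
  (Λ.finite_cell_cosets p v).toFinset.nodup

theorem mem_cellOp_iff {v : ℕ} {g : P.Bˣ} :
    (QuotientGroup.mk g : P.Bˣ ⧸ Λ.W p) ∈ (Λ.cellOp p v).cosets ↔ g ∈ P.cell p v := by
  refine (Set.Finite.mem_toFinset _).trans ⟨?_, fun h => ⟨g, h, rfl⟩⟩
  rintro ⟨h, hh, e⟩
  have := mem_cell_mul_right hh (QuotientGroup.eq.mp e)
  rwa [mul_inv_cancel_left] at this

theorem mem_translate_cellOp_iff {v : ℕ} {g h : P.Bˣ} :
    (QuotientGroup.mk h : P.Bˣ ⧸ Λ.level.U p) ∈ (Λ.cellOp p v).translate (QuotientGroup.mk g) ↔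
      g⁻¹ * h ∈ P.cell p v := by
  rw [LocOp.translate_mk, Multiset.mem_map, ← mem_cellOp_iff (Λ := Λ)]
  constructor
  · rintro ⟨c, hc, e⟩
    have : c = (QuotientGroup.mk (g⁻¹ * h) : P.Bˣ ⧸ Λ.W p) := by
      have e' := congrArg (g⁻¹ • ·) e
      simp only [inv_smul_smul] at e'
      exact e'
    exact this ▸ hc
  · exact fun hc => ⟨_, hc, congrArg QuotientGroup.mk (mul_inv_cancel_left g h)⟩

variable (Λ) in
/-- A representative of a component. -/
def rep (x : Pt Λ.level) (p : Nat.Primes) : P.Bˣ := (x.val p).out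

theorem mk_rep (x : Pt Λ.level) (p : Nat.Primes) :
    (QuotientGroup.mk (Λ.rep x p) : P.Bˣ ⧸ Λ.level.U p) = x.val p := QuotientGroup.out_eq' _

theorem mem_translate_cellOp_rep {v : ℕ} (x y : Pt Λ.level) :
    y.val p ∈ (Λ.cellOp p v).translate (x.val p) ↔ (Λ.rep x p)⁻¹ * Λ.rep y p ∈ P.cell p v := by
  rw [← mk_rep x p, ← mk_rep y p, mem_translate_cellOp_iff]

/-- The prime divisors of a number. -/
def primesOf (n : ℕ) : Finset Nat.Primes := n.primeFactors.subtype Nat.Prime

theorem mem_primesOf {n : ℕ} : p ∈ primesOf n ↔ (p : ℕ) ∈ n.primeFactors :=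
  Finset.mem_subtype (p := Nat.Prime) (a := p)

variable (Λ) in
/-- **The Hecke correspondence `T n`**. -/
def heckeT (n : ℕ) : Corr Λ.level :=
  LocOp.prodCorr (primesOf n) fun p => Λ.cellOp p (n.factorization (p : ℕ))

theorem nodup_heckeT (n : ℕ) (x : Pt Λ.level) : ((Λ.heckeT n).nbr x).Nodup :=
  LocOp.nodup_prodCorr_nbr _ _ (fun p _ => nodup_cellOp p _) x

/-- `n` is prime to the level. -/
def Good (Λ : P.Sub) (n : ℕ) : Prop := n ≠ 0 ∧ ∀ p ∈ Λ.bad, ¬ (p : ℕ) ∣ n

theorem eq_val_iff {x y : Pt Λ.level} :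
    y.val p = x.val p ↔ (Λ.rep x p)⁻¹ * Λ.rep y p ∈ Λ.W p := by
  rw [eq_comm]
  conv_lhs => rw [← mk_rep x p, ← mk_rep y p]
  exact QuotientGroup.eq

theorem mem_heckeT_iff {n : ℕ} (hn : Λ.Good n) (x y : Pt Λ.level) :
    y ∈ (Λ.heckeT n).nbr x ↔
      (∀ p, (Λ.rep x p)⁻¹ * Λ.rep y p ∈ P.cell p (n.factorization (p : ℕ))) ∧
        ∀ p ∈ Λ.bad, y.val p = x.val p := by
  rw [heckeT, LocOp.mem_prodCorr_nbr]
  have hz : ∀ p : Nat.Primes, p ∉ primesOf n → n.factorization (p : ℕ) = 0 := fun p hp => by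
    rw [mem_primesOf, ← Nat.support_factorization, Finsupp.notMem_support_iff] at hp
    exact hp
  constructor
  · rintro ⟨h1, h2⟩
    refine ⟨fun p => ?_, fun p hp => h2 p fun h => ?_⟩
    · by_cases hp : p ∈ primesOf n
      · exact (mem_translate_cellOp_rep x y).mp (h1 p hp)
      · rw [hz p hp, cell_zero]
        exact Λ.le p (eq_val_iff.mp (h2 p hp))
    · rw [mem_primesOf, Nat.mem_primeFactors] at h
      exact hn.2 p hp h.2.1
  · rintro ⟨h1, h2⟩
    refine ⟨fun p _ => (mem_translate_cellOp_rep x y).mpr (h1 p), fun p hp => ?_⟩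
    by_cases hb : p ∈ Λ.bad
    · exact h2 p hb
    · refine eq_val_iff.mpr ?_
      rw [Λ.eq p hb]
      have := h1 p
      rwa [hz p hp, cell_zero] at this

theorem heckeT_one : Λ.heckeT 1 = 1 := by
  rw [heckeT, show primesOf 1 = ∅ from Finset.eq_empty_of_forall_notMem fun p hp => by
    rw [mem_primesOf] at hp; simp at hp]
  exact LocOp.prodCorr_empty _

theorem heckeT_prime_pow (q : Nat.Primes) (r : ℕ) (hr : r ≠ 0) :
    Λ.heckeT ((q : ℕ) ^ r) = (Λ.cellOp q r).corr := by
  classical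
  rw [heckeT, show primesOf ((q : ℕ) ^ r) = insert q ∅ from Finset.ext fun p => by
    rw [mem_primesOf, Nat.primeFactors_pow _ hr, q.2.primeFactors]
    simp [Nat.Primes.coe_nat_injective.eq_iff]; rfl]
  rw [LocOp.prodCorr_insert (Finset.notMem_empty q), LocOp.prodCorr_empty, mul_one,
    q.2.factorization_pow, Finsupp.single_eq_same]

theorem heckeT_mul {m n : ℕ} (h : m.Coprime n) :
    Λ.heckeT (m * n) = Λ.heckeT m * Λ.heckeT n := by
  classical
  have hu : primesOf (m * n) = primesOf m ∪ primesOf n := Finset.ext fun p => by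
    simp only [Finset.mem_union, mem_primesOf, h.primeFactors_mul]
  have hd : Disjoint (primesOf m) (primesOf n) := Finset.disjoint_left.mpr fun p hp hp' =>
    Finset.disjoint_left.mp h.disjoint_primeFactors (mem_primesOf.mp hp) (mem_primesOf.mp hp')
  have e1 : ∀ p ∈ primesOf m,
      (m * n).factorization (p : ℕ) = m.factorization (p : ℕ) := fun p hp => by
    rw [Nat.factorization_mul_apply_of_coprime h, Nat.add_eq_left, ← Finsupp.notMem_support_iff,
      Nat.support_factorization]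
    exact fun hp' => Finset.disjoint_left.mp hd hp (mem_primesOf.mpr hp')
  have e2 : ∀ p ∈ primesOf n,
      (m * n).factorization (p : ℕ) = n.factorization (p : ℕ) := fun p hp => by
    rw [Nat.factorization_mul_apply_of_coprime h, Nat.add_eq_right, ← Finsupp.notMem_support_iff,
      Nat.support_factorization]
    exact fun hp' => Finset.disjoint_left.mp hd (mem_primesOf.mpr hp') hp
  rw [heckeT, hu, LocOp.prodCorr, Finset.noncommProd_union_of_disjoint hd, heckeT, heckeT,
    LocOp.prodCorr, LocOp.prodCorr]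
  congr 1
  · exact Finset.noncommProd_congr rfl (fun p hp => by rw [e1 p hp]) _
  · exact Finset.noncommProd_congr rfl (fun p hp => by rw [e2 p hp]) _

/-- The valuation of a component. -/
def valAt (x : Pt Λ.level) (p : Nat.Primes) : ℤ := P.vp p (Λ.rep x p)

theorem vp_eq_of_mk_eq {g h : P.Bˣ}
    (e : (QuotientGroup.mk g : P.Bˣ ⧸ Λ.W p) = QuotientGroup.mk h) : P.vp p g = P.vp p h := by
  have h' := (Λ.le p (QuotientGroup.eq.mp e)).2
  rw [vp_coe_mul, vp_inv] at h'
  omega

theorem valAt_eq {x : Pt Λ.level} {g : P.Bˣ}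
    (e : (QuotientGroup.mk g : P.Bˣ ⧸ Λ.level.U p) = x.val p) : valAt x p = P.vp p g :=
  (vp_eq_of_mk_eq (e.trans (mk_rep x p).symm)).symm

theorem finite_valAt_ne_zero (x : Pt Λ.level) : {p | valAt x p ≠ 0}.Finite := by
  refine x.finite.subset fun p hp h => hp ?_
  rw [valAt_eq (g := 1) h.symm]
  simp [vp]

/-- The norm of a point. -/
def norm (x : Pt Λ.level) : ℚ := ∏ᶠ p : Nat.Primes, ((p : ℕ) : ℚ) ^ valAt x p

theorem norm_pos (x : Pt Λ.level) : 0 < norm x :=
  finprod_induction _ one_pos (fun _ _ => mul_pos) fun p => zpow_pos (Nat.cast_pos.mpr p.2.pos) _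

theorem padicValRat_norm (x : Pt Λ.level) (q : Nat.Primes) :
    padicValRat (q : ℕ) (norm x) = valAt x q := by
  classical
  have : Fact (q : ℕ).Prime := ⟨q.2⟩
  have hsub : Function.mulSupport (fun p : Nat.Primes => ((p : ℕ) : ℚ) ^ valAt x p) ⊆
      ↑(insert q (finite_valAt_ne_zero x).toFinset) := fun p hp => by
    rw [Finset.coe_insert, Set.Finite.coe_toFinset]
    refine Or.inr fun h => hp ?_
    simp [h]
  rw [norm, finprod_eq_prod_of_mulSupport_subset _ hsub]
  have key : ∀ s : Finset Nat.Primes,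
      padicValRat (q : ℕ) (∏ p ∈ s, ((p : ℕ) : ℚ) ^ valAt x p) = if q ∈ s then valAt x q else 0 := by
    intro s
    induction s using Finset.induction with
    | empty => simp
    | insert a s ha ih =>
      rw [Finset.prod_insert ha, padicValRat.mul (zpow_ne_zero _ (Nat.cast_ne_zero.mpr a.2.ne_zero))
        (Finset.prod_ne_zero_iff.mpr fun p _ => zpow_ne_zero _ (Nat.cast_ne_zero.mpr p.2.ne_zero)),
        ih, padicValRat.zpow, padicValRat.of_nat]
      by_cases e : q = a
      · subst e; simp [ha, padicValNat_self]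
      · have : Fact (a : ℕ).Prime := ⟨a.2⟩
        rw [padicValNat_primes fun h => e (Nat.Primes.coe_nat_injective h)]
        simp [e]
  rw [key, if_pos (Finset.mem_insert_self q _)]

theorem rep_smul_iff (γ : P.Bˣ) (y : Pt Λ.level) (x : Pt Λ.level) {v : ℕ} :
    (Λ.rep x p)⁻¹ * Λ.rep (γ • y) p ∈ P.cell p v ↔
      (Λ.rep x p)⁻¹ * γ * Λ.rep y p ∈ P.cell p v := by
  have e : (QuotientGroup.mk (γ * Λ.rep y p) : P.Bˣ ⧸ Λ.W p) = QuotientGroup.mk (Λ.rep (γ • y) p) :=
    (congrArg (γ • ·) (mk_rep y p)).trans (mk_rep (γ • y) p).symm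
  have hu := QuotientGroup.eq.mp e
  rw [mul_assoc]
  constructor
  · intro h
    have := mem_cell_mul_right h (inv_mem hu)
    rwa [show (Λ.rep x p)⁻¹ * Λ.rep (γ • y) p * ((γ * Λ.rep y p)⁻¹ * Λ.rep (γ • y) p)⁻¹ =
      (Λ.rep x p)⁻¹ * (γ * Λ.rep y p) by group] at this
  · intro h
    have := mem_cell_mul_right h hu
    rwa [show (Λ.rep x p)⁻¹ * (γ * Λ.rep y p) * ((γ * Λ.rep y p)⁻¹ * Λ.rep (γ • y) p) =
      (Λ.rep x p)⁻¹ * Λ.rep (γ • y) p by group] at this

variable (Λ) in
/-- The lattice of a pair of points. -/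
def lattice (x y : Pt Λ.level) : AddSubgroup P.B where
  carrier := {z | ∀ p, ((Λ.rep x p)⁻¹ : P.Bˣ) * z * (Λ.rep y p : P.B) ∈ P.localOrder p}
  zero_mem' p := by simp
  add_mem' ha hb p := by rw [mul_add, add_mul]; exact add_mem (ha p) (hb p)
  neg_mem' ha p := by rw [mul_neg, neg_mul]; exact neg_mem (ha p)

/-- **The group elements behind a Hecke neighbour are the lattice elements of the given norm**. -/
theorem smul_mem_heckeT_iff {n : ℕ} (hn : Λ.Good n) (x y : Pt Λ.level) (γ : P.Bˣ) :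
    γ • y ∈ (Λ.heckeT n).nbr x ↔ (γ : P.B) ∈ Λ.lattice x y ∧
      P.nrd γ * norm y = n * norm x ∧ ∀ p ∈ Λ.bad, γ • y.val p = x.val p := by
  rw [mem_heckeT_iff hn]
  simp only [rep_smul_iff, Pt.smul_val]
  have hv : ∀ p, P.vp p (((Λ.rep x p)⁻¹ * γ * Λ.rep y p : P.Bˣ) : P.B) =
      padicValRat (p : ℕ) (P.nrd γ * norm y) - padicValRat (p : ℕ) (norm x) := fun p => by
    have : Fact (p : ℕ).Prime := ⟨p.2⟩
    rw [padicValRat.mul (P.nrd_unit_pos γ).ne' (norm_pos y).ne', padicValRat_norm, padicValRat_norm,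
      vp_coe_mul, vp_coe_mul, vp_inv, valAt, valAt]
    show _ = P.vp p γ + _ - _
    ring
  have hn' : ∀ p : Nat.Primes, padicValRat (p : ℕ) ((n : ℚ) * norm x) =
      n.factorization (p : ℕ) + padicValRat (p : ℕ) (norm x) := fun p => by
    have : Fact (p : ℕ).Prime := ⟨p.2⟩
    rw [padicValRat.mul (Nat.cast_ne_zero.mpr hn.1) (norm_pos x).ne', padicValRat.of_nat,
      Nat.factorization_def _ p.2]
  constructor
  · rintro ⟨h1, h2⟩
    refine ⟨fun p => by simpa only [Units.val_mul] using (h1 p).1, ?_, h2⟩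
    refine eq_of_padicValRat_eq (mul_pos (P.nrd_unit_pos γ) (norm_pos y))
      (mul_pos (Nat.cast_pos.mpr (Nat.pos_of_ne_zero hn.1)) (norm_pos x)) fun p => ?_
    rw [hn' p, ← (h1 p).2, hv p]
    ring
  · rintro ⟨h1, h2, h3⟩
    refine ⟨fun p => ⟨by simpa only [Units.val_mul] using h1 p, ?_⟩, h3⟩
    rw [hv p, h2, hn' p]
    ring

end Sub

end Param

end Fermat.Agent.Two.Brandt

end
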