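import Fermat.Agent.Two.Brandt.Special
import Fermat.Agent.Two.Brandt.Exists
import Fermat.Agent.Two.Brandt.Gram
import Fermat.Agent.Two.Brandt.Neat
import Fermat.Agent.Two.Seed.Sigma
import Fermat.Agent.Two.Inputs

/-!
# The parameters attached to an auxiliary curve

For a `TwoCurve` of bad level `N` and a set `V` of auxiliary primes the algebra has `D = -N` and
`e = ∏ V`; all primes of `V` are special and one ramified prime is `1` modulo `12`.
-/

set_option autoImplicit false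

noncomputable section

namespace Fermat.Agent.Two.Brandt

open Fermat.Agent.Two

/-- The parameters attached to `W` and `V`. -/
structure Setup (W : WeierstrassCurve ℤ) (V : Finset ℕ) where
  P : Param
  D_eq : P.D = -(badLevel W : ℤ)
  e_eq : P.e = ((∏ v ∈ V, v : ℕ) : ℤ)
  c_odd : Odd P.c
  e_odd : Odd P.e
  M_odd : Odd P.M
  level : Param.Sub.latticeLevel P = badLevel W * ∏ v ∈ V, v
  special : ∀ v : Nat.Primes, (v : ℕ) ∈ V → P.IsSpecial v
  inert : ∀ v : Nat.Primes, (v : ℕ) ∈ V → P.Inert v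
  val : ∀ v : Nat.Primes, (v : ℕ) ∈ V → padicValRat (v : ℕ) ((P.e : ℚ) / P.M) = 1
  not_dvd_D : ∀ p : Nat.Primes, ((p : ℕ) : ℤ) ∣ P.M → ¬ ((p : ℕ) : ℤ) ∣ P.D
  exists_ramified : ∃ l : Nat.Primes, Param.Sub.IsRamified P l ∧ (l : ℕ) % 12 = 1

namespace Param

theorem IsSpecial.isRamified {P : Param} {l : Nat.Primes} (h : P.IsSpecial l) :
    Sub.IsRamified P l := by
  obtain ⟨π, hπ, hdiv, -⟩ := exists_uniformizer h
  exact ⟨π, hπ, hdiv⟩

end Param

/-- A good prime outside `V` is good for the parameters. -/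
theorem Setup.not_dvd {W : WeierstrassCurve ℤ} {V : Finset ℕ} (S : Setup W V)
    (hΔ : W.Δ ≠ 0) (hV : ∀ v ∈ V, v.Prime) {l : Nat.Primes} (hl : W.IsGoodPrimeFor l)
    (hlV : (l : ℕ) ∉ V) :
    ¬ ((l : ℕ) : ℤ) ∣ S.P.D ∧ ¬ ((l : ℕ) : ℤ) ∣ S.P.e := by
  constructor
  · rw [S.D_eq, dvd_neg, Int.natCast_dvd_natCast]
    exact fun h => hl ((prime_dvd_badLevel_iff hΔ l.2).mp h)
  · rw [S.e_eq, Int.natCast_dvd_natCast]
    intro h
    obtain ⟨v, hv, hlv⟩ := (Prime.dvd_finsetProd_iff l.2.prime _).1 h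
    exact hlV ((Nat.prime_dvd_prime_iff_eq l.2 (hV v hv)).mp hlv ▸ hv)

/-- Construction of the parameters from the residual behaviour of the discriminant. -/
theorem exists_setup_of {W : WeierstrassCurve ℤ} (hW : TwoCurve W)
    (hmod : badLevel W % 8 = 3) {V : Finset ℕ}
    (hV : ∀ v ∈ V, v.Prime ∧ v ≠ 2 ∧ v % 12 = 1 ∧
      jacobiSym (-(badLevel W : ℤ)) v = -1) :
    Nonempty (Setup W V) := by
  classical
  have hΔ := hW.Δ_ne_zero
  set N := badLevel W with hN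
  obtain ⟨ℓ, hℓp, hℓ12, hℓΔ⟩ := hW.exists_bad_one_mod_twelve
  have hℓN : ℓ ∣ N := (prime_dvd_badLevel_iff hΔ hℓp).mpr hℓΔ
  set c₁ : ℤ := (-(N : ℤ) - 1) / 4 with hc₁
  have hc : -(N : ℤ) = 4 * c₁ + 1 := by omega
  have hD : -(N : ℤ) < 0 := by have := badLevel_pos W; omega
  have hsq : Squarefree (-(N : ℤ)) := by
    refine Int.squarefree_natAbs.mp ?_
    rw [Int.natAbs_neg, Int.natAbs_natCast]
    exact squarefree_badLevel W
  set T : Finset ℕ := if Odd V.card then ∅ else {ℓ} with hT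
  have hTsub : T ⊆ (-(N : ℤ)).natAbs.primeFactors := by
    rw [Int.natAbs_neg, Int.natAbs_natCast, hT]
    split_ifs
    · exact Finset.empty_subset _
    · exact Finset.singleton_subset_iff.mpr
        (Nat.mem_primeFactors.mpr ⟨hℓp, hℓN, (badLevel_pos W).ne'⟩)
  have hpar : Odd (V.card + T.card) := by
    rw [hT]
    split_ifs with h
    · simpa using h
    · simpa using (Nat.not_odd_iff_even.mp h).add_one
  obtain ⟨q, s, hq, -, hq2, hqV, -, hqD, -, hdvd, hram⟩ := exists_param hD hc hsq V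
    (fun v hv => ⟨(hV v hv).1, (hV v hv).2.1, (hV v hv).2.2.2⟩) (r := 1) (Or.inl rfl) hTsub hpar 0
  have he0 : 0 < ∏ v ∈ V, v := Finset.prod_pos fun v hv => (hV v hv).1.pos
  let P : Param :=
    { D := -(N : ℤ)
      c := c₁
      e := ((∏ v ∈ V, v : ℕ) : ℤ)
      M := (q : ℤ)
      s := s
      hD := hD
      hc := hc
      he := by exact_mod_cast he0
      hM := by exact_mod_cast hq.pos
      hs := by simpa using hdvd }
  have heodd : Odd (∏ v ∈ V, v) :=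
    Finset.prod_induction _ Odd (fun _ _ => Odd.mul) odd_one fun v hv =>
      (hV v hv).1.odd_of_ne_two (hV v hv).2.1
  have he : ∀ v : Nat.Primes, (v : ℕ) ∈ V →
      ((v : ℕ) : ℤ) ∣ P.e ∧ ¬ ((v : ℕ) : ℤ) ^ 2 ∣ P.e := fun v hv => by
    show ((v : ℕ) : ℤ) ∣ ((∏ v ∈ V, v : ℕ) : ℤ) ∧ ¬ ((v : ℕ) : ℤ) ^ 2 ∣ ((∏ v ∈ V, v : ℕ) : ℤ)
    rw [← Nat.cast_pow, Int.natCast_dvd_natCast, Int.natCast_dvd_natCast]
    refine ⟨Finset.dvd_prod_of_mem _ hv, fun h => ?_⟩
    rw [← Finset.mul_prod_erase V _ hv, pow_two] at h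
    obtain ⟨w, hw, hvw⟩ := (Prime.dvd_finsetProd_iff v.2.prime _).1
      (Nat.dvd_of_mul_dvd_mul_left v.2.pos h)
    exact Finset.ne_of_mem_erase hw
      ((Nat.prime_dvd_prime_iff_eq v.2 (hV w (Finset.mem_of_mem_erase hw)).1).mp hvw).symm
  have hspec : ∀ v : Nat.Primes, (v : ℕ) ∈ V → P.IsSpecial v := fun v hv =>
    Param.isSpecial_of_inert (hV _ hv).2.1 (he v hv).1 (he v hv).2 (hV _ hv).2.2.2
  refine ⟨⟨P, rfl, rfl, ?_, Int.odd_coe_nat _ |>.mpr heodd,
    Int.odd_coe_nat _ |>.mpr (hq.odd_of_ne_two hq2), ?_, hspec, fun v hv => ?_, fun v hv => ?_, fun p hp => ?_, ?_⟩⟩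
  · show Odd c₁
    rw [Int.odd_iff]
    omega
  · show (-(N : ℤ) * ((∏ v ∈ V, v : ℕ) : ℤ)).natAbs = _
    rw [Int.natAbs_mul, Int.natAbs_neg, Int.natAbs_natCast, Int.natAbs_natCast]
  · have hJ := (hV _ hv).2.2.2
    have : Fact (v : ℕ).Prime := ⟨v.2⟩
    rw [← jacobiSym.legendreSym.to_jacobiSym] at hJ
    exact P.inert_of_not_isSquare (hV _ hv).2.1 ((legendreSym.eq_neg_one_iff (v : ℕ)).mp hJ)
  · have : Fact (v : ℕ).Prime := ⟨v.2⟩
    have hvq : ¬ ((v : ℕ) : ℤ) ∣ (q : ℤ) := fun h => hqV (by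
      rw [Int.natCast_dvd_natCast, Nat.prime_dvd_prime_iff_eq v.2 hq] at h
      exact h ▸ hv)
    have hve : padicValInt (v : ℕ) P.e = 1 := by
      refine le_antisymm ?_ ?_
      · by_contra hlt
        exact (he v hv).2 ((padicValInt_dvd_iff _ _).mpr (Or.inr (by omega)))
      · have := (padicValInt_dvd_iff (p := (v : ℕ)) 1 P.e).mp (by rw [pow_one]; exact (he v hv).1)
        exact this.resolve_left P.he.ne'
    rw [padicValRat.div (Int.cast_ne_zero.mpr P.he.ne') (Int.cast_ne_zero.mpr P.hM.ne'),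
      padicValRat.of_int, padicValRat.of_int, hve,
      padicValInt.eq_zero_of_not_dvd (z := P.M) hvq]
    rfl
  · have h : (p : ℕ) = q := (Nat.prime_dvd_prime_iff_eq p.2 hq).mp (Int.natCast_dvd_natCast.mp hp)
    rw [h]
    exact hqD
  · by_cases hodd : Odd V.card
    · obtain ⟨v, hv⟩ := Finset.card_pos.mp hodd.pos
      exact ⟨⟨v, (hV v hv).1⟩, (hspec _ hv).isRamified, (hV v hv).2.2.1⟩
    · refine ⟨⟨ℓ, hℓp⟩, Param.IsSpecial.isRamified (Param.isSpecial_of_ramified ?_ ?_ ?_), hℓ12⟩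
      · show (ℓ : ℤ) ∣ -(N : ℤ)
        exact (Int.natCast_dvd_natCast.mpr hℓN).neg_right
      · show ¬ (ℓ : ℤ) ^ 2 ∣ -(N : ℤ)
        rw [dvd_neg, ← Nat.cast_pow, Int.natCast_dvd_natCast]
        intro h
        exact hℓp.not_isUnit (squarefree_badLevel W ℓ (by rwa [← pow_two]))
      · have h := (hram ℓ (hTsub (by simp [hT, hodd]))).mpr (by simp [hT, hodd])
        show jacobiSym (-(((∏ v ∈ V, v : ℕ) : ℤ) * (q : ℤ))) ℓ = -1
        simpa using h

end Fermat.Agent.Two.Brandt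

end
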