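import Fermat.Agent.Two.Brandt.Gram
import Fermat.Agent.Two.Brandt.Classes
import Fermat.Agent.Two.Brandt.Neat
import Fermat.Agent.Two.Theta.Quat.Modular

/-!
# The entries of the Hecke correspondences as theta coefficients

For the level of the order: symmetry of the entries, the stabilisers of a neat level, and the
entries as coefficients of the theta series of the lattices.
-/

set_option autoImplicit false

noncomputable section

namespace Fermat.Agent.Two.Brandt.Param.Sub

open Matrix

variable {P : Param} {Λ : P.Sub}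

variable {x y : Pt Λ.level}

/-- The quadratic form of a lattice in coordinates. -/
def Frame.form (F : Frame x y) : Theta.Quat.EvenForm where
  A := F.gram
  adj := F.exists_adjoint.choose
  N := latticeLevel P
  N_ne_zero := latticeLevel_ne_zero
  symm := F.gram_isSymm
  even := F.gram_even
  pos _ := F.gram_pos
  mul_adj := F.exists_adjoint.choose_spec.1
  adj_even := F.exists_adjoint.choose_spec.2
  det_sq := F.isSquare_det

/-- **Entries are theta coefficients** (no conditions at bad primes). -/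
theorem Frame.entry_eq_thetaCoeff (F : Frame x y) (hbad : Λ.bad = ∅) {n : ℕ} (hn : n ≠ 0) :
    ((entry (Λ.heckeT n) x y * Nat.card (MulAction.stabilizer P.Bˣ y) : ℕ) : ℂ) =
      Theta.Quat.thetaCoeff F.form (fun _ : Fin 4 → ZMod 1 => (1 : ℂ)) n := by
  have hgood : Λ.Good n := ⟨hn, fun p hp => absurd hp (by simp [hbad])⟩
  rw [F.entry_heckeT_mul_stabilizer hgood, Theta.Quat.thetaCoeff, Finset.sum_const,
    nsmul_eq_mul, mul_one, Nat.cast_inj, ← Nat.card_eq_finsetCard]
  refine Nat.card_congr (Equiv.subtypeEquivRight fun v => ?_)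
  rw [Set.Finite.mem_toFinset, Set.mem_ofPred_eq]
  refine ⟨fun h => Int.ediv_eq_of_eq_mul_right two_ne_zero h.1, fun h => ⟨?_, fun p hp => ?_⟩⟩
  · obtain ⟨a, ha⟩ := F.form.two_dvd v
    have h2 : (v ⬝ᵥ F.gram *ᵥ v) / 2 = n := h
    have ha' : v ⬝ᵥ F.gram *ᵥ v = 2 * a := ha
    omega
  · simp [hbad] at hp

theorem scale_star_mem {z : P.B} (hz : ∀ p, ((Λ.rep x p)⁻¹ : P.Bˣ) * z * (Λ.rep y p : P.B) ∈ P.localOrder p) :
    (norm y / norm x) • star z ∈ Λ.lattice y x := by
  intro p
  have : Fact (p : ℕ).Prime := ⟨p.2⟩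
  have h := P.star_mem_localOrder p (hz p)
  rw [star_mul, star_mul] at h
  set r : ℚ := P.nrd (Λ.rep x p) / P.nrd (Λ.rep y p) * (norm y / norm x) with hr
  have hrv : padicValRat (p : ℕ) r = 0 := padicValRat_scale p x y
  have h' := P.smul_mem_localOrder_of_not_dvd_den p (not_dvd_den_of_nonneg p hrv.ge) h
  have e : (((Λ.rep y p)⁻¹ : P.Bˣ) : P.B) * ((norm y / norm x) • star z) * (Λ.rep x p : P.B) =
      r • (star (Λ.rep y p : P.B) * (star z * star (((Λ.rep x p)⁻¹ : P.Bˣ) : P.B))) := by
    have hy0 := (P.nrd_unit_pos (Λ.rep y p)).ne'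
    have hx0 := (P.nrd_unit_pos (Λ.rep x p)).ne'
    rw [coe_inv, coe_inv, QuaternionAlgebra.star_smul, star_star]
    simp only [smul_mul_assoc, mul_smul_comm, smul_smul, mul_assoc]
    congr 1
    rw [hr]
    field_simp
  rw [e]
  exact h'

theorem normForm_scale_star (z : P.B) :
    normForm y x ((norm y / norm x) • star z) = normForm x y z := by
  have hy0 := (norm_pos y).ne'
  have hx0 := (norm_pos x).ne'
  rw [normForm, normForm, nrd_smul, nrd_star]
  field_simp

theorem scale_scale_star (z : P.B) :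
    (norm x / norm y) • star ((norm y / norm x) • star z) = z := by
  have hy0 := (norm_pos y).ne'
  have hx0 := (norm_pos x).ne'
  rw [QuaternionAlgebra.star_smul, star_star, smul_smul,
    show norm x / norm y * (norm y / norm x) = 1 by field_simp, one_smul]

/-- **Symmetry of the entries**, weighted by the stabilisers. -/
theorem entry_heckeT_mul_stabilizer_comm (hbad : Λ.bad = ∅) {n : ℕ} (hn : n ≠ 0)
    (x y : Pt Λ.level) :
    entry (Λ.heckeT n) x y * Nat.card (MulAction.stabilizer P.Bˣ y) =
      entry (Λ.heckeT n) y x * Nat.card (MulAction.stabilizer P.Bˣ x) := by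
  have hgood : Λ.Good n := ⟨hn, fun p hp => absurd hp (by simp [hbad])⟩
  rw [entry_heckeT_mul_stabilizer hgood x y, entry_heckeT_mul_stabilizer hgood y x]
  refine Nat.card_congr ⟨fun z => ⟨(norm y / norm x) • star z.1, scale_star_mem z.2.1,
      (normForm_scale_star z.1).trans z.2.2.1, fun p hp => absurd hp (by simp [hbad])⟩,
    fun z => ⟨(norm x / norm y) • star z.1, scale_star_mem z.2.1,
      (normForm_scale_star z.1).trans z.2.2.1, fun p hp => absurd hp (by simp [hbad])⟩,
    fun z => Subtype.ext (scale_scale_star z.1), fun z => Subtype.ext (scale_scale_star z.1)⟩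

/-- With a ramified prime congruent to one modulo twelve every stabiliser has two elements. -/
theorem card_stabilizer_eq_two {l : Nat.Primes} (hram : IsRamified P l) (hl : (l : ℕ) % 12 = 1)
    (x : Pt Λ.level) (hneg : ∀ p ∈ Λ.bad, (-1 : P.Bˣ) ∈ Λ.W p) :
    Nat.card (MulAction.stabilizer P.Bˣ x) = 2 := by
  have hmem : (-1 : P.Bˣ) ∈ MulAction.stabilizer P.Bˣ x := by
    refine MulAction.mem_stabilizer_iff.mpr (Pt.ext fun p => ?_)
    rw [Pt.smul_val, ← mk_rep x p]
    refine QuotientGroup.eq.mpr ?_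
    rw [show ((-1 : P.Bˣ) • Λ.rep x p)⁻¹ * Λ.rep x p = -1 from Units.ext (by simp)]
    by_cases hp : p ∈ Λ.bad
    · exact hneg p hp
    · show (-1 : P.Bˣ) ∈ Λ.W p
      rw [Λ.eq p hp, mem_localUnits, Units.val_neg, Units.val_one]
      exact ⟨neg_mem (one_mem _), by rw [vp, nrd_def]; simp⟩
  have hne : (1 : P.Bˣ) ≠ -1 := fun h => by
    have := congrArg (fun u : P.Bˣ => (u : P.B).re) h
    simp at this
    norm_num at this
  rw [show Nat.card (MulAction.stabilizer P.Bˣ x) = (MulAction.stabilizer P.Bˣ x : Set P.Bˣ).ncard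
    from Nat.card_coe_set_eq _]
  rw [show (MulAction.stabilizer P.Bˣ x : Set P.Bˣ) = {1, -1} from Set.ext fun g =>
    ⟨fun hg => stabilizer_eq_one_or_neg_one hram hl x g hg, fun hg => ?_⟩]
  · exact Set.ncard_pair hne
  · rcases hg with rfl | rfl
    · exact one_mem _
    · exact hmem

/-- **Symmetry of the entries at a neat level**. -/
theorem entry_heckeT_comm {l : Nat.Primes} (hram : IsRamified P l) (hl : (l : ℕ) % 12 = 1)
    (hbad : Λ.bad = ∅) {n : ℕ} (hn : n ≠ 0) (x y : Pt Λ.level) :
    entry (Λ.heckeT n) x y = entry (Λ.heckeT n) y x := by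
  have h := entry_heckeT_mul_stabilizer_comm hbad hn x y
  rw [card_stabilizer_eq_two hram hl x (by simp [hbad]),
    card_stabilizer_eq_two hram hl y (by simp [hbad])] at h
  omega

end Fermat.Agent.Two.Brandt.Param.Sub

end
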